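import Fermat.Agent.ES.Q58.PLPoly2

/-!
# Height of a composition of rational functions on the projective line (brick I-a-comp)

For a polynomial `P` of degree at most `n` we let `homEval P n A B = ∑ i ≤ n, p_i A^i B^(n-i)` be the
value at `(A, B)` of the binary form of degree `n` attached to `P`.  If `U, V` are coprime of height
`h` and `A, B` are coprime, then `homEval U h A B`, `homEval V h A B` are coprime and their height is
`h * ht A B`: the height of a composition of rational functions is multiplicative.
-/

set_option autoImplicit false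

namespace Fermat.Agent.ES.Q58.CompHt56

open Polynomial Finset Fermat.Agent.ES.Q58.PLPoly2

variable {k : Type*} [Field k]

/-! ### binary forms -/

/-- The value at `(s, t)` of the binary form of degree `n` attached to `P`, coefficients pushed
through `φ`. -/
def formEval {R : Type*} [CommRing R] (φ : k →+* R) (P : k[X]) (n : ℕ) (s t : R) : R :=
  ∑ i ∈ range (n + 1), φ (P.coeff i) * s ^ i * t ^ (n - i)

/-- `homEval P n A B = ∑ i ≤ n, C p_i * A^i * B^(n-i)`. -/
noncomputable def homEval (P : k[X]) (n : ℕ) (A B : k[X]) : k[X] :=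
  ∑ i ∈ range (n + 1), C (P.coeff i) * A ^ i * B ^ (n - i)

theorem homEval_eq_formEval (P : k[X]) (n : ℕ) (A B : k[X]) :
    homEval P n A B = formEval (C : k →+* k[X]) P n A B := rfl

theorem map_formEval {R S : Type*} [CommRing R] [CommRing S] (φ : k →+* R) (f : R →+* S)
    (P : k[X]) (n : ℕ) (s t : R) :
    f (formEval φ P n s t) = formEval (f.comp φ) P n (f s) (f t) := by
  simp [formEval, map_sum]

/-- At `t = 0` only the top term survives. -/
theorem formEval_zero_right {R : Type*} [CommRing R] (φ : k →+* R) (P : k[X]) (n : ℕ) (s : R) :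
    formEval φ P n s 0 = φ (P.coeff n) * s ^ n := by
  unfold formEval
  rw [sum_range_succ]
  have : ∑ i ∈ range n, φ (P.coeff i) * s ^ i * (0 : R) ^ (n - i) = 0 := by
    refine sum_eq_zero ?_
    intro i hi
    have hi' : i < n := mem_range.mp hi
    have : n - i ≠ 0 := by omega
    rw [zero_pow this, mul_zero]
  rw [this, zero_add, Nat.sub_self, pow_zero, mul_one]

/-- Dehomogenisation: if `z * t = s` and `deg P ≤ n` then the form at `(s, t)` is
`t ^ n * P(z)`. -/
theorem formEval_eq_eval {R : Type*} [CommRing R] (φ : k →+* R) {P : k[X]} {n : ℕ}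
    (hP : P.natDegree ≤ n) {s t z : R} (hz : z * t = s) :
    formEval φ P n s t = t ^ n * (P.map φ).eval z := by
  have hdeg : (P.map φ).natDegree < n + 1 :=
    lt_of_le_of_lt (natDegree_map_le) (Nat.lt_succ_of_le hP)
  rw [eval_eq_sum_range' hdeg, mul_sum]
  unfold formEval
  refine sum_congr rfl ?_
  intro i hi
  have hi' : i ≤ n := Nat.lt_succ_iff.mp (mem_range.mp hi)
  rw [coeff_map, ← hz]
  have : t ^ n = t ^ i * t ^ (n - i) := by rw [← pow_add]; congr 1; omega
  rw [this]
  ring

/-- `f (homEval P n A B) = (f B)^n * P(z)` when `z * f B = f A`. -/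
theorem map_homEval {K : Type*} [CommRing K] (f : k[X] →+* K) {P : k[X]} {n : ℕ} {A B : k[X]}
    {z : K} (hz : z * f B = f A) (hP : P.natDegree ≤ n) :
    f (homEval P n A B) = (f B) ^ n * (P.map (f.comp C)).eval z := by
  rw [homEval_eq_formEval, map_formEval]
  exact formEval_eq_eval _ hP hz

/-! ### the forms attached to a coprime pair have no common zero -/

theorem no_common_zero_forms {F : Type*} [Field F] (φ : k →+* F) {U V : k[X]}
    (hUV : IsCoprime U V) {s t : F} (hst : s ≠ 0 ∨ t ≠ 0)
    (hU : formEval φ U (ht U V) s t = 0) (hV : formEval φ V (ht U V) s t = 0) : False := by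
  by_cases ht0 : t = 0
  · subst ht0
    have hs : s ≠ 0 := by simpa using hst
    rw [formEval_zero_right] at hU hV
    have hsn : s ^ ht U V ≠ 0 := pow_ne_zero _ hs
    have hu : U.coeff (ht U V) = 0 :=
      (map_eq_zero φ).mp ((mul_eq_zero.mp hU).resolve_right hsn)
    have hv : V.coeff (ht U V) = 0 :=
      (map_eq_zero φ).mp ((mul_eq_zero.mp hV).resolve_right hsn)
    rcases top_ne_zero (ne_zero_of_isCoprime hUV) with h | h
    · exact h hu
    · exact h hv
  · have hz : (s / t) * t = s := div_mul_cancel₀ s ht0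
    rw [formEval_eq_eval φ (natDegree_le_ht_left U V) hz] at hU
    rw [formEval_eq_eval φ (natDegree_le_ht_right U V) hz] at hV
    have htn : t ^ ht U V ≠ 0 := pow_ne_zero _ ht0
    have hu : (U.map φ).eval (s / t) = 0 := (mul_eq_zero.mp hU).resolve_left htn
    have hv : (V.map φ).eval (s / t) = 0 := (mul_eq_zero.mp hV).resolve_left htn
    obtain ⟨a, b, hab⟩ := hUV
    have := congrArg (fun Q : k[X] => (Q.map φ).eval (s / t)) hab
    simp only [Polynomial.map_add, Polynomial.map_mul, eval_add, eval_mul, hu, hv, mul_zero,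
      add_zero, Polynomial.map_one, eval_one] at this
    exact zero_ne_one this

/-! ### top coefficients of `homEval` -/

theorem topCoeff_sum {ι : Type*} (s : Finset ι) (P : ι → k[X]) (n : ℕ) (c : ι → k)
    (h : ∀ i ∈ s, TopCoeff (P i) n (c i)) : TopCoeff (∑ i ∈ s, P i) n (∑ i ∈ s, c i) := by
  classical
  induction s using Finset.induction_on with
  | empty =>
    refine ⟨by simp, by simp⟩
  | insert a s ha ih =>
    rw [sum_insert ha, sum_insert ha]
    exact (h a (mem_insert_self a s)).add (ih fun i hi => h i (mem_insert_of_mem hi))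

theorem topCoeff_homEval (P : k[X]) (n : ℕ) {A B : k[X]} {d : ℕ} {a b : k}
    (hA : TopCoeff A d a) (hB : TopCoeff B d b) :
    TopCoeff (homEval P n A B) (n * d) (formEval (RingHom.id k) P n a b) := by
  unfold homEval formEval
  refine topCoeff_sum _ _ _ _ ?_
  intro i hi
  have hi' : i ≤ n := Nat.lt_succ_iff.mp (mem_range.mp hi)
  have h1 := ((TopCoeff.const (P.coeff i)).mul (hA.pow i)).mul (hB.pow (n - i))
  refine h1.cast ?_ rfl
  have : n = i + (n - i) := by omega
  calc 0 + i * d + (n - i) * d = (i + (n - i)) * d := by ring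
    _ = n * d := by rw [← this]

theorem ht_eq_of_topCoeff {A B : k[X]} {n : ℕ} {a b : k} (hA : TopCoeff A n a)
    (hB : TopCoeff B n b) (h : a ≠ 0 ∨ b ≠ 0) : ht A B = n := by
  refine le_antisymm (max_le hA.1 hB.1) ?_
  rcases h with h | h
  · rw [← hA.natDegree_eq h]; exact le_max_left _ _
  · rw [← hB.natDegree_eq h]; exact le_max_right _ _

/-! ### the main statement -/

/-- **Multiplicativity of the height under composition.** -/
theorem comp_ht {U V A B : k[X]} (hUV : IsCoprime U V) (hAB : IsCoprime A B) :
    IsCoprime (homEval U (ht U V) A B) (homEval V (ht U V) A B) ∧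
      ht (homEval U (ht U V) A B) (homEval V (ht U V) A B) = ht U V * ht A B := by
  classical
  constructor
  · -- coprimality: a common prime factor gives a common zero of the forms in `k[X]/π`
    rw [← EuclideanDomain.gcd_isUnit_iff]
    by_contra hnu
    set g := EuclideanDomain.gcd (homEval U (ht U V) A B) (homEval V (ht U V) A B) with hg
    have hgU : g ∣ homEval U (ht U V) A B := EuclideanDomain.gcd_dvd_left _ _
    have hgV : g ∣ homEval V (ht U V) A B := EuclideanDomain.gcd_dvd_right _ _
    -- a prime `π` dividing both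
    obtain ⟨π, hπ, hπU, hπV⟩ : ∃ π : k[X], Prime π ∧ π ∣ homEval U (ht U V) A B ∧
        π ∣ homEval V (ht U V) A B := by
      by_cases hg0 : g = 0
      · rw [hg0] at hgU hgV
        exact ⟨X, prime_X, (zero_dvd_iff.mp hgU) ▸ dvd_zero _, (zero_dvd_iff.mp hgV) ▸ dvd_zero _⟩
      · obtain ⟨π, hπ, hπg⟩ := WfDvdMonoid.exists_irreducible_factor hnu hg0
        exact ⟨π, hπ.prime, hπg.trans hgU, hπg.trans hgV⟩
    have : Fact (Irreducible π) := ⟨hπ.irreducible⟩
    let φ : k[X] →+* AdjoinRoot π := AdjoinRoot.mk π
    have hφ : ∀ P : k[X], φ P = 0 ↔ π ∣ P := fun P => AdjoinRoot.mk_eq_zero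
    have e1 := (hφ _).mpr hπU
    have e2 := (hφ _).mpr hπV
    rw [homEval_eq_formEval, map_formEval] at e1 e2
    have hst : φ A ≠ 0 ∨ φ B ≠ 0 := by
      by_contra hcon
      push Not at hcon
      exact not_dvd_both hAB hπ ((hφ _).mp hcon.1) ((hφ _).mp hcon.2)
    exact no_common_zero_forms (φ.comp C) hUV hst e1 e2
  · -- height: top coefficients
    set d := ht A B with hd
    have hA := topCoeff_self A d (natDegree_le_ht_left A B)
    have hB := topCoeff_self B d (natDegree_le_ht_right A B)
    have hab := top_ne_zero (ne_zero_of_isCoprime hAB)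
    refine ht_eq_of_topCoeff (topCoeff_homEval U (ht U V) hA hB) (topCoeff_homEval V (ht U V) hA hB) ?_
    by_contra hcon
    push Not at hcon
    exact no_common_zero_forms (RingHom.id k) hUV hab hcon.1 hcon.2

end Fermat.Agent.ES.Q58.CompHt56
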