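import Fermat.Agent.ES.Q58.PLPoly2

/-!
# Heights of compositions of rational functions

For coprime pairs `(U, V)` and `(A, B)` of polynomials over a field, the homogeneous substitution
`(U^h(A, B), V^h(A, B))` (with `h = ht U V`) is again a coprime pair, of height `ht U V * ht A B`.
This is the multiplicativity of the degree of rational functions under composition, in the
"coprime numerator/denominator" normal form used by `PLPoly2`.
-/

set_option autoImplicit false

namespace Fermat.Agent.ES.Q58.CompHt61

open Polynomial Finset Fermat.Agent.ES.Q58.PLPoly2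

variable {k : Type*} [Field k]

/-- The homogeneous substitution `∑ i ≤ n, Pᵢ Aⁱ Bⁿ⁻ⁱ`. -/
noncomputable def homEval (P : k[X]) (n : ℕ) (A B : k[X]) : k[X] :=
  ∑ i ∈ range (n + 1), C (P.coeff i) * A ^ i * B ^ (n - i)

/-- The value of the binary form of degree `n` attached to `P` at `(a, b)`, through `ψ`. -/
def formVal {K : Type*} [CommRing K] (ψ : k →+* K) (P : k[X]) (n : ℕ) (a b : K) : K :=
  ∑ i ∈ range (n + 1), ψ (P.coeff i) * a ^ i * b ^ (n - i)

theorem map_homEval_eq_formVal {K : Type*} [CommRing K] (f : k[X] →+* K) (P : k[X]) (n : ℕ)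
    (A B : k[X]) : f (homEval P n A B) = formVal (f.comp C) P n (f A) (f B) := by
  simp only [homEval, formVal, map_sum, map_mul, map_pow, RingHom.comp_apply]

/-- Evaluation of the binary form when the second variable is invertible. -/
theorem formVal_eq_eval {K : Type*} [Field K] (ψ : k →+* K) {P : k[X]} {n : ℕ}
    (hP : P.natDegree ≤ n) {a b : K} (z : K) (hz : z * b = a) :
    formVal ψ P n a b = b ^ n * (P.map ψ).eval z := by
  have hdeg : (P.map ψ).natDegree < n + 1 :=
    lt_of_le_of_lt (natDegree_map_le) (Nat.lt_succ_of_le hP)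
  rw [eval_eq_sum_range' hdeg, mul_sum]
  refine sum_congr rfl fun i hi => ?_
  have hin : i ≤ n := Nat.lt_succ_iff.mp (mem_range.mp hi)
  rw [coeff_map, ← hz, mul_pow]
  have : b ^ n = b ^ i * b ^ (n - i) := by rw [← pow_add, Nat.add_sub_cancel' hin]
  rw [this]; ring

/-- Evaluation of the binary form when the second variable vanishes. -/
theorem formVal_zero_right {K : Type*} [CommRing K] (ψ : k →+* K) (P : k[X]) (n : ℕ) (a : K) :
    formVal ψ P n a 0 = ψ (P.coeff n) * a ^ n := by
  rw [formVal, sum_range_succ]
  have : ∑ i ∈ range n, ψ (P.coeff i) * a ^ i * (0 : K) ^ (n - i) = 0 := by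
    refine sum_eq_zero fun i hi => ?_
    have : n - i ≠ 0 := Nat.sub_ne_zero_of_lt (mem_range.mp hi)
    rw [zero_pow this, mul_zero]
  rw [this, zero_add, Nat.sub_self, pow_zero, mul_one]

/-- The two binary forms attached to a coprime pair have no common zero on the projective line
over any field extension. -/
theorem no_common_zero_forms {K : Type*} [Field K] (ψ : k →+* K) {U V : k[X]}
    (hUV : IsCoprime U V) {a b : K} (hab : a ≠ 0 ∨ b ≠ 0)
    (hU : formVal ψ U (ht U V) a b = 0) (hV : formVal ψ V (ht U V) a b = 0) : False := by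
  by_cases hb : b = 0
  · subst hb
    have ha : a ≠ 0 := by simpa using hab
    rw [formVal_zero_right] at hU hV
    have hU' : ψ (U.coeff (ht U V)) = 0 :=
      (mul_eq_zero.mp hU).resolve_right (pow_ne_zero _ ha)
    have hV' : ψ (V.coeff (ht U V)) = 0 :=
      (mul_eq_zero.mp hV).resolve_right (pow_ne_zero _ ha)
    rcases top_ne_zero (ne_zero_of_isCoprime hUV) with h | h
    · exact h ((map_eq_zero ψ).mp hU')
    · exact h ((map_eq_zero ψ).mp hV')
  · have hz : a / b * b = a := div_mul_cancel₀ a hb
    rw [formVal_eq_eval ψ (natDegree_le_ht_left U V) (a / b) hz] at hU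
    rw [formVal_eq_eval ψ (natDegree_le_ht_right U V) (a / b) hz] at hV
    have hU' : (U.map ψ).eval (a / b) = 0 :=
      (mul_eq_zero.mp hU).resolve_left (pow_ne_zero _ hb)
    have hV' : (V.map ψ).eval (a / b) = 0 :=
      (mul_eq_zero.mp hV).resolve_left (pow_ne_zero _ hb)
    obtain ⟨x, y, hxy⟩ := hUV
    have := congrArg (fun Q : k[X] => (Q.map ψ).eval (a / b)) hxy
    simp only [Polynomial.map_add, Polynomial.map_mul, eval_add, eval_mul, hU', hV', mul_zero,
      add_zero, Polynomial.map_one, eval_one] at this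
    exact zero_ne_one this

/-- Top coefficient of the homogeneous substitution. -/
theorem topCoeff_homEval (P : k[X]) (n : ℕ) {A B : k[X]} {d : ℕ} {α β : k}
    (hA : TopCoeff A d α) (hB : TopCoeff B d β) :
    TopCoeff (homEval P n A B) (n * d) (formVal (RingHom.id k) P n α β) := by
  have key : ∀ i ∈ range (n + 1),
      TopCoeff (C (P.coeff i) * A ^ i * B ^ (n - i)) (n * d)
        (P.coeff i * α ^ i * β ^ (n - i)) := by
    intro i hi
    have hin : i ≤ n := Nat.lt_succ_iff.mp (mem_range.mp hi)
    have := ((TopCoeff.const (P.coeff i)).mul (hA.pow i)).mul (hB.pow (n - i))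
    refine this.cast ?_ rfl
    rw [zero_add, ← add_mul, Nat.add_sub_cancel' hin]
  -- sum of top coefficients
  have hsum : ∀ s : Finset ℕ, (∀ i ∈ s, i ∈ range (n + 1)) →
      TopCoeff (∑ i ∈ s, C (P.coeff i) * A ^ i * B ^ (n - i)) (n * d)
        (∑ i ∈ s, P.coeff i * α ^ i * β ^ (n - i)) := by
    intro s
    classical
    induction s using Finset.induction_on with
    | empty =>
      intro _
      exact ⟨by simp, by simp⟩
    | insert a s ha ih =>
      intro hs
      rw [sum_insert ha, sum_insert ha]
      exact (key a (hs a (mem_insert_self a s))).add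
        (ih fun i hi => hs i (mem_insert_of_mem hi))
  have := hsum (range (n + 1)) fun i hi => hi
  simpa [homEval, formVal] using this

theorem ht_eq_of_topCoeff {P Q : k[X]} {n : ℕ} {a b : k} (hP : TopCoeff P n a)
    (hQ : TopCoeff Q n b) (h : a ≠ 0 ∨ b ≠ 0) : ht P Q = n := by
  refine le_antisymm (max_le hP.1 hQ.1) ?_
  rcases h with h | h
  · rw [← hP.natDegree_eq h]; exact le_max_left _ _
  · rw [← hQ.natDegree_eq h]; exact le_max_right _ _

/-- **Multiplicativity of heights under composition**, in coprime normal form. -/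
theorem comp_ht {U V A B : k[X]} (hUV : IsCoprime U V) (hAB : IsCoprime A B) :
    IsCoprime (homEval U (ht U V) A B) (homEval V (ht U V) A B) ∧
      ht (homEval U (ht U V) A B) (homEval V (ht U V) A B) = ht U V * ht A B := by
  classical
  constructor
  · -- coprimality: a common prime factor gives a common zero of the forms over `k[X]/π`
    rw [← EuclideanDomain.gcd_isUnit_iff]
    by_contra hnu
    set g := EuclideanDomain.gcd (homEval U (ht U V) A B) (homEval V (ht U V) A B) with hg
    have hgU : g ∣ homEval U (ht U V) A B := EuclideanDomain.gcd_dvd_left _ _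
    have hgV : g ∣ homEval V (ht U V) A B := EuclideanDomain.gcd_dvd_right _ _
    -- a prime dividing both
    obtain ⟨π, hπ, hπU, hπV⟩ : ∃ π : k[X], Prime π ∧ π ∣ homEval U (ht U V) A B ∧
        π ∣ homEval V (ht U V) A B := by
      by_cases hg0 : g = 0
      · rw [hg0] at hgU hgV
        exact ⟨X, prime_X, (zero_dvd_iff.mp hgU) ▸ dvd_zero _, (zero_dvd_iff.mp hgV) ▸ dvd_zero _⟩
      · obtain ⟨π, hπ, hπg⟩ := WfDvdMonoid.exists_irreducible_factor hnu hg0
        exact ⟨π, hπ.prime, hπg.trans hgU, hπg.trans hgV⟩
    have : Fact (Irreducible π) := ⟨hπ.irreducible⟩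
    let φ : k[X] →+* AdjoinRoot π := AdjoinRoot.mk π
    have hφ : ∀ P : k[X], φ P = 0 ↔ π ∣ P := fun P => AdjoinRoot.mk_eq_zero
    have eU := (hφ _).mpr hπU
    have eV := (hφ _).mpr hπV
    rw [map_homEval_eq_formVal] at eU eV
    have hab : φ A ≠ 0 ∨ φ B ≠ 0 := by
      by_contra hcon
      push Not at hcon
      exact not_dvd_both hAB hπ ((hφ _).mp hcon.1) ((hφ _).mp hcon.2)
    exact no_common_zero_forms (φ.comp C) hUV hab eU eV
  · have hA := topCoeff_self A _ (natDegree_le_ht_left A B)
    have hB := topCoeff_self B _ (natDegree_le_ht_right A B)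
    have tU := topCoeff_homEval U (ht U V) hA hB
    have tV := topCoeff_homEval V (ht U V) hA hB
    refine ht_eq_of_topCoeff tU tV ?_
    by_contra hcon
    push Not at hcon
    exact no_common_zero_forms (RingHom.id k) hUV (top_ne_zero (ne_zero_of_isCoprime hAB))
      hcon.1 hcon.2

/-- Image of the homogeneous substitution under a ring homomorphism to a field in which
`A / B` makes sense. -/
theorem map_homEval {K : Type*} [Field K] (f : k[X] →+* K) {P A B : k[X]} {n : ℕ} (z : K)
    (hz : z * f B = f A) (hP : P.natDegree ≤ n) :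
    f (homEval P n A B) = (f B) ^ n * (P.map (f.comp C)).eval z := by
  rw [map_homEval_eq_formVal, formVal_eq_eval (f.comp C) hP z hz]

end Fermat.Agent.ES.Q58.CompHt61
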