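/-
Programme Q (S58), PART I, counting lower bounds for Manin's lemma (helper82).

* `card_le_of_substHom_fixed` (C0): `z ∈ K = k(W)` with `z · V(x) = U(x)`, `U, V` coprime and not both
  constant.  If every `u` of a finite set `𝒰 ⊆ K` is the `x`-coordinate of a point `(u, v)` of `W(K)`
  with `u` transcendental and `σ_{(u,v)} z = z`, then `#𝒰 ≤ max (deg U) (deg V)`
  (`U(Z) − z V(Z) ∈ K[Z]` is nonzero of degree at most the height and vanishes on `𝒰`).
* `card_le_ht_of_kernel` (C1, general): `W` over `F`, `Wk = W⁄k`, `K = k(Wk)`, `Φ` an `F`-endomorphism of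
  `K` commuting with the `k`-endomorphisms (Frobenius), `S = (1 + nΦ) P₀` with `x_S = U / V` coprime, not
  both constant: every finite set of algebraic points of `W(K)` killed by `1 + nΦ` has at most
  `max (deg U) (deg V)` elements (`T ↦ x(P₀ + T)` is injective into the roots of `U(Z) − x_S V(Z)`).
* `card_point_le_ht` (C1): over `ZMod r`: `#W(F_r) ≤ ht x(P₀ − Frob P₀)` (given `ht > 0`).
-/
import Mathlib
import Fermat.Agent.ES.Q58.IotaDescent23
import Fermat.Agent.ES.Q58.SubstEmb17
import Fermat.Agent.ES.Q58.FrobAlg15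
import Fermat.Prelude.Def_FLTPrelim_Modularity

set_option autoImplicit false
set_option linter.unusedSectionVars false

open WeierstrassCurve WeierstrassCurve.Affine Polynomial
open Fermat.Agent.ES.Q58.IotaDescent23 Fermat.Agent.ES.Q58.SubstEmb17

namespace Fermat.Agent.ES.Q58.Count82

section Root

variable {k : Type*} [Field k] (W : Affine k)

/-- **(C0) root counting.** -/
theorem card_le_of_substHom_fixed {U V : k[X]} (hUV : IsCoprime U V)
    (hht : 0 < max U.natDegree V.natDegree) {z : W.FunctionField}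
    (hz : z * algebraMap k[X] W.FunctionField V = algebraMap k[X] W.FunctionField U)
    (𝒰 : Finset W.FunctionField)
    (h𝒰 : ∀ u ∈ 𝒰, ∃ (v : W.FunctionField) (h : (W⁄W.FunctionField).Equation u v)
      (hX : Transcendental k u), substHom W h hX z = z) :
    𝒰.card ≤ max U.natDegree V.natDegree := by
  classical
  have hztr : Transcendental k z := transcendental_of_isCoprime W hUV hht hz
  have hV : V ≠ 0 := by
    rintro rfl
    rw [map_zero, mul_zero] at hz
    have hU : U = 0 := algebraMap_functionField_injective W (by rw [← hz, map_zero])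
    rw [hU] at hUV
    exact not_isCoprime_zero_zero hUV
  set p : W.FunctionField[X] :=
    U.map (algebraMap k W.FunctionField) - C z * V.map (algebraMap k W.FunctionField) with hp
  have hp0 : p ≠ 0 := by
    intro h0
    obtain ⟨i, hi⟩ : ∃ i, V.coeff i ≠ 0 := by
      by_contra hcon
      push Not at hcon
      exact hV (Polynomial.ext fun i => by rw [hcon i, coeff_zero])
    have hc := congrArg (fun q : W.FunctionField[X] => q.coeff i) h0
    simp only [hp, coeff_sub, coeff_map, coeff_C_mul, coeff_zero] at hc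
    have hVi : algebraMap k W.FunctionField (V.coeff i) ≠ 0 :=
      (map_ne_zero_iff _ (algebraMap k W.FunctionField).injective).mpr hi
    have hzc : z = algebraMap k W.FunctionField (U.coeff i / V.coeff i) := by
      rw [map_div₀, eq_div_iff hVi]
      exact (sub_eq_zero.mp hc).symm
    exact hztr (hzc ▸ isAlgebraic_algebraMap _)
  have hdeg : p.natDegree ≤ max U.natDegree V.natDegree := by
    refine (natDegree_sub_le _ _).trans (max_le_max natDegree_map_le ?_)
    exact (natDegree_C_mul_le _ _).trans natDegree_map_le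
  have hroots : 𝒰.val ⊆ p.roots := by
    intro u hu
    obtain ⟨v, h, hX, hσ⟩ := h𝒰 u (Finset.mem_val.mp hu)
    rw [mem_roots hp0, IsRoot.def, hp, eval_sub, eval_mul, eval_C, eval_map_algebraMap,
      eval_map_algebraMap]
    have h1 := congrArg (substHom W h hX) hz
    rw [map_mul, hσ, substHom_algebraMap_polynomial, substHom_algebraMap_polynomial] at h1
    rw [h1, sub_self]
  exact (card_le_degree_of_subset_roots hroots).trans hdeg

end Root

section TwoTorsion

variable {k : Type*} [Field k] (W : Affine k) {L : Type*} [Field L] [Algebra k L]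

/-- the `2`-division polynomial `4X³ + b₂X² + 2b₄X + b₆`. -/
noncomputable def psi2Sq : k[X] :=
  C 4 * X ^ 3 + C W.b₂ * X ^ 2 + C (2 * W.b₄) * X + C W.b₆

theorem psi2Sq_ne_zero (hΔ : W.Δ ≠ 0) : psi2Sq W ≠ 0 := by
  intro h0
  have c2 := congrArg (fun p : k[X] => p.coeff 2) h0
  have c1 := congrArg (fun p : k[X] => p.coeff 1) h0
  have c0 := congrArg (fun p : k[X] => p.coeff 0) h0
  simp only [psi2Sq, coeff_add, coeff_C_mul, coeff_X_pow, coeff_X, coeff_C, coeff_zero] at c2 c1 c0
  norm_num at c2 c0
  have c1' : 2 * W.b₄ = 0 := by simpa using c1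
  apply hΔ
  rw [WeierstrassCurve.Δ]
  linear_combination (-(W.b₂ * W.b₈) + 9 * W.b₄ * W.b₆) * c2 - 27 * W.b₆ * c0
    - 4 * W.b₄ ^ 2 * c1'

/-- a point of `W(L)` with `y = negY` has `x`-coordinate a root of the `2`-division polynomial. -/
theorem aeval_psi2Sq_of_Y_eq {x y : L} (h : (W⁄L).Equation x y) (hy : y = (W⁄L).negY x y) :
    aeval x (psi2Sq W) = 0 := by
  rw [equation_iff] at h
  rw [Affine.negY] at hy
  simp only [baseChange_a₁, baseChange_a₂, baseChange_a₃, baseChange_a₄, baseChange_a₆] at h hy
  simp only [psi2Sq, map_add, map_mul, map_pow, aeval_X, aeval_C, WeierstrassCurve.b₂,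
    WeierstrassCurve.b₄, WeierstrassCurve.b₆, map_ofNat]
  have h2 : 2 * y + algebraMap k L W.a₁ * x + algebraMap k L W.a₃ = 0 := by linear_combination hy
  linear_combination (2 * y + algebraMap k L W.a₁ * x + algebraMap k L W.a₃) * h2 - 4 * h

/-- hence an algebraic `x`-coordinate. -/
theorem isAlgebraic_x_of_Y_eq (hΔ : W.Δ ≠ 0) {x y : L} (h : (W⁄L).Equation x y)
    (hy : y = (W⁄L).negY x y) : IsAlgebraic k x :=
  ⟨psi2Sq W, psi2Sq_ne_zero W hΔ, aeval_psi2Sq_of_Y_eq W h hy⟩

end TwoTorsion

section General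

/-- `x`-coordinate (`0` at infinity). -/
noncomputable def xco {E : Type*} [Field E] {V : Affine E} : V.Point → E
  | .zero => 0
  | .some x _ _ => x

theorem xco_some {E : Type*} [Field E] {V : Affine E} {x y : E} (h : V.Nonsingular x y) :
    xco (Point.some x y h) = x := rfl

theorem xco_zero {E : Type*} [Field E] {V : Affine E} : xco (0 : V.Point) = 0 := rfl

/-- two affine points with the same `x`-coordinate are equal or opposite. -/
theorem eq_or_eq_neg_of_x_eq {E : Type*} [Field E] [DecidableEq E] {V : Affine E} {x y y' : E}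
    (h : V.Nonsingular x y) (h' : V.Nonsingular x y') :
    Point.some x y h = Point.some x y' h' ∨ Point.some x y h = -Point.some x y' h' := by
  rcases Y_eq_of_X_eq h.1 h'.1 rfl with e | e
  · left; subst e; rfl
  · right; rw [Point.neg_some]; subst e; rfl

variable {F : Type*} [Field F] (W : Affine F) {k : Type*} [Field k] [Algebra F k]
  [dK : DecidableEq (W⁄k).FunctionField]

theorem nonsingular_gen (hΔ : (W⁄k).Δ ≠ 0) :
    (W⁄(W⁄k).FunctionField).Nonsingular (xK (W⁄k)) (yK (W⁄k)) :=
  nonsingular_xK_yK (W⁄k) hΔ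

/-- the generic point, as a point of `W` (over `F`) with coordinates in `K = k(W)`. -/
noncomputable def gen (hΔ : (W⁄k).Δ ≠ 0) : (W⁄(W⁄k).FunctionField).Point :=
  Point.some _ _ (nonsingular_gen W hΔ)

theorem gen_eq_genericPoint (hΔ : (W⁄k).Δ ≠ 0) :
    gen W hΔ = genericPoint (W⁄k) hΔ := rfl

/-- a point with algebraic `x`-coordinate is an algebraic point. -/
theorem mem_algPoints_of_isAlgebraic (P : (W⁄(W⁄k).FunctionField).Point)
    (hP : IsAlgebraic k (xco P)) :
    (P : ((W⁄k)⁄(W⁄k).FunctionField).Point) ∈ algPoints (W⁄k) (W⁄k).FunctionField := by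
  rcases P with _ | ⟨x, y, h⟩
  · exact zero_mem _
  · exact (some_mem_algPoints_iff (W⁄k) (L := (W⁄k).FunctionField) h).mpr hP

/-- the substitution at a point with transcendental `x`-coordinate, as an `F`-algebra map. -/
noncomputable def substF {u v : (W⁄k).FunctionField}
    (h : (W⁄(W⁄k).FunctionField).Equation u v) (hX : Transcendental k u) :
    (W⁄k).FunctionField →ₐ[F] (W⁄k).FunctionField :=
  (substHom (W⁄k) (L := (W⁄k).FunctionField) h hX).restrictScalars F

theorem substF_apply {u v : (W⁄k).FunctionField}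
    (h : (W⁄(W⁄k).FunctionField).Equation u v) (hX : Transcendental k u)
    (z : (W⁄k).FunctionField) :
    substF W h hX z = substHom (W⁄k) (L := (W⁄k).FunctionField) h hX z := rfl

theorem map_substF_gen (hΔ : (W⁄k).Δ ≠ 0) {u v : (W⁄k).FunctionField}
    (h : (W⁄(W⁄k).FunctionField).Nonsingular u v) (hX : Transcendental k u) :
    Point.map (W' := W) (substF W h.1 hX) (gen W hΔ) = Point.some u v h := by
  rw [gen, Point.map_some]
  congr 1
  · exact substHom_xK (W⁄k) h.1 hX
  · exact substHom_yK (W⁄k) h.1 hX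

/-- `gen + P` is an affine point with transcendental `x`-coordinate, for an algebraic point `P`. -/
theorem exists_gen_add_alg (hΔ : (W⁄k).Δ ≠ 0) (P : (W⁄(W⁄k).FunctionField).Point)
    (hP : IsAlgebraic k (xco P)) :
    ∃ (u v : (W⁄k).FunctionField) (h : (W⁄(W⁄k).FunctionField).Nonsingular u v),
      gen W hΔ + P = Point.some u v h ∧ Transcendental k u := by
  have hPa := mem_algPoints_of_isAlgebraic W P hP
  rcases hQ : gen W hΔ + P with _ | ⟨u, v, h⟩
  · exfalso
    have h1 : gen W hΔ = -P := eq_neg_of_add_eq_zero_left hQ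
    have h2 : (genericPoint (W⁄k) hΔ) ∈ algPoints (W⁄k) (W⁄k).FunctionField := by
      rw [← gen_eq_genericPoint, h1]
      exact neg_mem hPa
    rw [IotaDescent23.genericPoint, some_mem_algPoints_iff] at h2
    exact transcendental_xK (W⁄k) h2
  · exact ⟨u, v, h, rfl, transcendental_of_genericPoint_add (W⁄k) hΔ hPa h hQ⟩

variable (hΔ : (W⁄k).Δ ≠ 0)
  (Φ : (W⁄k).FunctionField →ₐ[F] (W⁄k).FunctionField)
  (hΦσ : ∀ (σ : (W⁄k).FunctionField →ₐ[k] (W⁄k).FunctionField) (z : (W⁄k).FunctionField),
    Φ (σ z) = σ (Φ z))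
  (n : ℤ)

/-- the additive operator `1 + n Φ` on points. -/
noncomputable def opL : (W⁄(W⁄k).FunctionField).Point →+ (W⁄(W⁄k).FunctionField).Point :=
  AddMonoidHom.id _ + n • Point.map (W' := W) Φ

theorem opL_apply (P : (W⁄(W⁄k).FunctionField).Point) :
    opL W Φ n P = P + n • Point.map (W' := W) Φ P := rfl

include hΦσ in
theorem map_substF_opL {u v : (W⁄k).FunctionField}
    (h : (W⁄(W⁄k).FunctionField).Equation u v) (hX : Transcendental k u)
    (P : (W⁄(W⁄k).FunctionField).Point) :
    Point.map (W' := W) (substF W h hX) (opL W Φ n P) =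
      opL W Φ n (Point.map (W' := W) (substF W h hX) P) := by
  have e : (substF W h hX).comp Φ = Φ.comp (substF W h hX) :=
    AlgHom.ext fun z => (hΦσ (substHom (W⁄k) (L := (W⁄k).FunctionField) h hX) z).symm
  rw [opL_apply, opL_apply, map_add, map_zsmul, Point.map_map, Point.map_map, e]

include hΦσ in
/-- **(C1), internal form** (curve over `k` literally `W⁄k`). -/
theorem card_le_ht_of_kernel_aux {xS yS : (W⁄k).FunctionField}
    (hns : (W⁄(W⁄k).FunctionField).Nonsingular xS yS)
    (hS : opL W Φ n (gen W hΔ) = Point.some xS yS hns)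
    {U V : k[X]} (hUV : IsCoprime U V) (hht : 0 < max U.natDegree V.natDegree)
    (hz : xS * algebraMap k[X] (W⁄k).FunctionField V = algebraMap k[X] (W⁄k).FunctionField U)
    (G : Finset (W⁄(W⁄k).FunctionField).Point) (hGalg : ∀ P ∈ G, IsAlgebraic k (xco P))
    (hG : ∀ P ∈ G, opL W Φ n P = 0) :
    G.card ≤ max U.natDegree V.natDegree := by
  classical
  have hxS : Transcendental k xS := transcendental_of_isCoprime (W⁄k) hUV hht hz
  -- `(1 + nΦ)(P₀ + P) = S` for `P ∈ G`
  have hL : ∀ P ∈ G, opL W Φ n (gen W hΔ + P) = Point.some xS yS hns := by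
    intro P hP
    rw [map_add, hS, hG P hP, add_zero]
  -- the `x`-coordinates
  let f : (W⁄(W⁄k).FunctionField).Point → (W⁄k).FunctionField := fun P => xco (gen W hΔ + P)
  have hinj : Set.InjOn f G := by
    intro T hT T' hT' hTT'
    obtain ⟨u, v, h, hP, -⟩ := exists_gen_add_alg W hΔ T (hGalg T hT)
    obtain ⟨u', v', h', hP', -⟩ := exists_gen_add_alg W hΔ T' (hGalg T' hT')
    have huu : u = u' := by
      have : xco (gen W hΔ + T) = xco (gen W hΔ + T') := hTT'
      rwa [hP, hP', xco_some, xco_some] at this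
    subst huu
    rcases eq_or_eq_neg_of_x_eq h h' with e | e
    · rw [← hP, ← hP'] at e
      exact add_left_cancel e
    · exfalso
      rw [← hP, ← hP'] at e
      have h1 := congrArg (opL W Φ n) e
      rw [map_neg, hL T hT, hL T' hT', Point.neg_some] at h1
      have h2 : yS = (W⁄(W⁄k).FunctionField).negY xS yS := (Point.some.inj h1).2
      exact hxS (isAlgebraic_x_of_Y_eq (W⁄k) hΔ (L := (W⁄k).FunctionField) hns.1 h2)
  rw [← Finset.card_image_of_injOn hinj]
  refine card_le_of_substHom_fixed (W⁄k) hUV hht hz _ ?_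
  intro u hu
  obtain ⟨T, hT, rfl⟩ := Finset.mem_image.mp hu
  obtain ⟨u, v, h, hP, hX⟩ := exists_gen_add_alg W hΔ T (hGalg T hT)
  have hfu : f T = u := by
    show xco (gen W hΔ + T) = u
    rw [hP, xco_some]
  rw [hfu]
  refine ⟨v, h.1, hX, ?_⟩
  have h1 := map_substF_opL W Φ hΦσ n h.1 hX (gen W hΔ)
  rw [map_substF_gen W hΔ h hX, ← hP, hL T hT, hS, Point.map_some] at h1
  exact (Point.some.inj h1).1

end General

section Wrapper

variable {F : Type*} [Field F] (W : Affine F) {k : Type*} [Field k] [Algebra F k]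
  (Wk : Affine k) (hWk : Wk = (W⁄k)) [dK : DecidableEq Wk.FunctionField]

include hWk in
/-- **(C1), general form.**  `W` a curve over `F`, `Wk` its base change to `k` (any curve
propositionally equal to `W⁄k`), `K = k(Wk)`, `Φ` an `F`-endomorphism of `K` commuting with all
`k`-endomorphisms of `K`, `S = (1 + nΦ) P₀` an affine point whose `x`-coordinate is `U / V` (coprime,
not both constant).  Then every finite set of algebraic points of `W(K)` killed by `1 + nΦ` has at
most `max (deg U) (deg V)` elements. -/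
theorem card_le_ht_of_kernel (hΔ : Wk.Δ ≠ 0)
    (Φ : Wk.FunctionField →ₐ[F] Wk.FunctionField)
    (hΦσ : ∀ (σ : Wk.FunctionField →ₐ[k] Wk.FunctionField) (z : Wk.FunctionField),
      Φ (σ z) = σ (Φ z))
    (n : ℤ) (hgen : (W⁄Wk.FunctionField).Nonsingular (xK Wk) (yK Wk))
    {xS yS : Wk.FunctionField} (hns : (W⁄Wk.FunctionField).Nonsingular xS yS)
    (hS : Point.some (xK Wk) (yK Wk) hgen +
      n • Point.map (W' := W) Φ (Point.some (xK Wk) (yK Wk) hgen) = Point.some xS yS hns)
    {U V : k[X]} (hUV : IsCoprime U V) (hht : 0 < max U.natDegree V.natDegree)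
    (hz : xS * algebraMap k[X] Wk.FunctionField V = algebraMap k[X] Wk.FunctionField U)
    (G : Finset (W⁄Wk.FunctionField).Point) (hGalg : ∀ P ∈ G, IsAlgebraic k (xco P))
    (hG : ∀ P ∈ G, P + n • Point.map (W' := W) Φ P = 0) :
    G.card ≤ max U.natDegree V.natDegree := by
  subst hWk
  exact card_le_ht_of_kernel_aux W hΔ Φ hΦσ n hns hS hUV hht hz G hGalg hG

end Wrapper

section PrimeField

theorem some_eq_some_of_eq {E : Type*} [Field E] {V : Affine E} {x x' y y' : E}
    (h : V.Nonsingular x y) (h' : V.Nonsingular x' y') (hx : x = x') (hy : y = y') :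
    Point.some x y h = Point.some x' y' h' := by
  subst hx hy; rfl

open Fermat.Agent.ES.Q58.FrobAlg15

variable {r : ℕ} [Fact r.Prime] (W : Affine (ZMod r)) [dK : DecidableEq W.FunctionField]

/-- **(C1)**: the number of rational points is a lower bound for the height of
`x(P₀ − Frob P₀)`. -/
theorem card_point_le_ht (hΔ : W.Δ ≠ 0) {xS yS : W.FunctionField}
    (hns : (W⁄W.FunctionField).Nonsingular xS yS)
    (hS : genericPoint W hΔ - Point.map (W' := W) (frobAlg r W.FunctionField) (genericPoint W hΔ)
      = Point.some xS yS hns)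
    {U V : (ZMod r)[X]} (hUV : IsCoprime U V) (hht : 0 < max U.natDegree V.natDegree)
    (hz : xS * algebraMap (ZMod r)[X] W.FunctionField V = algebraMap (ZMod r)[X] W.FunctionField U) :
    Nat.card W.Point ≤ max U.natDegree V.natDegree := by
  classical
  have : Fintype W.Point := Fintype.ofFinite _
  -- the constant points
  let c : W.Point →+ (W⁄W.FunctionField).Point :=
    Point.map (W' := W) (Algebra.ofId (ZMod r) W.FunctionField)
  have hc : Function.Injective c := Point.map_injective (W' := W) _
  have key := card_le_ht_of_kernel (F := ZMod r) (k := ZMod r) W W rfl hΔ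
    (frobAlg r W.FunctionField) (fun σ z => by rw [frobAlg_apply, frobAlg_apply, map_pow]) (-1)
    (nonsingular_xK_yK W hΔ) hns
    (by rw [neg_one_zsmul, ← sub_eq_add_neg]; exact hS) hUV hht hz
    (Finset.univ.image c) ?_ ?_
  · rw [Finset.card_image_of_injective _ hc, Finset.card_univ, ← Nat.card_eq_fintype_card] at key
    exact key
  · intro P hP
    obtain ⟨T, -, rfl⟩ := Finset.mem_image.mp hP
    rcases T with _ | ⟨x, y, h⟩
    · exact isAlgebraic_zero
    · exact isAlgebraic_algebraMap x
  · intro P hP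
    obtain ⟨T, -, rfl⟩ := Finset.mem_image.mp hP
    have : Point.map (W' := W) (frobAlg r W.FunctionField) (c T) = c T := by
      rcases T with _ | ⟨x, y, h⟩
      · rfl
      · exact some_eq_some_of_eq _ _ (frobAlg_algebraMap x) (frobAlg_algebraMap y)
    rw [this, neg_one_zsmul, add_neg_cancel]

end PrimeField

end Fermat.Agent.ES.Q58.Count82
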