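/-
Programme Q (S58), PART I, shared definition (helper15): the `r`-power Frobenius of a `ZMod r`-algebra,
as a `ZMod r`-algebra endomorphism.  Mathlib only.

* `frobAlg r κ : κ →ₐ[ZMod r] κ`, `x ↦ x ^ r`;
* `frobAlg_apply` (by `rfl`), `map_frobAlg` (naturality for every `ZMod r`-algebra homomorphism),
  `frobAlg_algebraMap` (it fixes the prime field), `frobAlg_comp`.
-/
import Mathlib

set_option autoImplicit false

namespace Fermat.Agent.ES.Q58.FrobAlg15

variable (r : ℕ) [hr : Fact r.Prime]

/-- In a `ZMod r`-algebra, `(a + b) ^ r = a ^ r + b ^ r` (no nontriviality assumption). -/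
theorem add_pow_prime_of_algebra {κ : Type*} [CommRing κ] [Algebra (ZMod r) κ] (a b : κ) :
    (a + b) ^ r = a ^ r + b ^ r := by
  rcases subsingleton_or_nontrivial κ with h | h
  · exact Subsingleton.elim _ _
  · have : CharP κ r :=
      charP_of_injective_algebraMap (algebraMap (ZMod r) κ).injective r
    exact add_pow_char a b r

/-- **The `r`-power Frobenius** of a `ZMod r`-algebra, as a `ZMod r`-algebra endomorphism. -/
noncomputable def frobAlg (κ : Type*) [CommRing κ] [Algebra (ZMod r) κ] : κ →ₐ[ZMod r] κ where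
  toFun x := x ^ r
  map_one' := one_pow r
  map_mul' x y := mul_pow x y r
  map_zero' := zero_pow hr.out.ne_zero
  map_add' x y := add_pow_prime_of_algebra r x y
  commutes' a := by
    change (algebraMap (ZMod r) κ a) ^ r = algebraMap (ZMod r) κ a
    rw [← map_pow, ZMod.pow_card]

variable {r}

@[simp] theorem frobAlg_apply {κ : Type*} [CommRing κ] [Algebra (ZMod r) κ] (x : κ) :
    frobAlg r κ x = x ^ r := rfl

/-- Frobenius commutes with every `ZMod r`-algebra homomorphism. -/
theorem map_frobAlg {κ κ' : Type*} [CommRing κ] [Algebra (ZMod r) κ] [CommRing κ']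
    [Algebra (ZMod r) κ'] (f : κ →ₐ[ZMod r] κ') (x : κ) :
    f (frobAlg r κ x) = frobAlg r κ' (f x) := by
  rw [frobAlg_apply, frobAlg_apply, map_pow]

/-- Frobenius commutes with every `ZMod r`-algebra homomorphism (composition form). -/
theorem comp_frobAlg {κ κ' : Type*} [CommRing κ] [Algebra (ZMod r) κ] [CommRing κ']
    [Algebra (ZMod r) κ'] (f : κ →ₐ[ZMod r] κ') :
    f.comp (frobAlg r κ) = (frobAlg r κ').comp f :=
  AlgHom.ext fun x => map_frobAlg f x

/-- Frobenius commutes with every ring homomorphism (ring-hom form). -/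
theorem ringHom_frobAlg {κ κ' : Type*} [CommRing κ] [Algebra (ZMod r) κ] [CommRing κ']
    [Algebra (ZMod r) κ'] (f : κ →+* κ') (x : κ) :
    f (frobAlg r κ x) = frobAlg r κ' (f x) := by
  rw [frobAlg_apply, frobAlg_apply, map_pow]

/-- Frobenius fixes the prime field. -/
theorem frobAlg_algebraMap {κ : Type*} [CommRing κ] [Algebra (ZMod r) κ] (a : ZMod r) :
    frobAlg r κ (algebraMap (ZMod r) κ a) = algebraMap (ZMod r) κ a :=
  (frobAlg r κ).commutes a

/-- Frobenius is injective on a reduced ring, in particular on a field. -/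
theorem frobAlg_injective {κ : Type*} [CommRing κ] [IsReduced κ] [Algebra (ZMod r) κ] :
    Function.Injective (frobAlg r κ) := by
  intro x y hxy
  rw [frobAlg_apply, frobAlg_apply] at hxy
  have h : (x - y) ^ r = 0 := by
    have h1 := add_pow_prime_of_algebra r (x - y) y
    rw [sub_add_cancel, hxy] at h1
    exact (add_eq_right.mp h1.symm)
  exact sub_eq_zero.mp (pow_eq_zero_iff hr.out.ne_zero |>.mp h)

end Fermat.Agent.ES.Q58.FrobAlg15
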