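/-
Programme Q (S58), PART I (I-a) (helper53): the degree function on points of a Weierstrass curve over
its function field whose `x`-coordinate lies in `k(x)`, and the exact parallelogram law.

`k` a field, `W : WeierstrassCurve.Affine k`, `K = W.FunctionField`, `c : k[X] → K`.
* `IsRep W R U V` : `U V : k[X]` coprime and `xRep R ∝ (c U, c V)`;
* `deg W R` : `PLPoly2.ht U V` for any representation (`0` if there is none), `deg_eq`;
* `exists_isRep_of_mem_oddPoints`;
* `parallelogram` : `deg (R + S) + deg (R - S) = 2 deg R + 2 deg S` for represented points;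
* `deg_zero`, `deg_genericPoint`, `isRep_map_pow` (Frobenius multiplies the degree by `r`),
* `x_mem_range_of_deg_eq_zero`.
-/
import Mathlib
import Fermat.Agent.ES.Q58.IotaDescent23
import Fermat.Agent.ES.Q58.SubstEmb17
import Fermat.Agent.ES.Q58.PLCurve2
import Fermat.Agent.ES.Q58.PLPoly2
import Fermat.Agent.ES.Q58.CompHt56
import Fermat.Agent.ES.Q58.FrobAlg15

set_option autoImplicit false
set_option linter.unusedSectionVars false

open Polynomial

namespace Fermat.Agent.ES.Q58.DegOdd53

open WeierstrassCurve WeierstrassCurve.Affine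
open Fermat.Agent.ES.Q58.IotaDescent23 Fermat.Agent.ES.Q58.SubstEmb17
open Fermat.Agent.ES.Q58.PLForms2 Fermat.Agent.ES.Q58.PLPoly2 Fermat.Agent.ES.Q58.PLCurve2

variable {k : Type*} [Field k] (W : Affine k)

/-- `(U, V)` represents the `x`-coordinate of `R`. -/
def IsRep (R : (W⁄W.FunctionField).Point) (U V : k[X]) : Prop :=
  IsCoprime U V ∧
    R.xRep 0 * algebraMap k[X] W.FunctionField V = R.xRep 1 * algebraMap k[X] W.FunctionField U

variable {W}

theorem IsRep.isCoprime {R : (W⁄W.FunctionField).Point} {U V : k[X]} (h : IsRep W R U V) :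
    IsCoprime U V := h.1

/-- the coordinate vector of a represented point is a nonzero multiple of `(c U, c V)`. -/
theorem IsRep.exists_smul {R : (W⁄W.FunctionField).Point} {U V : k[X]} (h : IsRep W R U V) :
    ∃ t : W.FunctionField, t ≠ 0 ∧ R.xRep 0 = t * algebraMap k[X] W.FunctionField U ∧
      R.xRep 1 = t * algebraMap k[X] W.FunctionField V := by
  obtain ⟨hc, he⟩ := h
  have hinj := algebraMap_functionField_injective W
  have hne : R.xRep 0 ≠ 0 ∨ R.xRep 1 ≠ 0 := by
    rcases R with _ | ⟨x, y, hxy⟩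
    · left; rw [← Point.zero_def, Point.xRep_zero]; simp
    · right; rw [Point.xRep_some]; simp
  by_cases hV : V = 0
  · subst hV
    have hU : IsUnit U := by
      rw [isCoprime_zero_right] at hc; exact hc
    have hU0 : algebraMap k[X] W.FunctionField U ≠ 0 := by
      rw [Ne, map_eq_zero_iff _ hinj]; exact hU.ne_zero
    rw [map_zero, mul_zero] at he
    have h1 : R.xRep 1 = 0 := by
      rcases mul_eq_zero.mp he.symm with h | h
      · exact h
      · exact absurd h hU0
    have h0 : R.xRep 0 ≠ 0 := hne.resolve_right (not_not.mpr h1)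
    refine ⟨R.xRep 0 / algebraMap k[X] W.FunctionField U, div_ne_zero h0 hU0, ?_, ?_⟩
    · rw [div_mul_cancel₀ _ hU0]
    · rw [map_zero, mul_zero, h1]
  · have hV0 : algebraMap k[X] W.FunctionField V ≠ 0 := by
      rw [Ne, map_eq_zero_iff _ hinj]; exact hV
    have h1 : R.xRep 1 ≠ 0 := by
      intro h1
      rw [h1, zero_mul] at he
      rcases mul_eq_zero.mp he with h | h
      · exact (hne.resolve_right (not_not.mpr h1)) h
      · exact hV0 h
    refine ⟨R.xRep 1 / algebraMap k[X] W.FunctionField V, div_ne_zero h1 hV0, ?_, ?_⟩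
    · field_simp
      linear_combination he
    · rw [div_mul_cancel₀ _ hV0]

/-- two representations of the same point have associated entries. -/
theorem IsRep.ht_eq {R : (W⁄W.FunctionField).Point} {U V U' V' : k[X]} (h : IsRep W R U V)
    (h' : IsRep W R U' V') : ht U V = ht U' V' := by
  obtain ⟨t, ht0, e0, e1⟩ := h.exists_smul
  obtain ⟨t', ht0', e0', e1'⟩ := h'.exists_smul
  have hinj := algebraMap_functionField_injective W
  have hcross : U * V' = U' * V := by
    apply hinj
    rw [map_mul, map_mul]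
    have : (t * t') * (algebraMap k[X] W.FunctionField U * algebraMap k[X] W.FunctionField V') =
        (t * t') * (algebraMap k[X] W.FunctionField U' * algebraMap k[X] W.FunctionField V) := by
      calc (t * t') * (algebraMap k[X] W.FunctionField U * algebraMap k[X] W.FunctionField V')
          = (t * algebraMap k[X] W.FunctionField U) * (t' * algebraMap k[X] W.FunctionField V') := by
            ring
        _ = R.xRep 0 * R.xRep 1 := by rw [← e0, ← e1']
        _ = (t' * algebraMap k[X] W.FunctionField U') * (t * algebraMap k[X] W.FunctionField V) := by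
            rw [← e0', ← e1]
        _ = _ := by ring
    exact mul_left_cancel₀ (mul_ne_zero ht0 ht0') this
  have hUU' : Associated U U' := by
    apply associated_of_dvd_dvd
    · exact h.1.dvd_of_dvd_mul_right ⟨V', hcross.symm⟩
    · exact h'.1.dvd_of_dvd_mul_right ⟨V, hcross⟩
  have hVV' : Associated V V' := by
    apply associated_of_dvd_dvd
    · exact h.1.symm.dvd_of_dvd_mul_left ⟨U', by linear_combination hcross⟩
    · exact h'.1.symm.dvd_of_dvd_mul_left ⟨U, by linear_combination -hcross⟩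
  unfold ht
  rw [natDegree_eq_of_degree_eq (degree_eq_degree_of_associated hUU'),
    natDegree_eq_of_degree_eq (degree_eq_degree_of_associated hVV')]

variable (W) in
open Classical in
/-- **the degree** of a point whose `x`-coordinate lies in `k(x)`. -/
noncomputable def deg (R : (W⁄W.FunctionField).Point) : ℕ :=
  if h : ∃ U V : k[X], IsRep W R U V then ht h.choose h.choose_spec.choose else 0

theorem deg_eq {R : (W⁄W.FunctionField).Point} {U V : k[X]} (h : IsRep W R U V) :
    deg W R = ht U V := by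
  have hex : ∃ U V : k[X], IsRep W R U V := ⟨U, V, h⟩
  unfold deg
  rw [dif_pos hex]
  exact IsRep.ht_eq hex.choose_spec.choose_spec h

/-! ### basic representations -/

theorem isRep_zero : IsRep W (0 : (W⁄W.FunctionField).Point) 1 0 := by
  refine ⟨isCoprime_one_left, ?_⟩
  rw [Point.xRep_zero]
  simp

theorem deg_zero : deg W (0 : (W⁄W.FunctionField).Point) = 0 := by
  rw [deg_eq isRep_zero]
  simp [ht]

theorem isRep_some_iff {x y : W.FunctionField} (h : (W⁄W.FunctionField).Nonsingular x y)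
    (U V : k[X]) : IsRep W (Point.some x y h) U V ↔ IsCoprime U V ∧
      x * algebraMap k[X] W.FunctionField V = algebraMap k[X] W.FunctionField U := by
  unfold IsRep
  rw [Point.xRep_some]
  simp

theorem isRep_neg {R : (W⁄W.FunctionField).Point} {U V : k[X]} (h : IsRep W R U V) :
    IsRep W (-R) U V := by
  unfold IsRep at h ⊢
  rw [Point.xRep_neg]
  exact h

variable [DecidableEq W.FunctionField]

theorem isRep_genericPoint (hΔ : W.Δ ≠ 0) : IsRep W (IotaDescent23.genericPoint W hΔ) X 1 := by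
  unfold IotaDescent23.genericPoint
  rw [isRep_some_iff]
  refine ⟨isCoprime_one_right, ?_⟩
  rw [map_one, mul_one]
  rfl

theorem deg_genericPoint (hΔ : W.Δ ≠ 0) : deg W (IotaDescent23.genericPoint W hΔ) = 1 := by
  rw [deg_eq (isRep_genericPoint hΔ)]
  simp [ht]

/-- odd points are represented. -/
theorem exists_isRep_of_mem_oddPoints (hΔ : W.Δ ≠ 0) {R : (W⁄W.FunctionField).Point}
    (hR : R ∈ oddPoints W) : ∃ U V : k[X], IsRep W R U V := by
  rcases R with _ | ⟨x, y, h⟩
  · exact ⟨1, 0, isRep_zero⟩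
  · obtain ⟨U, V, hc, -, he⟩ := exists_coprime_x_of_mem_oddPoints W hΔ h hR
    exact ⟨U, V, (isRep_some_iff h U V).mpr ⟨hc, he⟩⟩


/-! ### the parallelogram law -/

theorem G0_smul_smul {R : Type*} [CommRing R] (t₁ t₂ u₁ v₁ u₂ v₂ : R) :
    G0 (t₁ * u₁) (t₁ * v₁) (t₂ * u₂) (t₂ * v₂) = t₁ ^ 2 * t₂ ^ 2 * G0 u₁ v₁ u₂ v₂ := by
  simp only [G0]; ring

theorem G1_smul_smul {R : Type*} [CommRing R] (W' : WeierstrassCurve R) (t₁ t₂ u₁ v₁ u₂ v₂ : R) :
    G1 W' (t₁ * u₁) (t₁ * v₁) (t₂ * u₂) (t₂ * v₂) = t₁ ^ 2 * t₂ ^ 2 * G1 W' u₁ v₁ u₂ v₂ := by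
  simp only [G1]; ring

theorem G2_smul_smul {R : Type*} [CommRing R] (W' : WeierstrassCurve R) (t₁ t₂ u₁ v₁ u₂ v₂ : R) :
    G2 W' (t₁ * u₁) (t₁ * v₁) (t₂ * u₂) (t₂ * v₂) = t₁ ^ 2 * t₂ ^ 2 * G2 W' u₁ v₁ u₂ v₂ := by
  simp only [G2]; ring

/-- the curve over `K` is the image of the constant curve over `k[X]`. -/
theorem map_Wt_eq : (Wt W).map (algebraMap k[X] W.FunctionField) = W.baseChange W.FunctionField := by
  show (WeierstrassCurve.map W C).map (algebraMap k[X] W.FunctionField) =
    WeierstrassCurve.map W (algebraMap k W.FunctionField)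
  rw [WeierstrassCurve.map_map]
  congr 1

/-- **The exact parallelogram law** for represented points. -/
theorem parallelogram_rep (hΔ : W.Δ ≠ 0) {R S : (W⁄W.FunctionField).Point}
    {U₁ V₁ U₂ V₂ U₃ V₃ U₄ V₄ : k[X]} (h₁ : IsRep W R U₁ V₁) (h₂ : IsRep W S U₂ V₂)
    (h₃ : IsRep W (R + S) U₃ V₃) (h₄ : IsRep W (R - S) U₄ V₄) :
    ht U₃ V₃ + ht U₄ V₄ = 2 * ht U₁ V₁ + 2 * ht U₂ V₂ := by
  have hinj := algebraMap_functionField_injective W
  obtain ⟨t₁, ht₁, a₁, b₁⟩ := h₁.exists_smul
  obtain ⟨t₂, ht₂, a₂, b₂⟩ := h₂.exists_smul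
  obtain ⟨t₃, ht₃, a₃, b₃⟩ := h₃.exists_smul
  obtain ⟨t₄, ht₄, a₄, b₄⟩ := h₄.exists_smul
  obtain ⟨c₀, hc₀, e0, e1, e2⟩ := addsub_rel (W := (W⁄W.FunctionField)) R S
  rw [a₁, b₁, a₂, b₂, b₃, b₄] at e0
  rw [a₁, b₁, a₂, b₂, a₃, b₃, a₄, b₄] at e1
  rw [a₁, b₁, a₂, b₂, a₃, a₄] at e2
  rw [G0_smul_smul] at e0
  rw [G1_smul_smul] at e1
  rw [G2_smul_smul] at e2
  set c := algebraMap k[X] W.FunctionField with hc
  -- the polynomial triples
  set A := V₃ * V₄ with hA
  set B := U₃ * V₄ + U₄ * V₃ with hB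
  set D := U₃ * U₄ with hD
  set A' := G0 U₁ V₁ U₂ V₂ with hA'
  set B' := G1 (Wt W) U₁ V₁ U₂ V₂ with hB'
  set D' := G2 (Wt W) U₁ V₁ U₂ V₂ with hD'
  set μ := c₀ * t₃ * t₄ / (t₁ ^ 2 * t₂ ^ 2) with hμ
  have hμ0 : μ ≠ 0 := by
    rw [hμ]
    exact div_ne_zero (mul_ne_zero (mul_ne_zero hc₀ ht₃) ht₄)
      (mul_ne_zero (pow_ne_zero _ ht₁) (pow_ne_zero _ ht₂))
  have htt : t₁ ^ 2 * t₂ ^ 2 ≠ 0 := mul_ne_zero (pow_ne_zero _ ht₁) (pow_ne_zero _ ht₂)
  have eA : c A' = μ * c A := by
    rw [hA', hA, map_G0, map_mul, hμ]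
    field_simp
    linear_combination e0
  have eB : c B' = μ * c B := by
    rw [hB', hB, map_G1, map_Wt_eq, map_add, map_mul, map_mul, hμ]
    field_simp
    linear_combination e1
  have eD : c D' = μ * c D := by
    rw [hD', hD, map_G2, map_Wt_eq, map_mul, hμ]
    field_simp
    linear_combination e2
  -- cross relations
  have cross : ∀ P P' Q Q' : k[X], c P' = μ * c P → c Q' = μ * c Q → P' * Q = P * Q' := by
    intro P P' Q Q' hP hQ
    apply hinj
    rw [map_mul, map_mul, hP, hQ]
    ring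
  -- a nonzero entry of `(A, B, D)`
  have hne : A ≠ 0 ∨ B ≠ 0 ∨ D ≠ 0 := by
    by_contra hcon
    push Not at hcon
    obtain ⟨hA0, hB0, hD0⟩ := hcon
    have n₃ := ne_zero_of_isCoprime h₃.1
    have n₄ := ne_zero_of_isCoprime h₄.1
    rcases mul_eq_zero.mp hD0 with hu | hu
    · have hv₃ : V₃ ≠ 0 := n₃.resolve_left (not_not.mpr hu)
      have hv₄ : V₄ = 0 := (mul_eq_zero.mp hA0).resolve_left hv₃
      have hu₄ : U₄ ≠ 0 := n₄.resolve_right (not_not.mpr hv₄)
      rw [hB, hu, hv₄] at hB0
      simp at hB0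
      exact hB0.elim hu₄ hv₃
    · have hv₄ : V₄ ≠ 0 := n₄.resolve_left (not_not.mpr hu)
      have hv₃ : V₃ = 0 := (mul_eq_zero.mp hA0).resolve_right hv₄
      have hu₃ : U₃ ≠ 0 := n₃.resolve_right (not_not.mpr hv₃)
      rw [hB, hu, hv₃] at hB0
      simp at hB0
      exact hB0.elim hu₃ hv₄
  have hne' : ∀ P P' : k[X], c P' = μ * c P → P ≠ 0 → P' ≠ 0 := by
    intro P P' hP hP0 h0
    rw [h0, map_zero] at hP
    rcases mul_eq_zero.mp hP.symm with h | h
    · exact hμ0 h
    · exact hP0 (hinj (by rw [h, map_zero]))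
  rcases hne with hA0 | hB0 | hD0
  · exact parallelogram W hΔ h₁.1 h₂.1 h₃.1 h₄.1 (e := A') (e' := A) (hne' A A' eA hA0)
      (cross A A' A A' eA eA) (cross A A' B B' eA eB) (cross A A' D D' eA eD)
  · exact parallelogram W hΔ h₁.1 h₂.1 h₃.1 h₄.1 (e := B') (e' := B) (hne' B B' eB hB0)
      (cross B B' A A' eB eA) (cross B B' B B' eB eB) (cross B B' D D' eB eD)
  · exact parallelogram W hΔ h₁.1 h₂.1 h₃.1 h₄.1 (e := D') (e' := D) (hne' D D' eD hD0)
      (cross D D' A A' eD eA) (cross D D' B B' eD eB) (cross D D' D D' eD eD)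


theorem parallelogram_deg (hΔ : W.Δ ≠ 0) {R S : (W⁄W.FunctionField).Point}
    (hR : ∃ U V : k[X], IsRep W R U V) (hS : ∃ U V : k[X], IsRep W S U V)
    (hRS : ∃ U V : k[X], IsRep W (R + S) U V) (hRS' : ∃ U V : k[X], IsRep W (R - S) U V) :
    deg W (R + S) + deg W (R - S) = 2 * deg W R + 2 * deg W S := by
  obtain ⟨U₁, V₁, h₁⟩ := hR
  obtain ⟨U₂, V₂, h₂⟩ := hS
  obtain ⟨U₃, V₃, h₃⟩ := hRS
  obtain ⟨U₄, V₄, h₄⟩ := hRS'
  rw [deg_eq h₁, deg_eq h₂, deg_eq h₃, deg_eq h₄]
  exact parallelogram_rep hΔ h₁ h₂ h₃ h₄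

/-- the exact parallelogram law on the odd points. -/
theorem parallelogram_odd (hΔ : W.Δ ≠ 0) {R S : (W⁄W.FunctionField).Point}
    (hR : R ∈ oddPoints W) (hS : S ∈ oddPoints W) :
    deg W (R + S) + deg W (R - S) = 2 * deg W R + 2 * deg W S :=
  parallelogram_deg hΔ (exists_isRep_of_mem_oddPoints hΔ hR) (exists_isRep_of_mem_oddPoints hΔ hS)
    (exists_isRep_of_mem_oddPoints hΔ (add_mem hR hS))
    (exists_isRep_of_mem_oddPoints hΔ (sub_mem hR hS))

/-! ### images under endomorphisms of the function field -/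

theorem xRep_map {L : Type*} [Field L] [Algebra k L] [DecidableEq L]
    (f : W.FunctionField →ₐ[k] L) (R : (W⁄W.FunctionField).Point) (i : Fin 2) :
    (Point.map (W' := W) f R).xRep i = f (R.xRep i) := by
  rcases R with _ | ⟨x, y, h⟩
  · rw [← Point.zero_def, map_zero, Point.xRep_zero]
    fin_cases i <;> simp
  · rw [Point.map_some, Point.xRep_some, Point.xRep_some]
    fin_cases i <;> simp

/-- transport of a representation along an endomorphism `f` of `K` with `f (c P) = c (g P)`. -/
theorem isRep_map (f : W.FunctionField →ₐ[k] W.FunctionField) {R : (W⁄W.FunctionField).Point}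
    {U V U' V' : k[X]} (h : IsRep W R U V) (hc : IsCoprime U' V')
    (hU : f (algebraMap k[X] W.FunctionField U) = algebraMap k[X] W.FunctionField U')
    (hV : f (algebraMap k[X] W.FunctionField V) = algebraMap k[X] W.FunctionField V') :
    IsRep W (Point.map (W' := W) f R) U' V' := by
  refine ⟨hc, ?_⟩
  rw [xRep_map, xRep_map, ← hU, ← hV, ← map_mul, ← map_mul, h.2]

/-- a represented point of degree `0` is `0` or has its `x`-coordinate in `k`. -/
theorem x_mem_range_of_deg_eq_zero {x y : W.FunctionField}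
    {h : (W⁄W.FunctionField).Nonsingular x y} {U V : k[X]}
    (hrep : IsRep W (Point.some x y h) U V) (hdeg : deg W (Point.some x y h) = 0) :
    ∃ u : k, x = algebraMap k W.FunctionField u := by
  rw [deg_eq hrep] at hdeg
  have hU : U.natDegree = 0 := Nat.eq_zero_of_le_zero (hdeg ▸ natDegree_le_ht_left U V)
  have hV : V.natDegree = 0 := Nat.eq_zero_of_le_zero (hdeg ▸ natDegree_le_ht_right U V)
  obtain ⟨hc, he⟩ := (isRep_some_iff h U V).mp hrep
  rw [natDegree_eq_zero] at hU hV
  obtain ⟨a, rfl⟩ := hU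
  obtain ⟨b, rfl⟩ := hV
  have hb : b ≠ 0 := by
    rintro rfl
    rw [map_zero, map_zero, mul_zero] at he
    have ha : (C a : k[X]) = 0 := algebraMap_functionField_injective W (by rw [← he, map_zero])
    rw [ha, map_zero] at hc
    exact not_isCoprime_zero_zero hc
  refine ⟨a / b, ?_⟩
  have e1 : algebraMap k[X] W.FunctionField (C a) = algebraMap k W.FunctionField a := by
    rw [← Polynomial.algebraMap_eq, ← IsScalarTower.algebraMap_apply]
  have e2 : algebraMap k[X] W.FunctionField (C b) = algebraMap k W.FunctionField b := by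
    rw [← Polynomial.algebraMap_eq, ← IsScalarTower.algebraMap_apply]
  rw [e1, e2] at he
  have hb' : algebraMap k W.FunctionField b ≠ 0 := by
    rw [Ne, map_eq_zero_iff _ (algebraMap k W.FunctionField).injective]; exact hb
  rw [map_div₀, eq_div_iff hb', he]

/-! ### substitution: multiplicativity of the degree -/

/-- **multiplicativity of the degree under substitution**: if `R = (u, v)` is represented by
`(A, B)` of positive height and `S` by `(U, V)`, then `σ_R S` is represented by the composites. -/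
theorem isRep_map_substHom {u v : W.FunctionField} (h : (W⁄W.FunctionField).Nonsingular u v)
    {A B U V : k[X]} (hR : IsRep W (Point.some u v h) A B) (hX : Transcendental k u)
    {S : (W⁄W.FunctionField).Point} (hS : IsRep W S U V) :
    IsRep W (Point.map (W' := W) (substHom W h.1 hX) S)
      (CompHt56.homEval U (ht U V) A B) (CompHt56.homEval V (ht U V) A B) := by
  obtain ⟨hcAB, heAB⟩ := (isRep_some_iff h A B).mp hR
  obtain ⟨hcomp, -⟩ := CompHt56.comp_ht hS.1 hcAB
  refine ⟨hcomp, ?_⟩
  rw [xRep_map, xRep_map]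
  set c := algebraMap k[X] W.FunctionField with hc
  set n := ht U V with hn
  have key : ∀ P : k[X], P.natDegree ≤ n →
      c (CompHt56.homEval P n A B) = (c B) ^ n * substHom W h.1 hX (c P) := by
    intro P hP
    rw [CompHt56.map_homEval c heAB hP, substHom_algebraMap_polynomial]
    congr 1
    rw [Polynomial.aeval_def, Polynomial.eval₂_eq_eval_map]
    congr 2
  rw [key V (natDegree_le_ht_right U V), key U (natDegree_le_ht_left U V)]
  have := congrArg (substHom W h.1 hX) hS.2
  rw [map_mul, map_mul] at this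
  linear_combination (c B) ^ n * this

theorem deg_map_substHom {u v : W.FunctionField} (h : (W⁄W.FunctionField).Nonsingular u v)
    {A B U V : k[X]} (hR : IsRep W (Point.some u v h) A B) (hX : Transcendental k u)
    {S : (W⁄W.FunctionField).Point} (hS : IsRep W S U V) :
    deg W (Point.map (W' := W) (substHom W h.1 hX) S) = deg W S * deg W (Point.some u v h) := by
  rw [deg_eq (isRep_map_substHom h hR hX hS), deg_eq hS, deg_eq hR]
  exact (CompHt56.comp_ht hS.1 ((isRep_some_iff h A B).mp hR).1).2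

/-- a represented point of positive degree has transcendental `x`-coordinate. -/
theorem transcendental_of_deg_pos {u v : W.FunctionField}
    {h : (W⁄W.FunctionField).Nonsingular u v} {A B : k[X]}
    (hR : IsRep W (Point.some u v h) A B) (hdeg : 0 < deg W (Point.some u v h)) :
    Transcendental k u := by
  rw [deg_eq hR] at hdeg
  obtain ⟨hc, he⟩ := (isRep_some_iff h A B).mp hR
  exact transcendental_of_isCoprime W hc hdeg he

/-! ### Frobenius -/

section Frob

variable {r : ℕ} [Fact r.Prime] {W₀ : Affine (ZMod r)} [DecidableEq W₀.FunctionField]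

/-- Frobenius multiplies representations by `r`. -/
theorem isRep_map_frob {R : (W₀⁄W₀.FunctionField).Point} {U V : (ZMod r)[X]}
    (h : IsRep W₀ R U V) :
    IsRep W₀ (Point.map (W' := W₀) (FrobAlg15.frobAlg r W₀.FunctionField) R) (U ^ r) (V ^ r) :=
  isRep_map _ h h.1.pow (by rw [FrobAlg15.frobAlg_apply, map_pow])
    (by rw [FrobAlg15.frobAlg_apply, map_pow])

theorem deg_map_frob {R : (W₀⁄W₀.FunctionField).Point} {U V : (ZMod r)[X]}
    (h : IsRep W₀ R U V) :
    deg W₀ (Point.map (W' := W₀) (FrobAlg15.frobAlg r W₀.FunctionField) R) = r * deg W₀ R := by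
  rw [deg_eq (isRep_map_frob h), deg_eq h]
  unfold ht
  rw [natDegree_pow, natDegree_pow, Nat.mul_max_mul_left]

end Frob

end Fermat.Agent.ES.Q58.DegOdd53
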