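/-
Programme Q (S58), PART I, Manin's lemma, fibre counting (helper82).  Mathlib + FrobAlg15 only.

`W₀` a Weierstrass curve over `ZMod r` with `Δ ≠ 0`, `κ ⊇ 𝔽_r` an algebraically closed field.

* `two_le_card_add_card` : for `b, e ∈ 𝔽_r`, the number of roots `y ∈ 𝔽_r` of `Y² + bY − e` plus the
  number of roots `β ∈ κ` with `β ^ r = −β − b` (Frobenius exchanges the two roots) is at least `2`;
* `card_fibreUnion` : the cardinality of a union of fibres of the `x`-coordinate;
* `exists_antiFixed` : there is a finite set `G` of points of `W₀(κ)` with `T + Frob T = 0` for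
  all `T ∈ G` and `2 r + 2 ≤ #W₀(𝔽_r) + #G`.
-/
import Mathlib
import Fermat.Agent.ES.Q58.FrobAlg15
import Fermat.Prelude.Def_FLTPrelim_Modularity

set_option autoImplicit false
set_option linter.unusedSectionVars false

open WeierstrassCurve WeierstrassCurve.Affine Polynomial

namespace Fermat.Agent.ES.Q58.FibreCount82

open Fermat.Agent.ES.Q58.FrobAlg15

section Quad

variable {r : ℕ} [hr : Fact r.Prime] {κ : Type*} [Field κ] [Algebra (ZMod r) κ]

/-- elements of a field of characteristic `r` fixed by the `r`-power map come from `ZMod r`. -/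
theorem exists_algebraMap_of_pow_eq {β : κ} (h : β ^ r = β) :
    ∃ y : ZMod r, algebraMap (ZMod r) κ y = β := by
  have : CharP κ r := charP_of_injective_algebraMap (algebraMap (ZMod r) κ).injective r
  have h2 := (Subfield.mem_bot_iff_pow_eq_self κ r).mpr h
  rw [← ZMod.fieldRange_castHom_eq_bot r] at h2
  obtain ⟨y, hy⟩ := h2
  exact ⟨y, by rw [← hy]; exact congrArg (fun f : ZMod r →+* κ => f y) (RingHom.ext_zmod _ _)⟩

theorem algebraMap_pow_card (y : ZMod r) :
    (algebraMap (ZMod r) κ y) ^ r = algebraMap (ZMod r) κ y := by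
  rw [← map_pow, ZMod.pow_card]

/-- In a field `κ ⊇ 𝔽_r` in which the quadratic `Y² + bY − e` (`b, e ∈ 𝔽_r`) has a root, the number
of roots `y ∈ 𝔽_r` plus the number of roots `β ∈ κ` with `β ^ r = −β − b` is at least `2`. -/
theorem two_le_card_add_card (b e : ZMod r)
    (hroot : ∃ β : κ, β ^ 2 + algebraMap (ZMod r) κ b * β = algebraMap (ZMod r) κ e)
    (RF : Finset (ZMod r)) (hRF : ∀ y, y ∈ RF ↔ y ^ 2 + b * y = e)
    (A : Finset κ) (hA : ∀ β, β ∈ A ↔
      (β ^ 2 + algebraMap (ZMod r) κ b * β = algebraMap (ZMod r) κ e ∧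
        β ^ r = -β - algebraMap (ZMod r) κ b)) :
    2 ≤ RF.card + A.card := by
  classical
  have hchar : CharP κ r := charP_of_injective_algebraMap (algebraMap (ZMod r) κ).injective r
  set ι := algebraMap (ZMod r) κ with hι
  -- the conjugate root
  have hconj : ∀ y : ZMod r, y ^ 2 + b * y = e → (-y - b) ^ 2 + b * (-y - b) = e := by
    intro y hy; linear_combination hy
  by_cases h2 : 2 ≤ RF.card
  · omega
  push Not at h2
  by_cases h1 : RF.card = 1
  · -- a double root
    obtain ⟨y₀, hy₀⟩ := Finset.card_eq_one.mp h1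
    have hy₀r : y₀ ^ 2 + b * y₀ = e := (hRF y₀).mp (by rw [hy₀]; exact Finset.mem_singleton_self _)
    have hy₀' : -y₀ - b = y₀ := by
      have : -y₀ - b ∈ RF := (hRF _).mpr (hconj y₀ hy₀r)
      rw [hy₀, Finset.mem_singleton] at this
      exact this
    have hmem : ι y₀ ∈ A := by
      rw [hA]
      refine ⟨?_, ?_⟩
      · rw [← map_pow, ← map_mul, ← map_add, hy₀r]
      · rw [algebraMap_pow_card, ← map_neg, ← map_sub, hy₀']
    have : 1 ≤ A.card := Finset.card_pos.mpr ⟨_, hmem⟩
    omega
  · -- no root in `𝔽_r`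
    have h0 : RF = ∅ := by
      rw [← Finset.card_eq_zero]; omega
    obtain ⟨β, hβ⟩ := hroot
    have hno : ∀ γ : κ, γ ^ 2 + ι b * γ = ι e → γ ^ r ≠ γ := by
      intro γ hγ hfix
      obtain ⟨y, rfl⟩ := exists_algebraMap_of_pow_eq hfix
      have : y ∈ RF := by
        rw [hRF]
        apply (algebraMap (ZMod r) κ).injective
        rw [map_add, map_mul, map_pow]
        exact hγ
      rw [h0] at this
      exact absurd this (Finset.notMem_empty _)
    -- Frobenius permutes the roots
    have hfrob : ∀ γ : κ, γ ^ 2 + ι b * γ = ι e → (γ ^ r) ^ 2 + ι b * γ ^ r = ι e := by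
      intro γ hγ
      have := congrArg (fun t : κ => t ^ r) hγ
      beta_reduce at this
      rw [add_pow_char, mul_pow, algebraMap_pow_card, algebraMap_pow_card, ← pow_mul, mul_comm 2 r,
        pow_mul] at this
      exact this
    -- a root is `γ` or its conjugate
    have hroots : ∀ γ δ : κ, γ ^ 2 + ι b * γ = ι e → δ ^ 2 + ι b * δ = ι e →
        δ = γ ∨ δ = -γ - ι b := by
      intro γ δ hγ hδ
      have : (δ - γ) * (δ - (-γ - ι b)) = 0 := by linear_combination hδ - hγ
      rcases mul_eq_zero.mp this with h | h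
      · left; exact sub_eq_zero.mp h
      · right; exact sub_eq_zero.mp h
    have key : ∀ γ : κ, γ ^ 2 + ι b * γ = ι e → γ ∈ A := by
      intro γ hγ
      rw [hA]
      refine ⟨hγ, ?_⟩
      rcases hroots γ (γ ^ r) hγ (hfrob γ hγ) with h | h
      · exact absurd h (hno γ hγ)
      · exact h
    have hβ' : (-β - ι b) ^ 2 + ι b * (-β - ι b) = ι e := by linear_combination hβ
    have hne : β ≠ -β - ι b := by
      intro heq
      have h3 := ((hA β).mp (key β hβ)).2
      rw [← heq] at h3
      exact hno β hβ h3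
    have : 2 ≤ A.card := by
      have hsub : ({β, -β - ι b} : Finset κ) ⊆ A := by
        intro γ hγ
        rcases Finset.mem_insert.mp hγ with rfl | hγ
        · exact key _ hβ
        · rw [Finset.mem_singleton] at hγ
          rw [hγ]; exact key _ hβ'
      calc 2 = ({β, -β - ι b} : Finset κ).card := (Finset.card_pair hne).symm
        _ ≤ A.card := Finset.card_le_card hsub
    omega

end Quad

section Union

variable {E : Type*} [Field E] [DecidableEq E] (V : Affine E)

/-- the affine point `(x, y)` if it is a nonsingular point of the curve, `0` otherwise. -/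
noncomputable def ptOf (x y : E) : V.Point :=
  open Classical in if h : V.Nonsingular x y then Point.some x y h else 0

theorem ptOf_of_nonsingular {x y : E} (h : V.Nonsingular x y) : ptOf V x y = Point.some x y h := by
  unfold ptOf
  rw [dif_pos h]

/-- a union of fibres of the `x`-coordinate, together with the point at infinity. -/
noncomputable def fibreUnion {I : Type*} [Fintype I] (ι : I → E) (B : I → Finset E) :
    Finset V.Point :=
  insert 0 (Finset.univ.biUnion fun c => (B c).image (ptOf V (ι c)))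

theorem mem_fibreUnion {I : Type*} [Fintype I] (ι : I → E) (B : I → Finset E) (P : V.Point) :
    P ∈ fibreUnion V ι B ↔ P = 0 ∨ ∃ c, ∃ β ∈ B c, ptOf V (ι c) β = P := by
  unfold fibreUnion
  rw [Finset.mem_insert, Finset.mem_biUnion]
  simp only [Finset.mem_univ, true_and, Finset.mem_image]

theorem card_fibreUnion {I : Type*} [Fintype I] [DecidableEq I] (ι : I → E)
    (hι : Function.Injective ι) (B : I → Finset E)
    (hB : ∀ c, ∀ β ∈ B c, V.Nonsingular (ι c) β) :
    (fibreUnion V ι B).card = 1 + ∑ c, (B c).card := by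
  classical
  unfold fibreUnion
  rw [Finset.card_insert_of_notMem, add_comm, Finset.card_biUnion]
  · congr 1
    refine Finset.sum_congr rfl fun c _ => ?_
    apply Finset.card_image_of_injOn
    intro β hβ β' hβ' h
    rw [ptOf_of_nonsingular V (hB c β hβ), ptOf_of_nonsingular V (hB c β' hβ')] at h
    exact (Point.some.inj h).2
  · intro c _ c' _ hcc'
    rw [Function.onFun, Finset.disjoint_left]
    intro P hP hP'
    obtain ⟨β, hβ, rfl⟩ := Finset.mem_image.mp hP
    obtain ⟨β', hβ', h⟩ := Finset.mem_image.mp hP'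
    rw [ptOf_of_nonsingular V (hB c β hβ), ptOf_of_nonsingular V (hB c' β' hβ')] at h
    exact hcc' (hι (Point.some.inj h).1).symm
  · intro h0
    obtain ⟨c, -, hc⟩ := Finset.mem_biUnion.mp h0
    obtain ⟨β, hβ, h⟩ := Finset.mem_image.mp hc
    rw [ptOf_of_nonsingular V (hB c β hβ)] at h
    exact Point.some_ne_zero _ h

end Union

section Global

variable {r : ℕ} [hr : Fact r.Prime] (W₀ : Affine (ZMod r))
  {κ : Type*} [Field κ] [Algebra (ZMod r) κ] [DecidableEq κ]

/-- the coefficient `b = a₁ c + a₃` of the fibre quadratic. -/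
def bOf (c : ZMod r) : ZMod r := W₀.a₁ * c + W₀.a₃

/-- the constant term `e = c³ + a₂ c² + a₄ c + a₆` of the fibre quadratic. -/
def eOf (c : ZMod r) : ZMod r := c ^ 3 + W₀.a₂ * c ^ 2 + W₀.a₄ * c + W₀.a₆

theorem equation_iff_quad (c y : ZMod r) :
    W₀.Equation c y ↔ y ^ 2 + bOf W₀ c * y = eOf W₀ c := by
  rw [equation_iff, bOf, eOf]
  constructor <;> intro h <;> linear_combination h

theorem equation_iff_quad' (c : ZMod r) (β : κ) :
    (W₀⁄κ).Equation (algebraMap (ZMod r) κ c) β ↔
      β ^ 2 + algebraMap (ZMod r) κ (bOf W₀ c) * β = algebraMap (ZMod r) κ (eOf W₀ c) := by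
  rw [equation_iff, bOf, eOf]
  simp only [baseChange_a₁, baseChange_a₂, baseChange_a₃, baseChange_a₄, baseChange_a₆, map_add,
    map_mul, map_pow]
  constructor <;> intro h <;> linear_combination h

/-- the roots in `𝔽_r` of the fibre quadratic. -/
noncomputable def RF (c : ZMod r) : Finset (ZMod r) :=
  Finset.univ.filter fun y => y ^ 2 + bOf W₀ c * y = eOf W₀ c

/-- the fibre quadratic over `κ`. -/
noncomputable def quadPoly (c : ZMod r) : κ[X] :=
  X ^ 2 + C (algebraMap (ZMod r) κ (bOf W₀ c)) * X - C (algebraMap (ZMod r) κ (eOf W₀ c))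

theorem quadPoly_aux (c : ZMod r) :
    (C (algebraMap (ZMod r) κ (bOf W₀ c)) * X - C (algebraMap (ZMod r) κ (eOf W₀ c)) : κ[X]).degree
      < ((2 : ℕ) : WithBot ℕ) := by
  rw [degree_lt_iff_coeff_zero]
  intro m hm
  have hm' : 2 ≤ m := by exact_mod_cast hm
  rw [coeff_sub, coeff_C_mul, coeff_X, coeff_C]
  rw [if_neg (by omega), if_neg (by omega)]
  ring

theorem quadPoly_monic (c : ZMod r) : (quadPoly W₀ (κ := κ) c).Monic := by
  unfold quadPoly
  rw [add_sub_assoc]
  exact monic_X_pow_add (quadPoly_aux W₀ c)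

theorem quadPoly_degree (c : ZMod r) : (quadPoly W₀ (κ := κ) c).degree = ((2 : ℕ) : WithBot ℕ) := by
  unfold quadPoly
  rw [add_sub_assoc, degree_add_eq_left_of_degree_lt, degree_X_pow]
  rw [degree_X_pow]
  exact quadPoly_aux W₀ c

theorem eval_quadPoly (c : ZMod r) (β : κ) :
    (quadPoly W₀ c).eval β =
      β ^ 2 + algebraMap (ZMod r) κ (bOf W₀ c) * β - algebraMap (ZMod r) κ (eOf W₀ c) := by
  simp [quadPoly]

/-- the roots `β ∈ κ` of the fibre quadratic with `β ^ r` the other root. -/
noncomputable def AF (c : ZMod r) : Finset κ :=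
  (quadPoly W₀ (κ := κ) c).roots.toFinset.filter fun β =>
    β ^ r = -β - algebraMap (ZMod r) κ (bOf W₀ c)

theorem mem_AF (c : ZMod r) (β : κ) :
    β ∈ AF W₀ c ↔ (β ^ 2 + algebraMap (ZMod r) κ (bOf W₀ c) * β = algebraMap (ZMod r) κ (eOf W₀ c) ∧
      β ^ r = -β - algebraMap (ZMod r) κ (bOf W₀ c)) := by
  unfold AF
  rw [Finset.mem_filter, Multiset.mem_toFinset, mem_roots (quadPoly_monic W₀ c).ne_zero, IsRoot.def,
    eval_quadPoly, sub_eq_zero]

variable [IsAlgClosed κ]

/-- **the anti-fixed points of Frobenius.** -/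
theorem exists_antiFixed (hΔ : W₀.Δ ≠ 0) :
    ∃ G : Finset (W₀⁄κ).Point,
      (∀ T ∈ G, T + Point.map (W' := W₀) (frobAlg r κ) T = 0) ∧
      2 * r + 2 ≤ Nat.card W₀.Point + G.card := by
  classical
  have hΔκ : (W₀⁄κ).Δ ≠ 0 := by
    rw [Affine.baseChange, WeierstrassCurve.baseChange, WeierstrassCurve.map_Δ]
    exact (map_ne_zero_iff _ (algebraMap (ZMod r) κ).injective).mpr hΔ
  -- nonsingularity
  have hB₁ : ∀ c, ∀ y ∈ RF W₀ c, W₀.Nonsingular ((id : ZMod r → ZMod r) c) y := by
    intro c y hy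
    rw [RF, Finset.mem_filter] at hy
    exact (W₀.equation_iff_nonsingular_of_Δ_ne_zero hΔ).mp ((equation_iff_quad W₀ c y).mpr hy.2)
  have hB₂ : ∀ c, ∀ β ∈ AF W₀ (κ := κ) c, (W₀⁄κ).Nonsingular (algebraMap (ZMod r) κ c) β := by
    intro c β hβ
    exact ((W₀⁄κ).equation_iff_nonsingular_of_Δ_ne_zero hΔκ).mp
      ((equation_iff_quad' W₀ c β).mpr ((mem_AF W₀ c β).mp hβ).1)
  refine ⟨fibreUnion (W₀⁄κ) (algebraMap (ZMod r) κ) (AF W₀), ?_, ?_⟩
  · intro T hT
    rcases (mem_fibreUnion _ _ _ T).mp hT with rfl | ⟨c, β, hβ, rfl⟩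
    · rw [map_zero, add_zero]
    · have hns := hB₂ c β hβ
      rw [ptOf_of_nonsingular _ hns, Point.map_some, add_comm, add_eq_zero_iff_eq_neg,
        Point.neg_some]
      have h2 := ((mem_AF W₀ c β).mp hβ).2
      rw [Point.some.injEq]
      refine ⟨?_, ?_⟩
      · rw [frobAlg_apply]; exact (algebraMap_pow_card (κ := κ) c)
      · rw [frobAlg_apply, h2, Affine.negY, bOf]
        simp only [baseChange_a₁, baseChange_a₃, map_add, map_mul]
        ring
  · have hc₁ := card_fibreUnion W₀ (id : ZMod r → ZMod r) Function.injective_id (RF W₀) hB₁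
    have hc₂ := card_fibreUnion (W₀⁄κ) (algebraMap (ZMod r) κ) (algebraMap (ZMod r) κ).injective
      (AF W₀) hB₂
    have hle : (fibreUnion W₀ (id : ZMod r → ZMod r) (RF W₀)).card ≤ Nat.card W₀.Point := by
      have : Fintype W₀.Point := Fintype.ofFinite _
      rw [Nat.card_eq_fintype_card]
      exact Finset.card_le_univ _
    have hsum : 2 * r ≤ ∑ c : ZMod r, ((RF W₀ c).card + (AF W₀ (κ := κ) c).card) := by
      have h2 : ∀ c : ZMod r, 2 ≤ (RF W₀ c).card + (AF W₀ (κ := κ) c).card := by
        intro c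
        refine two_le_card_add_card (bOf W₀ c) (eOf W₀ c) ?_ (RF W₀ c) ?_ (AF W₀ c) (mem_AF W₀ c)
        · obtain ⟨β, hβ⟩ := IsAlgClosed.exists_root (quadPoly W₀ (κ := κ) c) (by
            rw [quadPoly_degree W₀ c]
            exact_mod_cast (by norm_num : (2 : ℕ) ≠ 0))
          refine ⟨β, ?_⟩
          rw [IsRoot.def, eval_quadPoly, sub_eq_zero] at hβ
          exact hβ
        · intro y
          rw [RF, Finset.mem_filter]
          simp
      calc 2 * r = ∑ _c : ZMod r, 2 := by
            rw [Finset.sum_const, Finset.card_univ, ZMod.card, smul_eq_mul, mul_comm]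
        _ ≤ _ := Finset.sum_le_sum fun c _ => h2 c
    rw [Finset.sum_add_distrib] at hsum
    omega

end Global

end Fermat.Agent.ES.Q58.FibreCount82
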