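/-
Programme Q (S58), PART I (helper53): the `r`-power Frobenius of a `ZMod r`-algebra, as a
`ZMod r`-algebra endomorphism (shared by PART I and PART II).
-/
import Mathlib

set_option autoImplicit false

namespace Fermat.Agent.ES.Q58.FrobAlg53

theorem charP_of_algebra (r : ℕ) [Fact r.Prime] (κ : Type*) [CommRing κ] [Nontrivial κ]
    [Algebra (ZMod r) κ] : CharP κ r :=
  charP_of_injective_algebraMap (FaithfulSMul.algebraMap_injective (ZMod r) κ) r

/-- the `r`-power Frobenius of a nontrivial commutative `ZMod r`-algebra, as an algebra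
endomorphism. -/
noncomputable def frobAlg (r : ℕ) [Fact r.Prime] (κ : Type*) [CommRing κ] [Nontrivial κ]
    [Algebra (ZMod r) κ] : κ →ₐ[ZMod r] κ :=
  haveI : CharP κ r := charP_of_algebra r κ
  { frobenius κ r with
    commutes' := fun c => by
      show (algebraMap (ZMod r) κ c) ^ r = algebraMap (ZMod r) κ c
      rw [← map_pow, ZMod.pow_card] }

@[simp]
theorem frobAlg_apply (r : ℕ) [Fact r.Prime] (κ : Type*) [CommRing κ] [Nontrivial κ]
    [Algebra (ZMod r) κ] (x : κ) : frobAlg r κ x = x ^ r := rfl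

/-- Frobenius commutes with every ring homomorphism. -/
theorem map_frobAlg (r : ℕ) [Fact r.Prime] {κ κ' : Type*} [CommRing κ] [Nontrivial κ]
    [Algebra (ZMod r) κ] [CommRing κ'] [Nontrivial κ'] [Algebra (ZMod r) κ'] (f : κ →+* κ')
    (x : κ) : f (frobAlg r κ x) = frobAlg r κ' (f x) := by
  rw [frobAlg_apply, frobAlg_apply, map_pow]

end Fermat.Agent.ES.Q58.FrobAlg53
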