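/-
Programme Q (S58), PART I (helper53): the quadratic relation at the generic point, up to a point of
degree `0`.

`W₀` a Weierstrass curve over `ZMod r`, `Δ ≠ 0`, `K` its function field, `P₀` the generic point,
`φ = Point.map (frobAlg r K)`.  Given MANIN'S LEMMA `deg (P₀ - φ P₀) = #W₀(𝔽_r)` (hypothesis
`ManinStmt`), the point `T = φ² P₀ - a φ P₀ + r P₀`, `a = r + 1 - #W₀(𝔽_r)`, is an odd point of
degree `0`; hence `T = 0` or the `x`-coordinate of `T` lies in `ZMod r`.
-/
import Mathlib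
import Fermat.Prelude.Def_FLTPrelim_Modularity
import Fermat.Agent.ES.Q58.DegOdd53
import Fermat.Agent.ES.Q58.QuadRel18
import Fermat.Agent.ES.Q58.CardBound20

set_option autoImplicit false
set_option linter.unusedSectionVars false

open Polynomial

namespace Fermat.Agent.ES.Q58.FrobQuad53

open WeierstrassCurve WeierstrassCurve.Affine
open Fermat.Agent.ES.Q58.IotaDescent23 Fermat.Agent.ES.Q58.SubstEmb17
open Fermat.Agent.ES.Q58.PLPoly2 Fermat.Agent.ES.Q58.DegOdd53 Fermat.Agent.ES.Q58.FrobAlg15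

variable {r : ℕ} [Fact r.Prime] (W₀ : Affine (ZMod r)) [DecidableEq W₀.FunctionField]

/-- Frobenius on the points over the function field. -/
noncomputable abbrev frobPt : (W₀⁄W₀.FunctionField).Point →+ (W₀⁄W₀.FunctionField).Point :=
  Point.map (W' := W₀) (frobAlg r W₀.FunctionField)

theorem frobPt_mem_oddPoints {R : (W₀⁄W₀.FunctionField).Point} (hR : R ∈ oddPoints W₀) :
    frobPt W₀ R ∈ oddPoints W₀ :=
  map_mem_oddPoints W₀ _ (fun z => by
    rw [frobAlg_apply, frobAlg_apply, map_pow]) hR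

/-- the statement of Manin's lemma. -/
def ManinStmt (hΔ : W₀.Δ ≠ 0) : Prop :=
  deg W₀ (IotaDescent23.genericPoint W₀ hΔ - frobPt W₀ (IotaDescent23.genericPoint W₀ hΔ)) =
    Nat.card W₀.Point

/-- substitution commutes with Frobenius on points. -/
theorem map_substHom_frobPt {u v : W₀.FunctionField} (h : (W₀⁄W₀.FunctionField).Equation u v)
    (hX : Transcendental (ZMod r) u) (R : (W₀⁄W₀.FunctionField).Point) :
    Point.map (W' := W₀) (substHom W₀ h hX) (frobPt W₀ R) =
      frobPt W₀ (Point.map (W' := W₀) (substHom W₀ h hX) R) := by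
  unfold frobPt
  rw [Point.map_map, Point.map_map, comp_frobAlg]

variable {W₀}

/-- **the relation point has degree `0`.** -/
theorem deg_relation_eq_zero (hΔ : W₀.Δ ≠ 0) (hM : ManinStmt W₀ hΔ) :
    (frobPt W₀ (frobPt W₀ (IotaDescent23.genericPoint W₀ hΔ))
      - W₀.traceOfFrobenius • frobPt W₀ (IotaDescent23.genericPoint W₀ hΔ)
      + (r : ℤ) • IotaDescent23.genericPoint W₀ hΔ) ∈ oddPoints W₀ ∧
    deg W₀ (frobPt W₀ (frobPt W₀ (IotaDescent23.genericPoint W₀ hΔ))
      - W₀.traceOfFrobenius • frobPt W₀ (IotaDescent23.genericPoint W₀ hΔ)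
      + (r : ℤ) • IotaDescent23.genericPoint W₀ hΔ) = 0 := by
  set P0 := IotaDescent23.genericPoint W₀ hΔ with hP0
  have m0 : P0 ∈ oddPoints W₀ := genericPoint_mem_oddPoints W₀ hΔ
  have m1 : frobPt W₀ P0 ∈ oddPoints W₀ := frobPt_mem_oddPoints W₀ m0
  have m2 : frobPt W₀ (frobPt W₀ P0) ∈ oddPoints W₀ := frobPt_mem_oddPoints W₀ m1
  -- the quadratic function on the group of odd points
  let d : oddPoints W₀ → ℤ := fun R => (deg W₀ (R : (W₀⁄W₀.FunctionField).Point) : ℤ)
  have hPL : ∀ x y : oddPoints W₀, d (x + y) + d (x - y) = 2 * d x + 2 * d y := by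
    intro x y
    have := parallelogram_odd hΔ x.2 y.2
    simp only [d, AddSubgroup.coe_add, AddSubgroup.coe_sub]
    exact_mod_cast this
  let e0 : oddPoints W₀ := ⟨P0, m0⟩
  let e1 : oddPoints W₀ := ⟨frobPt W₀ P0, m1⟩
  let e2 : oddPoints W₀ := ⟨frobPt W₀ (frobPt W₀ P0), m2⟩
  have hrep0 : IsRep W₀ P0 X 1 := isRep_genericPoint hΔ
  have h0 : d e0 = 1 := by
    simp only [d, e0]
    rw [deg_genericPoint hΔ]; rfl
  have h1 : d e1 = (r : ℤ) := by
    simp only [d, e1]
    rw [deg_map_frob hrep0, deg_genericPoint hΔ, mul_one]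
  have h2 : d e2 = (r : ℤ) ^ 2 := by
    simp only [d, e2]
    rw [deg_map_frob (isRep_map_frob hrep0), deg_map_frob hrep0, deg_genericPoint hΔ, mul_one]
    push_cast; ring
  have h12 : d (e1 + e2) = (r : ℤ) * d (e0 + e1) := by
    obtain ⟨U, V, hUV⟩ := exists_isRep_of_mem_oddPoints hΔ (add_mem m0 m1)
    have : ((e1 + e2 : oddPoints W₀) : (W₀⁄W₀.FunctionField).Point) =
        frobPt W₀ (P0 + frobPt W₀ P0) := by
      simp only [e1, e2, AddSubgroup.coe_add, map_add]
    simp only [d]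
    rw [this, deg_map_frob hUV]
    simp only [e0, e1, AddSubgroup.coe_add]
    push_cast; rfl
  -- Manin's lemma and the positivity of `d (e0 + e1)`
  have hman : d (e0 - e1) = (Nat.card W₀.Point : ℤ) := by
    simp only [d, e0, e1, AddSubgroup.coe_sub]
    exact_mod_cast hM
  have hcard : Nat.card W₀.Point ≤ 2 * r + 1 := by
    have := CardBound20.card_point_le W₀
    rwa [ZMod.card] at this
  have hsum : d (e0 + e1) + d (e0 - e1) = 2 + 2 * (r : ℤ) := by
    rw [hPL, h0, h1]; ring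
  have hpos : 0 < deg W₀ (P0 + frobPt W₀ P0) := by
    have h3 : d (e0 + e1) = (deg W₀ (P0 + frobPt W₀ P0) : ℤ) := by
      simp only [d, e0, e1, AddSubgroup.coe_add]
    have : (0 : ℤ) < deg W₀ (P0 + frobPt W₀ P0) := by
      rw [← h3]
      have : (Nat.card W₀.Point : ℤ) ≤ 2 * r + 1 := by exact_mod_cast hcard
      linarith
    exact_mod_cast this
  -- multiplicativity
  have hprod : d (e0 - e2) = d (e0 - e1) * d (e0 + e1) := by
    obtain ⟨A, B, hAB⟩ := exists_isRep_of_mem_oddPoints hΔ (add_mem m0 m1)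
    obtain ⟨U, V, hUV⟩ := exists_isRep_of_mem_oddPoints hΔ (sub_mem m0 m1)
    -- `P0 + φ P0` is an affine point with transcendental `x`
    rcases hR : P0 + frobPt W₀ P0 with _ | ⟨u, v, h⟩
    · rw [hR, ← Point.zero_def, deg_zero] at hpos
      exact absurd hpos (lt_irrefl 0)
    · rw [hR] at hAB hpos
      have hX : Transcendental (ZMod r) u := transcendental_of_deg_pos hAB hpos
      have hmul := deg_map_substHom h hAB hX hUV
      have hσ0 : Point.map (W' := W₀) (substHom W₀ h.1 hX) P0 = Point.some u v h :=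
        map_substHom_genericPoint W₀ hΔ h hX
      have hσ : Point.map (W' := W₀) (substHom W₀ h.1 hX) (P0 - frobPt W₀ P0) =
          P0 - frobPt W₀ (frobPt W₀ P0) := by
        rw [map_sub, map_substHom_frobPt, hσ0, ← hR, map_add]
        abel
      rw [hσ] at hmul
      simp only [d, e0, e1, e2, AddSubgroup.coe_sub, AddSubgroup.coe_add]
      rw [hmul, hR]
      push_cast; rfl
  have hq := QuadRel18.quad_rel hPL e0 e1 e2 (r : ℤ) h0 h1 h2 h12 hprod
  have ha : (1 + (r : ℤ) - d (e0 - e1)) = W₀.traceOfFrobenius := by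
    rw [hman]
    unfold WeierstrassCurve.traceOfFrobenius WeierstrassCurve.card
    rw [Nat.card_zmod]
    ring
  rw [ha] at hq
  have hcoe : ((e2 - W₀.traceOfFrobenius • e1 + (r : ℤ) • e0 : oddPoints W₀) :
      (W₀⁄W₀.FunctionField).Point) = frobPt W₀ (frobPt W₀ P0)
      - W₀.traceOfFrobenius • frobPt W₀ P0 + (r : ℤ) • P0 := by
    simp only [e0, e1, e2, AddSubgroup.coe_add, AddSubgroup.coe_sub, AddSubgroup.coe_zsmul]
  refine ⟨?_, ?_⟩
  · rw [← hcoe]; exact (e2 - W₀.traceOfFrobenius • e1 + (r : ℤ) • e0).2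
  · rw [← hcoe]
    simp only [d] at hq
    exact_mod_cast hq

/-- **the relation point is `0` or has its `x`-coordinate in the prime field.** -/
theorem relation_eq_zero_or_const (hΔ : W₀.Δ ≠ 0) (hM : ManinStmt W₀ hΔ) :
    (frobPt W₀ (frobPt W₀ (IotaDescent23.genericPoint W₀ hΔ))
      - W₀.traceOfFrobenius • frobPt W₀ (IotaDescent23.genericPoint W₀ hΔ)
      + (r : ℤ) • IotaDescent23.genericPoint W₀ hΔ) = 0 ∨
    ∃ (u : ZMod r) (v : W₀.FunctionField)
      (h : (W₀⁄W₀.FunctionField).Nonsingular (algebraMap (ZMod r) W₀.FunctionField u) v),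
      (frobPt W₀ (frobPt W₀ (IotaDescent23.genericPoint W₀ hΔ))
      - W₀.traceOfFrobenius • frobPt W₀ (IotaDescent23.genericPoint W₀ hΔ)
      + (r : ℤ) • IotaDescent23.genericPoint W₀ hΔ) =
        Point.some (algebraMap (ZMod r) W₀.FunctionField u) v h := by
  obtain ⟨hodd, hdeg⟩ := deg_relation_eq_zero hΔ hM
  obtain ⟨U, V, hUV⟩ := exists_isRep_of_mem_oddPoints hΔ hodd
  rcases hT : (frobPt W₀ (frobPt W₀ (IotaDescent23.genericPoint W₀ hΔ))
      - W₀.traceOfFrobenius • frobPt W₀ (IotaDescent23.genericPoint W₀ hΔ)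
      + (r : ℤ) • IotaDescent23.genericPoint W₀ hΔ) with _ | ⟨x, y, h⟩
  · left; rfl
  · right
    rw [hT] at hUV hdeg
    obtain ⟨u, rfl⟩ := x_mem_range_of_deg_eq_zero hUV hdeg
    exact ⟨u, y, h, rfl⟩

end Fermat.Agent.ES.Q58.FrobQuad53
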