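/-
Programme Q (S58), PART I, final assembly (helper53): **the Eichler–Shimura relation for a Weierstrass
curve over `𝔽_r`**, from Manin's lemma.

`W₀` a Weierstrass curve over `ZMod r`, `Δ ≠ 0`, `a = W₀.traceOfFrobenius = r + 1 - #W₀(𝔽_r)`.
For EVERY field `κ` over `ZMod r` and every point `Q ∈ W₀(κ)`:
`φ (φ Q) - a • φ Q + r • Q = 0`, `φ = Point.map (frobAlg r κ)`.

* `relHom a κ` : the additive endomorphism `Q ↦ φ² Q - a φ Q + r Q` of `W₀(κ)`, natural in `κ`;
* `relHom_genericPoint_eq_zero` : it kills the generic point (`FrobQuad53` + the `2P₀`, `3P₀` trick);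
* `relHom_eq_zero_of_isAlgebraic` : hence every point over an algebraic extension of `ZMod r`
  (substitutions `P₀ ↦ P₀`, `P₀ ↦ P₀ + Q` into an algebraic closure of the function field);
* `frob_relation_of_manin` : hence every point over every field.
-/
import Mathlib
import Fermat.Agent.ES.Q58.FrobQuad53

set_option autoImplicit false
set_option linter.unusedSectionVars false

open Polynomial

namespace Fermat.Agent.ES.Q58.FrobRel53

open WeierstrassCurve WeierstrassCurve.Affine
open Fermat.Agent.ES.Q58.IotaDescent23 Fermat.Agent.ES.Q58.SubstEmb17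
open Fermat.Agent.ES.Q58.DegOdd53 Fermat.Agent.ES.Q58.FrobAlg15 Fermat.Agent.ES.Q58.FrobQuad53

variable {r : ℕ} [Fact r.Prime] (W₀ : Affine (ZMod r))

/-- the additive endomorphism `Q ↦ φ² Q - a φ Q + r Q` of `W₀(κ)`. -/
noncomputable def relHom (a : ℤ) (κ : Type*) [Field κ] [DecidableEq κ] [Algebra (ZMod r) κ] :
    (W₀⁄κ).Point →+ (W₀⁄κ).Point :=
  (Point.map (W' := W₀) (frobAlg r κ)).comp (Point.map (W' := W₀) (frobAlg r κ))
    - a • Point.map (W' := W₀) (frobAlg r κ) + (r : ℤ) • AddMonoidHom.id _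

theorem relHom_apply (a : ℤ) (κ : Type*) [Field κ] [DecidableEq κ] [Algebra (ZMod r) κ]
    (Q : (W₀⁄κ).Point) :
    relHom W₀ a κ Q = Point.map (W' := W₀) (frobAlg r κ) (Point.map (W' := W₀) (frobAlg r κ) Q)
      - a • Point.map (W' := W₀) (frobAlg r κ) Q + (r : ℤ) • Q := rfl

/-- naturality of `relHom`. -/
theorem map_relHom (a : ℤ) {κ κ' : Type*} [Field κ] [DecidableEq κ] [Algebra (ZMod r) κ]
    [Field κ'] [DecidableEq κ'] [Algebra (ZMod r) κ'] (f : κ →ₐ[ZMod r] κ') (Q : (W₀⁄κ).Point) :
    Point.map (W' := W₀) f (relHom W₀ a κ Q) = relHom W₀ a κ' (Point.map (W' := W₀) f Q) := by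
  rw [relHom_apply, relHom_apply, map_add, map_sub, map_zsmul, map_zsmul]
  have h1 : ∀ R : (W₀⁄κ).Point, Point.map (W' := W₀) f (Point.map (W' := W₀) (frobAlg r κ) R) =
      Point.map (W' := W₀) (frobAlg r κ') (Point.map (W' := W₀) f R) := by
    intro R
    rw [Point.map_map, Point.map_map, comp_frobAlg]
  rw [h1, h1]


/-! ### the generic point -/

section Generic

variable [DecidableEq W₀.FunctionField]

/-- pure group theory: `2T = ±T` and `3T = ±T` force `T = 0`. -/
theorem eq_zero_of_two_three {G : Type*} [AddCommGroup G] {T : G}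
    (h2 : (2 : ℤ) • T = T ∨ (2 : ℤ) • T = -T) (h3 : (3 : ℤ) • T = T ∨ (3 : ℤ) • T = -T) :
    T = 0 := by
  have e3 : (3 : ℤ) • T = (2 : ℤ) • T + T := by
    rw [show (3 : ℤ) = 2 + 1 by norm_num, add_smul, one_smul]
  rcases h2 with h2 | h2
  · rw [two_zsmul] at h2
    exact add_eq_left.mp h2
  · rw [e3, h2, neg_add_cancel] at h3
    rcases h3 with h3 | h3
    · exact h3.symm
    · exact neg_eq_zero.mp h3.symm

/-- the multiples of the generic point have degree `n²`. -/
theorem deg_zsmul_genericPoint (hΔ : W₀.Δ ≠ 0) (n : ℤ) :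
    (deg W₀ (n • IotaDescent23.genericPoint W₀ hΔ) : ℤ) = n ^ 2 := by
  have m0 : IotaDescent23.genericPoint W₀ hΔ ∈ oddPoints W₀ := genericPoint_mem_oddPoints W₀ hΔ
  let d : oddPoints W₀ → ℤ := fun R => (deg W₀ (R : (W₀⁄W₀.FunctionField).Point) : ℤ)
  have hPL : ∀ x y : oddPoints W₀, d (x + y) + d (x - y) = 2 * d x + 2 * d y := by
    intro x y
    have := parallelogram_odd hΔ x.2 y.2
    simp only [d, AddSubgroup.coe_add, AddSubgroup.coe_sub]
    exact_mod_cast this
  have h := QuadRel18.d_zsmul hPL n ⟨_, m0⟩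
  simp only [d, AddSubgroup.coe_zsmul] at h
  rw [h, deg_genericPoint hΔ]
  simp

/-- **`relHom` kills the generic point.** -/
theorem relHom_genericPoint_eq_zero (hΔ : W₀.Δ ≠ 0) (hM : ManinStmt W₀ hΔ) :
    relHom W₀ W₀.traceOfFrobenius W₀.FunctionField (IotaDescent23.genericPoint W₀ hΔ) = 0 := by
  set P0 := IotaDescent23.genericPoint W₀ hΔ with hP0
  set T := relHom W₀ W₀.traceOfFrobenius W₀.FunctionField P0 with hT
  rcases relation_eq_zero_or_const hΔ hM with h | ⟨u, v, h, hTe⟩
  · exact h
  · have hTe' : T = Point.some (algebraMap (ZMod r) W₀.FunctionField u) v h := hTe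
    have m0 : P0 ∈ oddPoints W₀ := genericPoint_mem_oddPoints W₀ hΔ
    -- the key step for a nonzero multiplier
    have key : ∀ n : ℤ, n ≠ 0 → (n • T = T ∨ n • T = -T) := by
      intro n hn
      have hdeg := deg_zsmul_genericPoint W₀ hΔ n
      have hpos : 0 < deg W₀ (n • P0) := by
        have : (0 : ℤ) < deg W₀ (n • P0) := by rw [hdeg]; positivity
        exact_mod_cast this
      obtain ⟨A, B, hAB⟩ := exists_isRep_of_mem_oddPoints hΔ (zsmul_mem m0 n)
      rcases hR : n • P0 with _ | ⟨un, vn, hn'⟩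
      · rw [hR, ← Point.zero_def, deg_zero] at hpos
        exact absurd hpos (lt_irrefl 0)
      · rw [hR] at hAB hpos
        have hX : Transcendental (ZMod r) un := transcendental_of_deg_pos hAB hpos
        have hσ0 : Point.map (W' := W₀) (substHom W₀ hn'.1 hX) P0 = Point.some un vn hn' :=
          map_substHom_genericPoint W₀ hΔ hn' hX
        have h1 : Point.map (W' := W₀) (substHom W₀ hn'.1 hX) T = n • T := by
          rw [hT, map_relHom, hσ0, ← hR, map_zsmul]
        rw [← Point.xRep_eq_xRep_iff, ← h1]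
        funext i
        rw [xRep_map, hTe', Point.xRep_some]
        fin_cases i <;> simp
    exact eq_zero_of_two_three (key 2 (by norm_num)) (key 3 (by norm_num))

end Generic

/-! ### algebraic extensions of the prime field -/

section Algebraic

/-- **every point over an algebraic extension of `ZMod r`** is killed by `relHom`, as soon as the
generic point is. -/
theorem relHom_eq_zero_of_isAlgebraic [DecidableEq W₀.FunctionField] (hΔ : W₀.Δ ≠ 0) (a : ℤ)
    (h0 : relHom W₀ a W₀.FunctionField (IotaDescent23.genericPoint W₀ hΔ) = 0)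
    {κ : Type*} [Field κ] [DecidableEq κ] [Algebra (ZMod r) κ] [Algebra.IsAlgebraic (ZMod r) κ]
    (Q : (W₀⁄κ).Point) : relHom W₀ a κ Q = 0 := by
  classical
  set P0 := IotaDescent23.genericPoint W₀ hΔ with hP0
  let L := AlgebraicClosure W₀.FunctionField
  let i : W₀.FunctionField →ₐ[ZMod r] L := IsScalarTower.toAlgHom (ZMod r) W₀.FunctionField L
  let j : κ →ₐ[ZMod r] L := IsAlgClosed.lift
  set P0L : (W₀⁄L).Point := Point.map (W' := W₀) i P0 with hP0L
  set Q' : (W₀⁄L).Point := Point.map (W' := W₀) j Q with hQ'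
  have hQ'alg : Q' ∈ algPoints W₀ L := map_mem_algPoints W₀ j Q
  have hxL : Transcendental (ZMod r) (i (xK W₀)) := transcendental_map i (transcendental_xK W₀)
  have hP0Lsome : P0L = Point.some (i (xK W₀)) (i (yK W₀))
      ((W₀.baseChange_nonsingular i.injective _ _).mpr (nonsingular_xK_yK W₀ hΔ)) := by
    rw [hP0L, hP0, IotaDescent23.genericPoint, Point.map_some]
  have hP0Lnot : P0L ∉ algPoints W₀ L := by
    rw [hP0Lsome, some_mem_algPoints_iff]
    exact hxL
  -- `P0L + Q'` is an affine point with transcendental `x`-coordinate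
  rcases hR : P0L + Q' with _ | ⟨u, v, h⟩
  · exfalso
    apply hP0Lnot
    have : P0L = -Q' := eq_neg_of_add_eq_zero_left hR
    rw [this]
    exact neg_mem hQ'alg
  · have hX : Transcendental (ZMod r) u := by
      intro hu
      apply hP0Lnot
      have h1 : Point.some u v h ∈ algPoints W₀ L := (some_mem_algPoints_iff W₀ h).mpr hu
      have : P0L = Point.some u v h - Q' := by rw [← hR, add_sub_cancel_right]
      rw [this]
      exact sub_mem h1 hQ'alg
    have hs1 : Point.map (W' := W₀) (substHom W₀ h.1 hX) P0 = Point.some u v h :=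
      map_substHom_genericPoint W₀ hΔ h hX
    have e1 : relHom W₀ a L (P0L + Q') = 0 := by
      rw [hR, ← hs1, ← map_relHom, h0, map_zero]
    have e0 : relHom W₀ a L P0L = 0 := by
      rw [hP0L, ← map_relHom, h0, map_zero]
    have e2 : relHom W₀ a L Q' = 0 := by
      rw [map_add, e0, zero_add] at e1
      exact e1
    rw [hQ', ← map_relHom] at e2
    exact Point.map_injective (W' := W₀) j (by rw [e2, map_zero])

end Algebraic

/-! ### all fields -/

/-- **every point over every field over `ZMod r`** is killed by `relHom`, as soon as the generic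
point is. -/
theorem relHom_eq_zero_of_generic [DecidableEq W₀.FunctionField] (hΔ : W₀.Δ ≠ 0) (a : ℤ)
    (h0 : relHom W₀ a W₀.FunctionField (IotaDescent23.genericPoint W₀ hΔ) = 0)
    {κ : Type*} [Field κ] [DecidableEq κ] [Algebra (ZMod r) κ] (Q : (W₀⁄κ).Point) :
    relHom W₀ a κ Q = 0 := by
  classical
  rcases Q with _ | ⟨x, y, h⟩
  · exact map_zero _
  · by_cases hx : Transcendental (ZMod r) x
    · have hs : Point.map (W' := W₀) (substHom W₀ h.1 hx) (IotaDescent23.genericPoint W₀ hΔ) =
          Point.some x y h := map_substHom_genericPoint W₀ hΔ h hx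
      rw [← hs, ← map_relHom, h0, map_zero]
    · have hx' : IsAlgebraic (ZMod r) x := not_not.mp hx
      obtain ⟨Q₀, hQ₀⟩ := (some_mem_algPoints_iff W₀ h).mpr hx'
      rw [← hQ₀, ← map_relHom, relHom_eq_zero_of_isAlgebraic W₀ hΔ a h0 Q₀, map_zero]

/-- **The Eichler–Shimura relation over `𝔽_r`, from Manin's lemma.** -/
theorem frob_relation_of_manin [DecidableEq W₀.FunctionField] (hΔ : W₀.Δ ≠ 0)
    (hM : ManinStmt W₀ hΔ) {κ : Type*} [Field κ] [DecidableEq κ] [Algebra (ZMod r) κ]
    (Q : (W₀⁄κ).Point) :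
    Point.map (W' := W₀) (frobAlg r κ) (Point.map (W' := W₀) (frobAlg r κ) Q)
      - W₀.traceOfFrobenius • Point.map (W' := W₀) (frobAlg r κ) Q + (r : ℤ) • Q = 0 := by
  rw [← relHom_apply]
  exact relHom_eq_zero_of_generic W₀ hΔ _ (relHom_genericPoint_eq_zero W₀ hΔ hM) Q

end Fermat.Agent.ES.Q58.FrobRel53
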