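/-
Programme Q (S58), PART III-good and the assembly of `ECFacts.inertia` (helper98).

* `valuation_two_torsion_eq_one` : on an integral Weierstrass model with good reduction at the
  place `A`, a point of odd order with integral coordinates does not reduce to a `2`-torsion
  point: `2 y + a₁ x + a₃` is a unit of `A`  (reduction to the curve over the residue field of `A`
  and the division polynomials);
* `inertia_fix_of_good` : at a good prime `q`, the inertia groups over `q` act trivially on the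
  `λⁿ`-torsion, `λ ≠ q` an odd prime;
* `MultFix W` : the statement of PART III-mult (inertia at a multiplicative prime fixes at least
  `λⁿ` points killed by `λⁿ`);
* `ecFacts_inertia` : the field `inertia` of `ECIface12.ECFacts` for a semistable model, from
  `MultFix W`.
-/
import Mathlib
import Fermat.Agent.ES.Q58.WeakLink25
import Fermat.Agent.ES.Q58.CoordField13
import Fermat.Agent.ES.Q58.ECIface12

set_option autoImplicit false

open WeierstrassCurve WeierstrassCurve.Affine Polynomial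

namespace Fermat.Agent.ES.Q58.InertiaAsm98

section Residue

variable {L : Type*} [Field L] [DecidableEq L] (A : ValuationSubring L)

open Fermat.Agent.S05.Inertia Fermat.Agent.DivPoly

omit [DecidableEq L] in
theorem map_subtype_map (W : WeierstrassCurve ℤ) :
    (W.map (Int.castRingHom A)).map A.subtype = W.map (Int.castRingHom L) := by
  rw [WeierstrassCurve.map_map,
    show A.subtype.comp (Int.castRingHom A) = Int.castRingHom L from RingHom.ext_int _ _]

omit [DecidableEq L] in
theorem map_residue_map (W : WeierstrassCurve ℤ) :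
    (W.map (Int.castRingHom A)).map (IsLocalRing.residue A) =
      W.map (Int.castRingHom (IsLocalRing.ResidueField A)) := by
  rw [WeierstrassCurve.map_map,
    show (IsLocalRing.residue A).comp (Int.castRingHom A) =
      Int.castRingHom (IsLocalRing.ResidueField A) from RingHom.ext_int _ _]

/-- A point of odd order with integral coordinates on a model with good reduction does not reduce
to a `2`-torsion point. -/
theorem valuation_two_torsion_eq_one (W : WeierstrassCurve ℤ) {q m : ℕ} (hq : q.Prime)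
    (hA : A.LiesOverPrime q) (hgood : ¬ (q : ℤ) ∣ W.Δ) (hm : Odd m)
    {V : Affine L} (hV : V = (W.map (Int.castRingHom L)).toAffine)
    {x y : L} (h : V.Nonsingular x y)
    (hP : m • Point.some x y h = 0)
    (hx : A.valuation x ≤ 1) (hy : A.valuation y ≤ 1) :
    A.valuation (2 * y + V.a₁ * x + V.a₃) = 1 := by
  classical
  subst hV
  simp only [WeierstrassCurve.map_a₁, WeierstrassCurve.map_a₃, eq_intCast]
  have : CharP (IsLocalRing.ResidueField A) q :=
    Fermat.Agent.ES.EC.LiftTorsion29.charP_residueField A hq hA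
  have hxA : x ∈ A := (A.valuation_le_one_iff x).mp hx
  have hyA : y ∈ A := (A.valuation_le_one_iff y).mp hy
  set xA : A := ⟨x, hxA⟩ with hxAdef
  set yA : A := ⟨y, hyA⟩ with hyAdef
  set WA : WeierstrassCurve A := W.map (Int.castRingHom A) with hWA
  set Wk : WeierstrassCurve (IsLocalRing.ResidueField A) :=
    W.map (Int.castRingHom (IsLocalRing.ResidueField A)) with hWk
  -- the equation over `A` and over the residue field
  have heqA : WA.toAffine.Equation xA yA := by
    have h1 := h.1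
    rw [← map_subtype_map A W] at h1
    exact (Affine.map_equation WA.toAffine (f := A.subtype) Subtype.val_injective xA yA).mp h1
  have heqk : Wk.toAffine.Equation (IsLocalRing.residue A xA) (IsLocalRing.residue A yA) := by
    have h1 := Affine.Equation.map (IsLocalRing.residue A) heqA
    rw [hWk, ← map_residue_map A W]
    exact h1
  have hΔk : Wk.toAffine.Δ ≠ 0 := by
    rw [hWk]
    show (W.map (Int.castRingHom (IsLocalRing.ResidueField A))).Δ ≠ 0
    rw [WeierstrassCurve.map_Δ, eq_intCast]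
    intro h0
    exact hgood ((CharP.intCast_eq_zero_iff (IsLocalRing.ResidueField A) q W.Δ).mp h0)
  have hnsk : Wk.toAffine.Nonsingular (IsLocalRing.residue A xA) (IsLocalRing.residue A yA) :=
    (Wk.toAffine.equation_iff_nonsingular_of_Δ_ne_zero hΔk).mp heqk
  -- the division polynomial
  have hψ : ((W.map (Int.castRingHom L)).toAffine.preΨ' m).eval x = 0 :=
    (A1Final.nsmul_eq_zero_iff_preΨ' h hm).mp hP
  have hψA : (WA.preΨ' m).eval xA = 0 := by
    apply Subtype.val_injective
    have e := Fermat.Agent.ES.EC.LiftTorsion29.eval_map_apply' A.subtype (WA.preΨ' m) xA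
    rw [← WeierstrassCurve.map_preΨ', map_subtype_map A W] at e
    rw [ZeroMemClass.coe_zero]
    exact e.symm.trans hψ
  have hψk : (Wk.toAffine.preΨ' m).eval (IsLocalRing.residue A xA) = 0 := by
    have e := Fermat.Agent.ES.EC.LiftTorsion29.eval_map_apply' (IsLocalRing.residue A)
      (WA.preΨ' m) xA
    rw [← WeierstrassCurve.map_preΨ', map_residue_map A W, hψA, map_zero] at e
    exact e
  have hmk : m • (Point.some _ _ hnsk : Wk.toAffine.Point) = 0 :=
    (A1Final.nsmul_eq_zero_iff_preΨ' hnsk hm).mpr hψk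
  -- conclusion
  have hvint : ∀ n : ℤ, A.valuation (n : L) ≤ 1 := fun n => valuation_intCast_le_one n
  have hle : A.valuation (2 * y + ((W.a₁ : ℤ) : L) * x + ((W.a₃ : ℤ) : L)) ≤ 1 := by
    refine A.valuation.map_add_le (A.valuation.map_add_le ?_ ?_) (hvint _)
    · rw [map_mul]
      have h2 : A.valuation (2 : L) ≤ 1 := by
        have := hvint 2
        rwa [Int.cast_ofNat] at this
      exact mul_le_one' h2 hy
    · rw [map_mul]
      exact mul_le_one' (hvint _) hx
  apply le_antisymm hle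
  by_contra hlt
  push Not at hlt
  have hmem : (2 * yA + ((W.a₁ : ℤ) : A) * xA + ((W.a₃ : ℤ) : A) : A) ∈
      IsLocalRing.maximalIdeal A := by
    have hcoe : (((2 * yA + ((W.a₁ : ℤ) : A) * xA + ((W.a₃ : ℤ) : A) : A)) : L) =
        2 * y + ((W.a₁ : ℤ) : L) * x + ((W.a₃ : ℤ) : L) := by
      push_cast
      rfl
    have hnu : (((2 * yA + ((W.a₁ : ℤ) : A) * xA + ((W.a₃ : ℤ) : A) : A)) : L) ∈ A.nonunits := by
      rw [hcoe]
      exact (ValuationSubring.mem_nonunits_iff (A := A)).mpr hlt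
    exact (ValuationSubring.coe_mem_nonunits_iff).mp hnu
  have hres := (IsLocalRing.residue_eq_zero_iff _).mpr hmem
  simp only [map_add, map_mul, map_intCast, map_ofNat] at hres
  have hneg : IsLocalRing.residue A yA =
      Wk.toAffine.negY (IsLocalRing.residue A xA) (IsLocalRing.residue A yA) := by
    simp only [Affine.negY, hWk, WeierstrassCurve.map_a₁, WeierstrassCurve.map_a₃, eq_intCast]
    linear_combination hres
  have h2 : (2 : ℕ) • (Point.some _ _ hnsk : Wk.toAffine.Point) = 0 := by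
    rw [two_nsmul]
    exact Point.add_of_Y_eq rfl hneg
  obtain ⟨j, hj⟩ := hm
  have h0 : (Point.some _ _ hnsk : Wk.toAffine.Point) = 0 := by
    have e1 : m • (Point.some _ _ hnsk : Wk.toAffine.Point)
        = j • ((2 : ℕ) • (Point.some _ _ hnsk : Wk.toAffine.Point)) + Point.some _ _ hnsk := by
      rw [hj, add_smul, mul_comm, mul_smul, one_smul]
    rw [hmk, h2, nsmul_zero, zero_add] at e1
    exact e1.symm
  exact Point.some_ne_zero hnsk h0

end Residue

section Good

local notation "Qb" => AlgebraicClosure ℚ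
local notation "GQ" => (AlgebraicClosure ℚ ≃ₐ[ℚ] AlgebraicClosure ℚ)

open Fermat.Agent.S05.Inertia Fermat.Agent.S05.Kernel Fermat.Agent.ES.EC.CongE1_20
open Fermat.Agent.ES.EC Fermat.Agent.ES.Q58.ECIface12

/-- **PART III-good.**  At a good prime `q` the inertia groups over `q` act trivially on the
`λⁿ`-torsion (`λ ≠ q` an odd prime). -/
theorem inertia_fix_of_good (W : WeierstrassCurve ℤ) {q lam n : ℕ} (hq : q.Prime)
    (hlam : lam.Prime) (hlam2 : lam ≠ 2) (hne : q ≠ lam) (hgood : W.IsGoodPrimeFor q)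
    {P : ValuationSubring Qb} (hP : P.LiesOverPrime q) {τ : GQ}
    (hτ : τ ∈ P.inertiaSubgroupIn ℚ)
    (Q0 : ((W.map (Int.castRingHom ℚ))⁄Qb).Point) (hQ0 : lam ^ n • Q0 = 0) :
    Point.map (W' := W.map (Int.castRingHom ℚ)) τ.toAlgHom Q0 = Q0 := by
  classical
  have hmodd : Odd (lam ^ n) := (hlam.odd_of_ne_two hlam2).pow
  have hqm : ¬ q ∣ lam ^ n := fun hd =>
    hne ((Nat.prime_dvd_prime_iff_eq hq hlam).mp (hq.dvd_of_dvd_pow hd))
  have hvm : P.valuation ((lam ^ n : ℕ) : Qb) = 1 := valuation_natCast_eq_one hq hP hqm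
  have hV : ((W.map (Int.castRingHom ℚ))⁄Qb) = (W.map (Int.castRingHom Qb)).toAffine :=
    TorsionLift20.baseChange_eq_map W
  have hint : IntegralCoeffs P.valuation ((W.map (Int.castRingHom ℚ))⁄Qb) := by
    rw [hV]
    refine ⟨?_, ?_, ?_, ?_, ?_⟩
    · rw [WeierstrassCurve.map_a₁, eq_intCast]; exact valuation_intCast_le_one _
    · rw [WeierstrassCurve.map_a₂, eq_intCast]; exact valuation_intCast_le_one _
    · rw [WeierstrassCurve.map_a₃, eq_intCast]; exact valuation_intCast_le_one _
    · rw [WeierstrassCurve.map_a₄, eq_intCast]; exact valuation_intCast_le_one _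
    · rw [WeierstrassCurve.map_a₆, eq_intCast]; exact valuation_intCast_le_one _
  rcases Q0 with _ | ⟨x, y, h⟩
  · rfl
  · have hvx : P.valuation x ≤ 1 := x_integral_of_nsmul_eq_zero hint h hvm hQ0
    have hvy : P.valuation y ≤ 1 := by
      by_contra hy
      exact absurd (vx_of_vy hint h.1 (not_le.mp hy)) (not_lt.mpr hvx)
    have hns' : ((W.map (Int.castRingHom ℚ))⁄Qb).Nonsingular (τ.toAlgHom x) (τ.toAlgHom y) :=
      (WeierstrassCurve.Affine.baseChange_nonsingular (W.map (Int.castRingHom ℚ))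
        (f := τ.toAlgHom) τ.toAlgHom.injective x y).mpr h
    have hmap : Point.map (W' := W.map (Int.castRingHom ℚ)) τ.toAlgHom (Point.some x y h)
        = Point.some (τ.toAlgHom x) (τ.toAlgHom y) hns' := rfl
    rw [hmap]
    have hx' : P.valuation (τ.toAlgHom x - x) < 1 := valuation_sub_lt_one_rat hτ hvx
    have hy' : P.valuation (τ.toAlgHom y - y) < 1 := valuation_sub_lt_one_rat hτ hvy
    have hQ0' : lam ^ n • Point.some (τ.toAlgHom x) (τ.toAlgHom y) hns' = 0 := by
      rw [← hmap, ← map_nsmul, hQ0, map_zero]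
    have hu : P.valuation (2 * y + ((W.map (Int.castRingHom ℚ))⁄Qb).a₁ * x
        + ((W.map (Int.castRingHom ℚ))⁄Qb).a₃) = 1 :=
      valuation_two_torsion_eq_one P W hq hP hgood hmodd hV h hQ0 hvx hvy
    exact eq_of_congruent_of_nsmul_eq_zero hint hns' h hx' hy' hu hvm hQ0' hQ0

/-- The statement of PART III-mult: at a multiplicative prime `q` the inertia groups over `q` fix
at least `λⁿ` points killed by `λⁿ`. -/
def MultFix (W : WeierstrassCurve ℤ) : Prop :=
  ∀ {q : ℕ}, q.Prime → (q : ℤ) ∣ W.Δ → ¬ (q : ℤ) ∣ W.c₄ → ∀ {lam : ℕ}, lam.Prime → lam ≠ 2 →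
    lam ≠ q → ∀ (n : ℕ) (P : ValuationSubring Qb), P.LiesOverPrime q →
    ∃ S : Finset ((W.map (Int.castRingHom ℚ))⁄Qb).Point, lam ^ n ≤ S.card ∧
      (∀ Q ∈ S, lam ^ n • Q = 0) ∧
      ∀ τ ∈ P.inertiaSubgroupIn ℚ, ∀ Q ∈ S, τ • Q = Q

/-- The good analogue of `MultFix`: the whole `λⁿ`-torsion is fixed. -/
theorem exists_fixed_torsion_good (W : WeierstrassCurve ℤ) (hΔ : W.Δ ≠ 0) {q : ℕ} (hq : q.Prime)
    (hgood : W.IsGoodPrimeFor q) {lam : ℕ} (hlam : lam.Prime) (hlam2 : lam ≠ 2) (hlq : lam ≠ q)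
    (n : ℕ) (P : ValuationSubring Qb) (hP : P.LiesOverPrime q) :
    ∃ S : Finset ((W.map (Int.castRingHom ℚ))⁄Qb).Point, lam ^ n ≤ S.card ∧
      (∀ Q ∈ S, lam ^ n • Q = 0) ∧
      ∀ τ ∈ P.inertiaSubgroupIn ℚ, ∀ Q ∈ S, τ • Q = Q := by
  classical
  have hmodd : Odd (lam ^ n) := (hlam.odd_of_ne_two hlam2).pow
  have hΔE : (W.map (Int.castRingHom ℚ)).Δ ≠ 0 := by
    rw [WeierstrassCurve.map_Δ, eq_intCast]
    exact_mod_cast hΔ
  have hmF : ((lam ^ n : ℕ) : Qb) ≠ 0 := Nat.cast_ne_zero.mpr hmodd.pos.ne'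
  have hfin : {Q : ((W.map (Int.castRingHom ℚ))⁄Qb).Point | lam ^ n • Q = 0}.Finite :=
    (Fermat.Agent.DivPoly.A1Final.torsion_finite_ncard_le
      (W := ((W.map (Int.castRingHom ℚ))⁄Qb)) hmodd hmF).1
  refine ⟨hfin.toFinset, ?_, ?_, ?_⟩
  · have hcard := CoordField13.card_torsionBy_pow hΔE hlam hlam2 n
    have hset : ((Submodule.torsionBy ℤ ((W.map (Int.castRingHom ℚ))⁄Qb).Point
        ((lam ^ n : ℕ) : ℤ) : Submodule ℤ _) : Set ((W.map (Int.castRingHom ℚ))⁄Qb).Point)
        = {Q | lam ^ n • Q = 0} := by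
      ext Q
      rw [SetLike.mem_coe, Submodule.mem_torsionBy_iff, natCast_zsmul]
      rfl
    have h1 : hfin.toFinset.card = lam ^ (2 * n) := by
      rw [← Set.ncard_eq_toFinset_card _ hfin, ← hset, ← hcard]
      exact (Nat.card_coe_set_eq _).symm
    rw [h1]
    exact Nat.pow_le_pow_right hlam.pos (by omega)
  · intro Q hQ
    exact (Set.Finite.mem_toFinset hfin).mp hQ
  · intro τ hτ Q hQ
    exact inertia_fix_of_good W hq hlam hlam2 (Ne.symm hlq) hgood hP hτ Q
      ((Set.Finite.mem_toFinset hfin).mp hQ)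

/-- **Assembly of `ECFacts.inertia`** for a semistable model, from PART III-mult. -/
theorem ecFacts_inertia (W : WeierstrassCurve ℤ) (hΔ : W.Δ ≠ 0) (hss : W.IsSemistableModel)
    (hM : MultFix W) :
    ∀ q : ℕ, q.Prime → ∃ T : Finset ℕ, ∀ lam : ℕ, lam.Prime → lam ∉ T → InertiaCong W lam q := by
  classical
  intro q hq
  refine ⟨{2, q}, fun lam hlam hlamT => ?_⟩
  have hlam2 : lam ≠ 2 := fun h => hlamT (by rw [h]; simp)
  have hlq : lam ≠ q := fun h => hlamT (by rw [h]; simp)
  refine ⟨{lam}, fun n => ?_⟩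
  have hmodd : Odd (lam ^ n) := (hlam.odd_of_ne_two hlam2).pow
  obtain ⟨K, hKfin, hK⟩ := CoordField13.coordField (W.map (Int.castRingHom ℚ)) hmodd
  refine ⟨K, hKfin, fun P hP τ hτ ℓ A φ hℓ hℓT hgoodℓ hA hφ i hi => ?_⟩
  have hℓlam : ℓ ≠ lam := fun h => hℓT (by rw [h]; simp)
  have hτi : τ ^ i ∈ P.inertiaSubgroupIn ℚ := Subgroup.pow_mem _ hτ i
  obtain ⟨S, hcard, hkill, hfix⟩ :
      ∃ S : Finset ((W.map (Int.castRingHom ℚ))⁄Qb).Point, lam ^ n ≤ S.card ∧
        (∀ Q ∈ S, lam ^ n • Q = 0) ∧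
        ∀ τ ∈ P.inertiaSubgroupIn ℚ, ∀ Q ∈ S, τ • Q = Q := by
    by_cases hgood : W.IsGoodPrimeFor q
    · exact exists_fixed_torsion_good W hΔ hq hgood hlam hlam2 hlq n P hP
    · have hqD : (q : ℤ) ∣ W.Δ := not_not.mp hgood
      exact hM hq hqD (hss q hq hqD) hlam hlam2 hlq n P hP
  refine WeakLink25.weakLink W hℓ hlam hlam2 hℓlam hgoodℓ hA hφ S (fun Q hQ => ⟨hkill Q hQ, ?_⟩)
    hcard
  rw [hK Q (hkill Q hQ) φ (τ ^ i) hi]
  exact hfix (τ ^ i) hτi Q hQ

end Good

end Fermat.Agent.ES.Q58.InertiaAsm98
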