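/-
Programme Q (S58), PART III-mult (helper88): inertia at a prime of multiplicative reduction.

`W` an integral Weierstrass model with `Δ ≠ 0`, `q` a prime with `q ∣ Δ`, `q ∤ c₄`
(multiplicative reduction), `λ ≠ q` an odd prime, `n : ℕ`, `A` a valuation subring of `ℚ̄` over
`q`.  Then there is a set `S` of at least `λⁿ` points of `W(ℚ̄)` killed by `λⁿ`, each of which is
fixed by every element of the inertia group of `A`  (`exists_inertia_fixed_torsion`).

Method (no group structure on `E₀`, no Tate curve):
* `NodeCount15.exists_torsion_node`: the nodal special fibre over the residue field `κ` of `A`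
  (algebraically closed of characteristic `q`) has `≥ λⁿ` (nonsingular) points killed by `λⁿ`;
* `exists_lift_of_nonsingular`: a nonsingular point of the special fibre killed by an odd `m`
  prime to `q` lifts to a point of `W(L)` killed by `m`, with coordinates in `A` and the given
  residues (division polynomial `preΨ'_m` has unit leading coefficient `m`; root lifting
  `LiftTorsion29.exists_root_lift`; `DivPoly.A1Final.nsmul_eq_zero_iff_preΨ'` holds on the
  nonsingular points of ANY Weierstrass curve);
* the reduction of such a point is not a `2`-torsion point (`m` odd), so an inertia element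
  `τ` moves it to a congruent point killed by `m`, hence fixes it
  (`CongE1_20.eq_of_congruent_of_nsmul_eq_zero`).
-/
import Mathlib
import Fermat.Prelude.Def_FLTPrelim_Modularity
import Fermat.Prelude.Def_FLTPrelim_Ramification
import Fermat.Prelude.Def_FLTPrelim_GaloisRep
import Fermat.Agent.DivPoly.A1Final
import Fermat.Agent.ES.EC.CongE1_20
import Fermat.Agent.ES.EC.LiftTorsion29
import Fermat.Agent.ES.EC.TorsionLift20
import Fermat.Agent.ES.Q58.NodeCount15
import Fermat.Agent.S05.Inertia

set_option autoImplicit false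

open Polynomial WeierstrassCurve WeierstrassCurve.Affine

namespace Fermat.Agent.ES.Q58.InertiaMult88

open Fermat.Agent.ES.EC.LiftTorsion29 Fermat.Agent.DivPoly

/-! ### 0. The residue field of a valuation subring of an algebraically closed field -/

section Residue

variable {L : Type*} [Field L] (A : ValuationSubring L)

/-- The residue field of a valuation subring of an algebraically closed field is algebraically
closed. -/
theorem isAlgClosed_residue [IsAlgClosed L] : IsAlgClosed (IsLocalRing.ResidueField A) := by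
  apply IsAlgClosed.of_exists_root
  intro p hpm hpirr
  have hpdeg : p.natDegree ≠ 0 := by
    intro h0
    have : p = 1 := Polynomial.eq_one_of_monic_natDegree_zero hpm h0
    subst this
    exact not_irreducible_one hpirr
  have hsurj : Function.Surjective (IsLocalRing.residue A) := IsLocalRing.residue_surjective
  have hlift : p ∈ Polynomial.lifts (IsLocalRing.residue A) := by
    obtain ⟨g, hg⟩ := Polynomial.map_surjective _ hsurj p
    exact (Polynomial.mem_lifts _).2 ⟨g, hg⟩
  obtain ⟨g, hg, hgdeg, hgm⟩ := Polynomial.lifts_and_natDegree_eq_and_monic hlift hpm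
  -- any root of `p` in an extension... we use a root of `g` in `L`
  have hdeg : (g.map (algebraMap A L)).degree ≠ 0 := by
    rw [Polynomial.degree_map_eq_of_injective (FaithfulSMul.algebraMap_injective A L)]
    intro h0
    apply hpdeg
    rw [← hgdeg]
    exact Polynomial.natDegree_eq_of_degree_eq_some h0
  obtain ⟨x, hx⟩ := IsAlgClosed.exists_root (g.map (algebraMap A L)) hdeg
  have hxint : IsIntegral A x := ⟨g, hgm, by rwa [Polynomial.eval₂_eq_eval_map]⟩
  obtain ⟨a, ha⟩ := (IsIntegrallyClosed.isIntegral_iff (R := A) (K := L)).1 hxint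
  refine ⟨IsLocalRing.residue A a, ?_⟩
  have hga : g.eval a = 0 := by
    apply FaithfulSMul.algebraMap_injective A L
    rw [map_zero, ← Polynomial.eval₂_at_apply, Polynomial.eval₂_eq_eval_map, ha]
    exact hx
  rw [← hg, Polynomial.eval_map, Polynomial.eval₂_at_apply, hga, map_zero]

/-- An element of `A` with nonzero residue has valuation one. -/
theorem valuation_eq_one_of_residue_ne_zero {a : A} (h : IsLocalRing.residue A a ≠ 0) :
    A.valuation (a : L) = 1 := by
  rw [← ValuationSubring.valuation_eq_one_iff]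
  by_contra hu
  exact h ((IsLocalRing.residue_eq_zero_iff _).mpr ((IsLocalRing.mem_maximalIdeal _).mpr hu))

end Residue

/-! ### 1. Points of odd order are not `2`-torsion -/

section NotTwoTorsion

variable {F : Type*} [Field F] [DecidableEq F] {W : Affine F}

/-- A nonsingular affine point killed by an odd `m` has `2y + a₁x + a₃ ≠ 0`. -/
theorem two_y_ne_zero_of_odd_nsmul {x y : F} (h : W.Nonsingular x y) {m : ℕ} (hm : Odd m)
    (hmP : m • Point.some x y h = 0) : 2 * y + W.a₁ * x + W.a₃ ≠ 0 := by
  intro h0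
  have hneg : y = W.negY x y := by
    rw [Affine.negY]
    linear_combination h0
  have h2 : (2 : ℕ) • (Point.some x y h : W.Point) = 0 := by
    rw [two_nsmul]
    exact Point.add_of_Y_eq rfl hneg
  obtain ⟨k, rfl⟩ := hm
  have h3 : (Point.some x y h : W.Point) = 0 := by
    have e : (2 * k + 1) • (Point.some x y h : W.Point)
        = k • ((2 : ℕ) • (Point.some x y h : W.Point)) + Point.some x y h := by
      rw [add_nsmul, one_nsmul, mul_nsmul]
    rw [e, h2, smul_zero, zero_add] at hmP
    exact hmP
  exact Point.some_ne_zero h h3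

end NotTwoTorsion

/-! ### 2. Lifting torsion points from the nonsingular locus of the special fibre -/

section Lift

variable {L : Type*} [Field L] [IsAlgClosed L] [DecidableEq L] (A : ValuationSubring L)
  [DecidableEq (IsLocalRing.ResidueField A)]

/-- **Lifting.**  A nonsingular point `(x̃, ỹ)` of the special fibre of the integral model `W`
(over the residue field of `A`) killed by an odd `m` which is a unit of `A` lifts to a point of
the generic fibre killed by `m`, with coordinates in `A` reducing to `(x̃, ỹ)`. -/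
theorem exists_lift_of_nonsingular (W : WeierstrassCurve ℤ)
    (hΔ : (W.map (Int.castRingHom L)).Δ ≠ 0) {m : ℕ} (hm : Odd m)
    (hmu : IsUnit ((m : ℕ) : A))
    {xt yt : IsLocalRing.ResidueField A}
    (ht : (W.map (Int.castRingHom (IsLocalRing.ResidueField A))).toAffine.Nonsingular xt yt)
    (hmt : m • Point.some xt yt ht = 0) :
    ∃ (a b : A) (h : (W.map (Int.castRingHom L)).toAffine.Nonsingular (a : L) (b : L)),
      m • Point.some (a : L) (b : L) h = 0 ∧
        IsLocalRing.residue A a = xt ∧ IsLocalRing.residue A b = yt := by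
  classical
  set res := IsLocalRing.residue A with hres
  set WA : WeierstrassCurve A := W.map (Int.castRingHom A) with hWA
  have hcomp : res.comp (Int.castRingHom A) = Int.castRingHom (IsLocalRing.ResidueField A) :=
    RingHom.ext_int _ _
  -- the division polynomial
  have hmapres : (WA.preΨ' m).map res
      = (W.map (Int.castRingHom (IsLocalRing.ResidueField A))).preΨ' m := by
    rw [hWA, WeierstrassCurve.map_preΨ', WeierstrassCurve.map_preΨ', Polynomial.map_map, hcomp]
  have hroot : ((WA.preΨ' m).map res).IsRoot xt := by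
    rw [hmapres, IsRoot]
    exact (A1Final.nsmul_eq_zero_iff_preΨ' ht hm).mp hmt
  have hm0 : ((m : ℕ) : A) ≠ 0 := hmu.ne_zero
  have hlc : IsUnit (WA.preΨ' m).leadingCoeff := by
    rw [WeierstrassCurve.leadingCoeff_preΨ' WA hm0, if_neg (Nat.not_even_iff_odd.mpr hm)]
    exact hmu
  obtain ⟨a, ha, hat⟩ := exists_root_lift A _ hlc xt hroot
  -- the `y`-coordinate
  set c1 : A := (W.a₁ : A) * a + (W.a₃ : A) with hc1
  set c0 : A := a ^ 3 + (W.a₂ : A) * a ^ 2 + (W.a₄ : A) * a + (W.a₆ : A) with hc0
  set gA : A[X] := X ^ 2 + (C c1 * X + C (-c0)) with hgA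
  have hmon : gA.Monic :=
    monic_X_pow_add (lt_of_le_of_lt (degree_linear_le) (by norm_num))
  have heq' := (equation_iff _ _).mp ht.1
  simp only [map_a₁, map_a₂, map_a₃, map_a₄, map_a₆, eq_intCast] at heq'
  have hcast : ∀ n : ℤ, res (n : A) = (n : IsLocalRing.ResidueField A) := fun n =>
    map_intCast res n
  have hat' : res a = xt := hat
  have hrc1 : res c1 = (W.a₁ : IsLocalRing.ResidueField A) * xt
      + (W.a₃ : IsLocalRing.ResidueField A) := by
    rw [hc1, map_add, map_mul, hcast, hcast, hat']
  have hrc0 : res c0 = xt ^ 3 + (W.a₂ : IsLocalRing.ResidueField A) * xt ^ 2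
      + (W.a₄ : IsLocalRing.ResidueField A) * xt + (W.a₆ : IsLocalRing.ResidueField A) := by
    rw [hc0, map_add, map_add, map_add, map_mul, map_mul, map_pow, map_pow, hcast, hcast, hcast,
      hat']
  have hrooty : (gA.map res).IsRoot yt := by
    rw [hgA, IsRoot]
    simp only [Polynomial.map_add, Polynomial.map_mul, Polynomial.map_pow, map_X, map_C,
      Polynomial.map_neg, eval_add, eval_mul, eval_pow, eval_X, eval_C, eval_neg, map_neg]
    rw [hrc1, hrc0]
    linear_combination heq'
  obtain ⟨b, hb, hbt⟩ := exists_root_lift_of_monic A _ gA rfl hmon yt hrooty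
  -- assemble
  have hsub : (A.subtype).comp (Int.castRingHom A) = Int.castRingHom L := RingHom.ext_int _ _
  have hWL : W.map (Int.castRingHom L) = WA.map A.subtype := by
    rw [hWA, WeierstrassCurve.map_map, hsub]
  have hcastL : ∀ n : ℤ, ((n : A) : L) = (n : L) := fun n => by simp
  have hEq : (W.map (Int.castRingHom L)).toAffine.Equation (a : L) (b : L) := by
    rw [equation_iff]
    simp only [map_a₁, map_a₂, map_a₃, map_a₄, map_a₆, eq_intCast]
    rw [hgA, IsRoot] at hb
    simp only [eval_add, eval_mul, eval_pow, eval_X, eval_C, hc1, hc0] at hb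
    have hb' := congrArg (A.subtype) hb
    simp only [map_add, map_mul, map_pow, map_neg, map_zero, ValuationSubring.subtype_apply,
      hcastL] at hb'
    linear_combination hb'
  have hns : (W.map (Int.castRingHom L)).toAffine.Nonsingular (a : L) (b : L) :=
    (equation_iff_nonsingular_of_Δ_ne_zero hΔ).mp hEq
  refine ⟨a, b, hns, ?_, hat, hbt⟩
  refine (A1Final.nsmul_eq_zero_iff_preΨ' hns hm).mpr ?_
  have : ((W.map (Int.castRingHom L)).preΨ' m) = (WA.preΨ' m).map A.subtype := by
    rw [hWL, WeierstrassCurve.map_preΨ']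
  change ((W.map (Int.castRingHom L)).preΨ' m).eval (a : L) = 0
  rw [this]
  have h3 := eval_map_apply' A.subtype (WA.preΨ' m) a
  rw [ha, map_zero] at h3
  exact h3

omit [IsAlgClosed L] [DecidableEq L] in
/-- The lifted point of `exists_lift_of_nonsingular` has `v (2y + a₁x + a₃) = 1`. -/
theorem valuation_two_y_eq_one (W : WeierstrassCurve ℤ) {m : ℕ} (hm : Odd m)
    {xt yt : IsLocalRing.ResidueField A}
    (ht : (W.map (Int.castRingHom (IsLocalRing.ResidueField A))).toAffine.Nonsingular xt yt)
    (hmt : m • Point.some xt yt ht = 0) {a b : A}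
    (hat : IsLocalRing.residue A a = xt) (hbt : IsLocalRing.residue A b = yt) :
    A.valuation (2 * (b : L) + ((W.a₁ : ℤ) : L) * (a : L) + ((W.a₃ : ℤ) : L)) = 1 := by
  have h1 := two_y_ne_zero_of_odd_nsmul ht hm hmt
  simp only [map_a₁, map_a₃, eq_intCast] at h1
  have h2 : IsLocalRing.residue A (2 * b + (W.a₁ : A) * a + (W.a₃ : A)) ≠ 0 := by
    rw [map_add, map_add, map_mul, map_mul, map_intCast, map_intCast, hat, hbt, map_ofNat]
    exact h1
  have h3 := valuation_eq_one_of_residue_ne_zero A h2
  have e : ((2 * b + (W.a₁ : A) * a + (W.a₃ : A) : A) : L)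
      = 2 * (b : L) + ((W.a₁ : ℤ) : L) * (a : L) + ((W.a₃ : ℤ) : L) := by
    push_cast
    rfl
  rw [← e]
  exact h3

end Lift

/-! ### 3. Inertia fixes integral torsion points whose reduction is not `2`-torsion -/

section Fix

local notation "Qb" => AlgebraicClosure ℚ
local notation "GQ" => (AlgebraicClosure ℚ ≃ₐ[ℚ] AlgebraicClosure ℚ)

open Fermat.Agent.S05.Inertia Fermat.Agent.S05.Kernel Fermat.Agent.ES.EC.CongE1_20
open Fermat.Agent.ES.EC

/-- the base change to `ℚ̄` of an integral model has integral coefficients at every place. -/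
theorem integralCoeffs_baseChange (W : WeierstrassCurve ℤ) (A : ValuationSubring Qb) :
    IntegralCoeffs A.valuation ((W.map (Int.castRingHom ℚ))⁄Qb) := by
  rw [TorsionLift20.baseChange_eq_map W]
  refine ⟨?_, ?_, ?_, ?_, ?_⟩
  · rw [WeierstrassCurve.map_a₁, eq_intCast]; exact valuation_intCast_le_one _
  · rw [WeierstrassCurve.map_a₂, eq_intCast]; exact valuation_intCast_le_one _
  · rw [WeierstrassCurve.map_a₃, eq_intCast]; exact valuation_intCast_le_one _
  · rw [WeierstrassCurve.map_a₄, eq_intCast]; exact valuation_intCast_le_one _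
  · rw [WeierstrassCurve.map_a₆, eq_intCast]; exact valuation_intCast_le_one _

/-- **Inertia fixes.**  An element of the inertia group at `A` fixes every point of `W(ℚ̄)` with
`A`-integral coordinates which is killed by some `m` of valuation one and whose reduction is not a
`2`-torsion point. -/
theorem inertia_fixes (W : WeierstrassCurve ℤ) {A : ValuationSubring Qb} {τ : GQ}
    (hτ : τ ∈ A.inertiaSubgroupIn ℚ) {m : ℕ} (hvm : A.valuation ((m : ℕ) : Qb) = 1)
    {x y : Qb} (h : ((W.map (Int.castRingHom ℚ))⁄Qb).Nonsingular x y)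
    (hx : A.valuation x ≤ 1) (hy : A.valuation y ≤ 1)
    (hu : A.valuation (2 * y + ((W.a₁ : ℤ) : Qb) * x + ((W.a₃ : ℤ) : Qb)) = 1)
    (hmP : m • Point.some x y h = 0) :
    Point.map (W' := W.map (Int.castRingHom ℚ)) τ.toAlgHom (Point.some x y h)
      = Point.some x y h := by
  have ha₁ : ((W.map (Int.castRingHom ℚ))⁄Qb).a₁ = ((W.a₁ : ℤ) : Qb) := by
    simp [WeierstrassCurve.baseChange]
  have ha₃ : ((W.map (Int.castRingHom ℚ))⁄Qb).a₃ = ((W.a₃ : ℤ) : Qb) := by
    simp [WeierstrassCurve.baseChange]
  have hint := integralCoeffs_baseChange W A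
  have h' : ((W.map (Int.castRingHom ℚ))⁄Qb).Nonsingular (τ.toAlgHom x) (τ.toAlgHom y) :=
    (WeierstrassCurve.Affine.baseChange_nonsingular (W.map (Int.castRingHom ℚ))
      (f := τ.toAlgHom) τ.toAlgHom.injective x y).mpr h
  have hmap : Point.map (W' := W.map (Int.castRingHom ℚ)) τ.toAlgHom (Point.some x y h)
      = Point.some (τ.toAlgHom x) (τ.toAlgHom y) h' := rfl
  have hmP' : m • Point.some (τ.toAlgHom x) (τ.toAlgHom y) h' = 0 := by
    have := congrArg (Point.map (W' := W.map (Int.castRingHom ℚ)) τ.toAlgHom) hmP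
    rw [map_nsmul, _root_.map_zero, hmap] at this
    exact this
  have hu' : A.valuation (2 * y + ((W.map (Int.castRingHom ℚ))⁄Qb).a₁ * x
      + ((W.map (Int.castRingHom ℚ))⁄Qb).a₃) = 1 := by rw [ha₁, ha₃]; exact hu
  have hfx : A.valuation (τ x - x) < 1 := valuation_sub_lt_one hτ hx
  have hfy : A.valuation (τ y - y) < 1 := valuation_sub_lt_one hτ hy
  rw [hmap]
  exact eq_of_congruent_of_nsmul_eq_zero hint h' h hfx hfy hu' hvm hmP' hmP

end Fix

/-! ### 4. Assembly -/

section Main

local notation "Qb" => AlgebraicClosure ℚ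
local notation "GQ" => (AlgebraicClosure ℚ ≃ₐ[ℚ] AlgebraicClosure ℚ)

open Fermat.Agent.S05.Inertia Fermat.Agent.ES.EC

/-- **PART III-mult.**  At a prime `q` of multiplicative reduction (`q ∣ Δ`, `q ∤ c₄`, `Δ ≠ 0`),
for every odd prime `λ ≠ q`, every `n` and every place `A` of `ℚ̄` over `q`, there are at least
`λⁿ` points of `W(ℚ̄)` killed by `λⁿ` and fixed by the whole inertia group of `A`. -/
theorem exists_inertia_fixed_torsion (W : WeierstrassCurve ℤ) (hΔ : W.Δ ≠ 0) {q lam : ℕ}
    (hq : q.Prime) (hlam : lam.Prime) (hlam2 : lam ≠ 2) (hne : lam ≠ q)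
    (hqΔ : (q : ℤ) ∣ W.Δ) (hqc : ¬ (q : ℤ) ∣ W.c₄) (n : ℕ)
    (A : ValuationSubring Qb) (hA : A.LiesOverPrime q) :
    ∃ S : Finset ((W.map (Int.castRingHom ℚ))⁄Qb).Point, lam ^ n ≤ S.card ∧
      ∀ Q ∈ S, lam ^ n • Q = 0 ∧ ∀ τ ∈ A.inertiaSubgroupIn ℚ,
        Point.map (W' := W.map (Int.castRingHom ℚ)) τ.toAlgHom Q = Q := by
  classical
  have : Fact q.Prime := ⟨hq⟩
  have : IsAlgClosed (IsLocalRing.ResidueField A) := isAlgClosed_residue A
  let _ : Algebra (ZMod q) (IsLocalRing.ResidueField A) := (primeEmb A hq hA).toAlgebra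
  set m : ℕ := lam ^ n with hm
  have hmodd : Odd m := (hlam.odd_of_ne_two hlam2).pow
  have hqm : ¬ q ∣ m := fun hd =>
    hne ((Nat.prime_dvd_prime_iff_eq hq hlam).mp (hq.dvd_of_dvd_pow hd)).symm
  have hvm : A.valuation ((m : ℕ) : Qb) = 1 := valuation_natCast_eq_one hq hA hqm
  have hmu : IsUnit ((m : ℕ) : A) := by
    rw [ValuationSubring.valuation_eq_one_iff]
    have e : (((m : ℕ) : A) : Qb) = ((m : ℕ) : Qb) := by simp
    rw [e]
    exact hvm
  have hΔ' : (W.map (Int.castRingHom Qb)).Δ ≠ 0 := by
    rw [WeierstrassCurve.map_Δ, eq_intCast]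
    exact Int.cast_ne_zero.mpr hΔ
  have hV : ((W.map (Int.castRingHom ℚ))⁄Qb) = (W.map (Int.castRingHom Qb)).toAffine :=
    TorsionLift20.baseChange_eq_map W
  -- lifting, in the shape of the base change
  have lift : ∀ {xt yt : IsLocalRing.ResidueField A}
      (ht : (W.map (Int.castRingHom (IsLocalRing.ResidueField A))).toAffine.Nonsingular xt yt),
      m • Point.some xt yt ht = 0 →
      ∃ (a b : A) (h : ((W.map (Int.castRingHom ℚ))⁄Qb).Nonsingular (a : Qb) (b : Qb)),
        m • Point.some (a : Qb) (b : Qb) h = 0 ∧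
          IsLocalRing.residue A a = xt ∧ IsLocalRing.residue A b = yt := by
    rw [hV]
    intro xt yt ht hmt
    exact exists_lift_of_nonsingular A W hΔ' hmodd hmu ht hmt
  -- the special fibre
  have hcurve : ((W.reductionMod q)⁄(IsLocalRing.ResidueField A))
      = W.map (Int.castRingHom (IsLocalRing.ResidueField A)) := by
    change (W.map (Int.castRingHom (ZMod q))).map
      (algebraMap (ZMod q) (IsLocalRing.ResidueField A)) = _
    rw [WeierstrassCurve.map_map]
    congr 1
    exact RingHom.ext_int _ _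
  have key : ∀ C : WeierstrassCurve (IsLocalRing.ResidueField A),
      C = W.map (Int.castRingHom (IsLocalRing.ResidueField A)) →
      (∃ St : Finset C.toAffine.Point, m ≤ St.card ∧ ∀ P ∈ St, m • P = 0) →
      ∃ S : Finset ((W.map (Int.castRingHom ℚ))⁄Qb).Point, m ≤ S.card ∧
        ∀ Q ∈ S, m • Q = 0 ∧ ∀ τ ∈ A.inertiaSubgroupIn ℚ,
          Point.map (W' := W.map (Int.castRingHom ℚ)) τ.toAlgHom Q = Q := by
    rintro C rfl ⟨St, hcard, hSt⟩
    -- the lifting relation
    let Lifts : ((W.map (Int.castRingHom ℚ))⁄Qb).Point →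
        (W.map (Int.castRingHom (IsLocalRing.ResidueField A))).toAffine.Point → Prop :=
      fun Q P => ∃ (a b : A) (h : ((W.map (Int.castRingHom ℚ))⁄Qb).Nonsingular (a : Qb) (b : Qb))
        (ht : (W.map (Int.castRingHom (IsLocalRing.ResidueField A))).toAffine.Nonsingular
          (IsLocalRing.residue A a) (IsLocalRing.residue A b)),
        Q = Point.some (a : Qb) (b : Qb) h ∧ P = Point.some _ _ ht
    have huniq : ∀ Q P₁ P₂, Lifts Q P₁ → Lifts Q P₂ → P₁ = P₂ := by
      rintro Q P₁ P₂ ⟨a, b, h, ht, hQ, hP⟩ ⟨a', b', h', ht', hQ', hP'⟩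
      rw [hQ, Point.some.injEq] at hQ'
      obtain ⟨haa, hbb⟩ := hQ'
      have e1 : a = a' := Subtype.ext haa
      have e2 : b = b' := Subtype.ext hbb
      subst e1 e2
      rw [hP, hP']
    have hne0 : ∀ Q P, Lifts Q P → Q ≠ 0 := by
      rintro Q P ⟨a, b, h, ht, hQ, -⟩
      rw [hQ]
      exact Point.some_ne_zero h
    have hex : ∀ P ∈ St.erase 0, ∃ Q : ((W.map (Int.castRingHom ℚ))⁄Qb).Point, Lifts Q P ∧
        m • Q = 0 ∧ ∀ τ ∈ A.inertiaSubgroupIn ℚ,
          Point.map (W' := W.map (Int.castRingHom ℚ)) τ.toAlgHom Q = Q := by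
      intro P hP
      obtain ⟨hP0, hPS⟩ := Finset.mem_erase.mp hP
      have hmP := hSt P hPS
      rcases P with _ | ⟨xt, yt, ht⟩
      · exact absurd rfl hP0
      obtain ⟨a, b, h, hmQ, hat, hbt⟩ := lift ht hmP
      have ht' : (W.map (Int.castRingHom (IsLocalRing.ResidueField A))).toAffine.Nonsingular
          (IsLocalRing.residue A a) (IsLocalRing.residue A b) := by
        rw [hat, hbt]; exact ht
      refine ⟨Point.some (a : Qb) (b : Qb) h, ⟨a, b, h, ht', rfl, ?_⟩, hmQ, ?_⟩
      · subst hat hbt
        rfl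
      · intro τ hτ
        have hu := valuation_two_y_eq_one A W hmodd ht hmP hat hbt
        exact inertia_fixes W hτ hvm h ((ValuationSubring.valuation_le_one_iff A _).mpr a.2)
          ((ValuationSubring.valuation_le_one_iff A _).mpr b.2) hu hmQ
    choose! f hf using hex
    have hinj : Set.InjOn f (St.erase 0 : Finset _) := by
      intro P₁ hP₁ P₂ hP₂ h12
      have h1 := (hf P₁ hP₁).1
      have h2 := (hf P₂ hP₂).1
      rw [h12] at h1
      exact huniq _ _ _ h1 h2
    have h0 : (0 : ((W.map (Int.castRingHom ℚ))⁄Qb).Point) ∉ (St.erase 0).image f := by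
      intro hmem
      obtain ⟨P, hP, hfP⟩ := Finset.mem_image.mp hmem
      exact hne0 _ _ (hf P hP).1 hfP
    refine ⟨insert 0 ((St.erase 0).image f), ?_, ?_⟩
    · rw [Finset.card_insert_of_notMem h0, Finset.card_image_of_injOn hinj]
      have := Finset.pred_card_le_card_erase (s := St) (a := 0)
      omega
    · intro Q hQ
      rcases Finset.mem_insert.mp hQ with rfl | hQ
      · exact ⟨nsmul_zero _, fun τ _ => _root_.map_zero _⟩
      · obtain ⟨P, hP, rfl⟩ := Finset.mem_image.mp hQ
        exact ⟨(hf P hP).2.1, (hf P hP).2.2⟩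
  exact key _ hcurve (NodeCount15.exists_torsion_node W hqΔ hqc hlam hne n
    (IsLocalRing.ResidueField A))

end Main

end Fermat.Agent.ES.Q58.InertiaMult88
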