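/-
Programme Q (S58), PART III, final (helper98): the field `inertia` of `ECIface12.ECFacts`,
unconditionally, for a semistable integral Weierstrass model with `Δ ≠ 0`.

`InertiaAsm98.ecFacts_inertia` (good primes + assembly with `WeakLink25`) with its hypothesis
`MultFix W` discharged by `InertiaMult88.exists_inertia_fixed_torsion` (helper88).
-/
import Mathlib
import Fermat.Agent.ES.Q58.InertiaAsm98
import Fermat.Agent.ES.Q58.InertiaMult88

set_option autoImplicit false

open WeierstrassCurve WeierstrassCurve.Affine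

namespace Fermat.Agent.ES.Q58.InertiaFinal98

open Fermat.Agent.ES.Q58.InertiaAsm98 Fermat.Agent.ES.Q58.ECIface12

/-- PART III-mult in the shape consumed by `InertiaAsm98.ecFacts_inertia`. -/
theorem multFix (W : WeierstrassCurve ℤ) (hΔ : W.Δ ≠ 0) : MultFix W := by
  intro q hq hqD hqc lam hlam hlam2 hlq n P hP
  obtain ⟨S, hcard, hS⟩ := Fermat.Agent.ES.Q58.InertiaMult88.exists_inertia_fixed_torsion W hΔ
    hq hlam hlam2 hlq hqD hqc n P hP
  exact ⟨S, hcard, fun Q hQ => (hS Q hQ).1, fun τ hτ Q hQ => (hS Q hQ).2 τ hτ⟩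

/-- **The field `ECFacts.inertia`** for a semistable integral model with `Δ ≠ 0`. -/
theorem ecFacts_inertia_of_semistable (W : WeierstrassCurve ℤ) (hΔ : W.Δ ≠ 0)
    (hss : W.IsSemistableModel) :
    ∀ q : ℕ, q.Prime → ∃ T : Finset ℕ, ∀ lam : ℕ, lam.Prime → lam ∉ T → InertiaCong W lam q :=
  ecFacts_inertia W hΔ hss (multFix W hΔ)

end Fermat.Agent.ES.Q58.InertiaFinal98
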