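/-
Programme Q (S58), EC-ES core, brick (I-b) = Manin's lemma, part 1 (helper16): **points over an algebraically
closed field of characteristic `r`, the Frobenius endomorphism `φ` and `α = 1 - φ`.**

`W` a Weierstrass curve over `ZMod r` with `Δ ≠ 0`, `L` a field over `ZMod r`, `A = W(L)`.

* `frobAlg r L : L →ₐ[ZMod r] L` — the `r`-power map; `frobPt W L : A →+ A`; `alpha W L = 1 - φ`;
* `toL W L : W.Point → A` — the rational points inside `A`; `toL_injective`, `range_toL` (`= ker α`),
  `card_ker_alpha : Nat.card (alpha W L).ker = Nat.card W.Point`;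
* `infinite_points` (`L` algebraically closed), `exists_alpha_notMem` : for every finite set `Bad` of
  points there is `Q` with `α Q ∉ Bad`;
* `ncard_fiber` : every nonempty fibre of `α` has `#W(𝔽_r)` elements.
-/
import Mathlib
import Fermat.Prelude.Def_FLTPrelim_Modularity

set_option autoImplicit false

open Polynomial WeierstrassCurve WeierstrassCurve.Affine

namespace Fermat.Agent.ES.Q58.ManinPts16

section Frob

variable (r : ℕ) [hr : Fact r.Prime]

/-- the `r`-power Frobenius of a field over `ZMod r`, as an algebra endomorphism. -/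
noncomputable def frobAlg (L : Type*) [Field L] [Algebra (ZMod r) L] : L →ₐ[ZMod r] L where
  toFun x := x ^ r
  map_one' := one_pow r
  map_mul' x y := mul_pow x y r
  map_zero' := zero_pow hr.out.ne_zero
  map_add' x y := by
    have : CharP L r :=
      charP_of_injective_algebraMap (FaithfulSMul.algebraMap_injective (ZMod r) L) r
    exact add_pow_char x y r
  commutes' a := by rw [← map_pow, ZMod.pow_card]

@[simp] theorem frobAlg_apply (L : Type*) [Field L] [Algebra (ZMod r) L] (x : L) :
    frobAlg r L x = x ^ r := rfl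

/-- the fixed points of the `r`-power map are the elements of the prime field. -/
theorem exists_algebraMap_of_pow_eq {L : Type*} [Field L] [Algebra (ZMod r) L] {x : L}
    (h : x ^ r = x) : ∃ a : ZMod r, algebraMap (ZMod r) L a = x := by
  have : CharP L r :=
    charP_of_injective_algebraMap (FaithfulSMul.algebraMap_injective (ZMod r) L) r
  have h1 : x ∈ (⊥ : Subfield L) := (Subfield.mem_bot_iff_pow_eq_self L r).mpr h
  rw [Subfield.bot_eq_of_zMod_algebra r] at h1
  exact h1

end Frob

section Points

variable {r : ℕ} [hr : Fact r.Prime] (W : Affine (ZMod r))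
  (L : Type*) [Field L] [Algebra (ZMod r) L] [DecidableEq L]

/-- the Frobenius endomorphism of `W(L)`. -/
noncomputable def frobPt : (W⁄L).Point →+ (W⁄L).Point := Point.map (W' := W) (frobAlg r L)

theorem frobPt_zero : frobPt W L 0 = 0 := rfl

theorem frobPt_some {u v : L} (h : (W⁄L).Nonsingular u v) :
    frobPt W L (Point.some u v h) = Point.some (u ^ r) (v ^ r)
      ((W.baseChange_nonsingular (frobAlg r L).injective ..).mpr h) := rfl

/-- `α = 1 - φ`. -/
noncomputable def alpha : (W⁄L).Point →+ (W⁄L).Point := AddMonoidHom.id _ - frobPt W L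

theorem alpha_apply (Q : (W⁄L).Point) : alpha W L Q = Q - frobPt W L Q := rfl

theorem mem_ker_alpha (Q : (W⁄L).Point) : Q ∈ (alpha W L).ker ↔ frobPt W L Q = Q := by
  rw [AddMonoidHom.mem_ker, alpha_apply, sub_eq_zero, eq_comm]

/-- the inclusion of the rational points. -/
noncomputable def toL : W.Point → (W⁄L).Point
  | .zero => 0
  | .some x y h => Point.some (algebraMap (ZMod r) L x) (algebraMap (ZMod r) L y)
      ((W.map_nonsingular (FaithfulSMul.algebraMap_injective (ZMod r) L) x y).mpr h)

omit [DecidableEq L] in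
theorem toL_injective : Function.Injective (toL W L) := by
  have hinj := FaithfulSMul.algebraMap_injective (ZMod r) L
  rintro (_ | ⟨x₁, y₁, h₁⟩) (_ | ⟨x₂, y₂, h₂⟩) h
  · rfl
  · exact absurd h (by simp [toL, Point.zero_def])
  · exact absurd h (by simp [toL, Point.zero_def])
  · simp only [toL, Point.some.injEq] at h
    obtain ⟨hx, hy⟩ := h
    have hx' := hinj hx
    have hy' := hinj hy
    subst hx' hy'
    rfl

theorem range_toL : Set.range (toL W L) = ((alpha W L).ker : Set (W⁄L).Point) := by
  ext Q
  simp only [Set.mem_range, SetLike.mem_coe, mem_ker_alpha]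
  constructor
  · rintro ⟨P, rfl⟩
    rcases P with _ | ⟨x, y, h⟩
    · rfl
    · simp only [toL, frobPt_some, Point.some.injEq]
      rw [← map_pow, ← map_pow, ZMod.pow_card, ZMod.pow_card]
      exact ⟨rfl, rfl⟩
  · intro hQ
    rcases Q with _ | ⟨u, v, h⟩
    · exact ⟨0, rfl⟩
    · rw [frobPt_some] at hQ
      simp only [Point.some.injEq] at hQ
      obtain ⟨a, rfl⟩ := exists_algebraMap_of_pow_eq r hQ.1
      obtain ⟨b, rfl⟩ := exists_algebraMap_of_pow_eq r hQ.2
      exact ⟨Point.some a b ((W.map_nonsingular
        (FaithfulSMul.algebraMap_injective (ZMod r) L) a b).mp h), rfl⟩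

theorem card_ker_alpha : Nat.card (alpha W L).ker = Nat.card W.Point := by
  have h1 : Nat.card W.Point = Nat.card (Set.range (toL W L)) :=
    Nat.card_congr (Equiv.ofInjective _ (toL_injective W L))
  rw [h1, range_toL]
  rfl

theorem finite_ker_alpha : ((alpha W L).ker : Set (W⁄L).Point).Finite := by
  rw [← range_toL]
  exact Set.finite_range _

/-- each fibre of `α` is finite. -/
theorem finite_fiber (T : (W⁄L).Point) : {Q : (W⁄L).Point | alpha W L Q = T}.Finite := by
  by_cases hT : ∃ Q₀, alpha W L Q₀ = T
  · obtain ⟨Q₀, rfl⟩ := hT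
    have hfin : ((alpha W L).ker : Set (W⁄L).Point).Finite := finite_ker_alpha W L
    refine (hfin.image (fun P => Q₀ + P)).subset ?_
    intro Q hQ
    refine ⟨Q - Q₀, ?_, by abel⟩
    rw [SetLike.mem_coe, AddMonoidHom.mem_ker, map_sub, hQ, sub_self]
  · convert Set.finite_empty
    ext Q
    simp only [Set.mem_ofPred_eq, Set.mem_empty_iff_false, iff_false]
    exact fun h => hT ⟨Q, h⟩

/-- every nonempty fibre of `α` has as many elements as the kernel. -/
theorem ncard_fiber (Q₀ : (W⁄L).Point) :
    {Q : (W⁄L).Point | alpha W L Q = alpha W L Q₀}.ncard = Nat.card W.Point := by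
  rw [← card_ker_alpha W L]
  have himg : {Q : (W⁄L).Point | alpha W L Q = alpha W L Q₀} =
      (fun P => Q₀ + P) '' ((alpha W L).ker : Set (W⁄L).Point) := by
    ext Q
    simp only [Set.mem_ofPred_eq, Set.mem_image, SetLike.mem_coe, AddMonoidHom.mem_ker]
    constructor
    · intro hQ
      exact ⟨Q - Q₀, by rw [map_sub, hQ, sub_self], by abel⟩
    · rintro ⟨P, hP, rfl⟩
      rw [map_add, hP, add_zero]
  rw [himg, Set.ncard_image_of_injective _ (add_right_injective Q₀)]
  rfl

omit [DecidableEq L] in
theorem baseChange_Δ_ne_zero (hΔ : W.Δ ≠ 0) : (W⁄L).Δ ≠ 0 := by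
  intro h
  apply hΔ
  have h1 : (W.map (algebraMap (ZMod r) L)).Δ = 0 := h
  rw [WeierstrassCurve.map_Δ] at h1
  exact (map_eq_zero_iff _ (FaithfulSMul.algebraMap_injective (ZMod r) L)).mp h1


/-- `x`-coordinate of a point (`0` at infinity). -/
def xc : (W⁄L).Point → L
  | .zero => 0
  | .some x _ _ => x

omit [DecidableEq L] in
@[simp] theorem xc_some {u v : L} (h : (W⁄L).Nonsingular u v) : xc W L (Point.some u v h) = u := rfl


/-- the points with a given `x`-coordinate form a finite set. -/
theorem finite_xc_eq (c : L) : {P : (W⁄L).Point | xc W L P = c}.Finite := by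
  classical
  by_cases h : ∃ (v : L) (hv : (W⁄L).Nonsingular c v), True
  · obtain ⟨v, hv, -⟩ := h
    refine (Set.toFinite ({0, Point.some c v hv, -Point.some c v hv} : Set (W⁄L).Point)).subset ?_
    intro P hP
    rcases P with _ | ⟨x, y, hxy⟩
    · left; rfl
    · simp only [Set.mem_ofPred_eq, xc_some] at hP
      subst hP
      right
      rcases Y_eq_of_X_eq hxy.1 hv.1 rfl with h1 | h1
      · left; subst h1; rfl
      · right
        rw [Set.mem_singleton_iff, Point.neg_some]
        subst h1
        rfl
  · refine (Set.toFinite ({0} : Set (W⁄L).Point)).subset ?_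
    intro P hP
    rcases P with _ | ⟨x, y, hxy⟩
    · rfl
    · simp only [Set.mem_ofPred_eq, xc_some] at hP
      subst hP
      exact absurd ⟨y, hxy, trivial⟩ h


end Points

section AlgClosed

variable {r : ℕ} [hr : Fact r.Prime] (W : Affine (ZMod r))
  (L : Type*) [Field L] [Algebra (ZMod r) L] [DecidableEq L] [IsAlgClosed L]

/-- above every `u : L` there is a point of `W(L)`. -/
theorem exists_point_above (hΔ : W.Δ ≠ 0) (u : L) :
    ∃ (v : L) (h : (W⁄L).Nonsingular u v), True := by
  -- a root of the monic quadratic in `Y`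
  set p : L[X] := X ^ 2 + C ((W⁄L).a₁ * u + (W⁄L).a₃) * X -
    C (u ^ 3 + (W⁄L).a₂ * u ^ 2 + (W⁄L).a₄ * u + (W⁄L).a₆) with hp
  have hdeg : p.degree ≠ 0 := by
    have h2 : p.natDegree = 2 := by
      rw [hp]
      compute_degree!
    intro h0
    have h3 : p.natDegree = 0 := natDegree_eq_of_degree_eq_some h0
    omega
  obtain ⟨v, hv⟩ := IsAlgClosed.exists_root p hdeg
  have heq : (W⁄L).Equation u v := by
    rw [equation_iff]
    rw [hp, IsRoot.def] at hv
    simp only [eval_sub, eval_add, eval_mul, eval_pow, eval_X, eval_C] at hv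
    linear_combination hv
  exact ⟨v, (equation_iff_nonsingular_of_Δ_ne_zero (baseChange_Δ_ne_zero W L hΔ)).mp heq, trivial⟩

theorem infinite_points (hΔ : W.Δ ≠ 0) : Infinite (W⁄L).Point := by
  have hL : Infinite L := IsAlgClosed.instInfinite
  let f : L → (W⁄L).Point := fun u =>
    Point.some u (exists_point_above W L hΔ u).choose (exists_point_above W L hΔ u).choose_spec.choose
  have hf : Function.Injective f := by
    intro u u' h
    have := congrArg (xc W L) h
    simpa [f] using this
  exact Infinite.of_injective f hf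

/-- for every finite set `Bad` of points there is `Q` with `α Q ∉ Bad`. -/
theorem exists_alpha_notMem (hΔ : W.Δ ≠ 0) {Bad : Set (W⁄L).Point} (hBad : Bad.Finite) :
    ∃ Q : (W⁄L).Point, alpha W L Q ∉ Bad := by
  by_contra hcon
  push Not at hcon
  have hinf := infinite_points W L hΔ
  have hfin : (Set.univ : Set (W⁄L).Point).Finite := by
    have h1 : (⋃ T ∈ Bad, {Q : (W⁄L).Point | alpha W L Q = T}).Finite :=
      hBad.biUnion fun T _ => finite_fiber W L T
    refine h1.subset ?_
    intro Q _
    simp only [Set.mem_iUnion, Set.mem_ofPred_eq, exists_prop]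
    exact ⟨alpha W L Q, hcon Q, rfl⟩
  exact Set.infinite_univ hfin

end AlgClosed

end Fermat.Agent.ES.Q58.ManinPts16
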