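/-
Programme Q (S58), EC-ES core, brick (I-b) = Manin's lemma, part 2 (helper16): **the fibre count.**

`W` a Weierstrass curve over `ZMod r` with `Δ ≠ 0`, `L` an algebraically closed field over `ZMod r`,
`α = 1 - φ` on `W(L)`.  Suppose the `x`-coordinate of `α Q` is given, for all `Q = (u, v)` with `u ∉ 𝔽_r`, by
a rational function `U(u) / V(u)` with `U V : L[X]` coprime and separable (`U' V - U V' ≠ 0`).  Then
`max (deg U) (deg V) = #W(𝔽_r)`.

Proof (Washington, Prop. 2.21): for a generic `T = α Q₀` the fibre `α⁻¹ T` (a coset of `ker α = W(𝔽_r)`) is in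
bijection, through the `x`-coordinate, with the roots of `U - c V`, `c = x(T)`, a separable polynomial of degree
`max (deg U) (deg V)`.
-/
import Mathlib
import Fermat.Agent.ES.Q58.ManinPts16

set_option autoImplicit false

open Polynomial WeierstrassCurve WeierstrassCurve.Affine

namespace Fermat.Agent.ES.Q58.ManinCount16

open Fermat.Agent.ES.Q58.ManinPts16

section Poly

variable {L : Type*} [Field L] [IsAlgClosed L]

/-- the number of roots of a polynomial without multiple roots over an algebraically closed field. -/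
theorem ncard_roots_eq {P : L[X]} (hP : P ≠ 0)
    (hsimple : ∀ u : L, P.eval u = 0 → (derivative P).eval u ≠ 0) :
    {u : L | P.eval u = 0}.ncard = P.natDegree := by
  classical
  have hsep : P.Separable := by
    rw [separable_def, Polynomial.isCoprime_iff_aeval_ne_zero_of_isAlgClosed (k := L) L]
    intro a
    by_cases h : P.eval a = 0
    · right
      rw [coe_aeval_eq_eval]
      exact hsimple a h
    · left
      rw [coe_aeval_eq_eval]
      exact h
  have hset : {u : L | P.eval u = 0} = ↑P.roots.toFinset := by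
    ext u
    simp only [Set.mem_ofPred_eq, Finset.mem_coe, Multiset.mem_toFinset, mem_roots hP, IsRoot.def]
  rw [hset, Set.ncard_coe_finset, Multiset.toFinset_card_of_nodup (nodup_roots hsep),
    ← (IsAlgClosed.splits P).natDegree_eq_card_roots]

/-- the degree of `U - c V` for `c` different from the ratio of the top coefficients. -/
theorem natDegree_sub_C_mul {U V : L[X]} (hUV : IsCoprime U V) {c : L}
    (hc : c ≠ U.coeff (max U.natDegree V.natDegree) / V.coeff (max U.natDegree V.natDegree)) :
    (U - C c * V).natDegree = max U.natDegree V.natDegree ∧ U - C c * V ≠ 0 := by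
  set d := max U.natDegree V.natDegree with hd
  have hle : (U - C c * V).natDegree ≤ d := by
    refine (natDegree_sub_le _ _).trans (max_le (le_max_left _ _) ?_)
    exact (natDegree_C_mul_le _ _).trans (le_max_right _ _)
  have hcoeff : (U - C c * V).coeff d ≠ 0 := by
    rw [coeff_sub, coeff_C_mul]
    intro h0
    by_cases hV : V.coeff d = 0
    · rw [hV, mul_zero, sub_zero] at h0
      -- both top coefficients vanish: impossible
      rcases le_total U.natDegree V.natDegree with hle' | hle'
      · have hdV : d = V.natDegree := by rw [hd]; exact max_eq_right hle'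
        rw [hdV] at hV
        have hV0 : V = 0 := leadingCoeff_eq_zero.mp hV
        have hU0 : U.natDegree = 0 := by
          rw [hV0, natDegree_zero] at hle'
          exact Nat.le_zero.mp hle'
        rw [hdV, hV0, natDegree_zero, ← hU0] at h0
        have hU0' : U = 0 := leadingCoeff_eq_zero.mp h0
        rw [hU0', hV0] at hUV
        exact not_isCoprime_zero_zero hUV
      · have hdU : d = U.natDegree := by rw [hd]; exact max_eq_left hle'
        rw [hdU] at h0
        have hU0 : U = 0 := leadingCoeff_eq_zero.mp h0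
        have hV0' : V.natDegree = 0 := by
          rw [hU0, natDegree_zero] at hle'
          exact Nat.le_zero.mp hle'
        rw [hdU, hU0, natDegree_zero, ← hV0'] at hV
        have hV0 : V = 0 := leadingCoeff_eq_zero.mp hV
        rw [hU0, hV0] at hUV
        exact not_isCoprime_zero_zero hUV
    · apply hc
      rw [eq_div_iff hV]
      exact (sub_eq_zero.mp h0).symm
  refine ⟨le_antisymm hle (le_natDegree_of_ne_zero hcoeff), ?_⟩
  intro h0
  rw [h0, coeff_zero] at hcoeff
  exact hcoeff rfl

end Poly

section TwoTorsion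

variable {F : Type*} [Field F] (W : Affine F)

/-- the polynomial `ψ₂² = 4X³ + b₂X² + 2b₄X + b₆`. -/
noncomputable def twoPoly : F[X] :=
  C 4 * X ^ 3 + C W.b₂ * X ^ 2 + C (2 * W.b₄) * X + C W.b₆

theorem twoPoly_ne_zero (hΔ : W.Δ ≠ 0) : twoPoly W ≠ 0 := by
  intro h0
  apply hΔ
  have h3 : (twoPoly W).coeff 3 = 0 := by rw [h0, coeff_zero]
  have h2 : (twoPoly W).coeff 2 = 0 := by rw [h0, coeff_zero]
  have h1 : (twoPoly W).coeff 1 = 0 := by rw [h0, coeff_zero]
  have h00 : (twoPoly W).coeff 0 = 0 := by rw [h0, coeff_zero]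
  simp only [twoPoly, coeff_add, coeff_C_mul, coeff_X_pow, coeff_X, coeff_C] at h3 h2 h1 h00
  norm_num at h3 h2 h1 h00
  have two0 : (2 : F) = 0 := by
    have : (2 : F) * 2 = 0 := by linear_combination h3
    exact mul_self_eq_zero.mp this
  have hb4 : (8 : F) = 0 := by linear_combination (4 : F) * two0
  rw [WeierstrassCurve.Δ, h2, h00]
  linear_combination (-W.b₄ ^ 3) * hb4

variable [DecidableEq F]

/-- the `x`-coordinate of a `2`-torsion point is a root of `ψ₂²`. -/
theorem twoPoly_eval_of_eq_neg {x y : F} (h : W.Nonsingular x y)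
    (hneg : Point.some x y h = -Point.some x y h) : (twoPoly W).eval x = 0 := by
  rw [Point.neg_some] at hneg
  simp only [Point.some.injEq, true_and] at hneg
  have heq := (equation_iff _ _).mp h.1
  have h2 : 2 * y + W.a₁ * x + W.a₃ = 0 := by
    rw [negY] at hneg
    linear_combination hneg
  simp only [twoPoly, eval_add, eval_mul, eval_C, eval_pow, eval_X, WeierstrassCurve.b₂,
    WeierstrassCurve.b₄, WeierstrassCurve.b₆]
  linear_combination (2 * y + W.a₁ * x + W.a₃) * h2 - 4 * heq

end TwoTorsion

section Count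

variable {r : ℕ} [hr : Fact r.Prime] (W : Affine (ZMod r))
  (L : Type*) [Field L] [Algebra (ZMod r) L] [DecidableEq L] [IsAlgClosed L]

/-- the points whose `x`-coordinate lies in the prime field (and the origin). -/
def Zset : Set (W⁄L).Point := {Q | xc W L Q ^ r = xc W L Q}

theorem finite_pow_eq : {a : L | a ^ r = a}.Finite := by
  refine (Set.finite_range (algebraMap (ZMod r) L)).subset ?_
  intro a ha
  exact exists_algebraMap_of_pow_eq r ha

theorem finite_xc_mem {E : Set L} (hE : E.Finite) : {P : (W⁄L).Point | xc W L P ∈ E}.Finite := by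
  have h1 : (⋃ c ∈ E, {P : (W⁄L).Point | xc W L P = c}).Finite :=
    hE.biUnion fun c _ => finite_xc_eq W L c
  refine h1.subset ?_
  intro P hP
  simp only [Set.mem_iUnion, Set.mem_ofPred_eq, exists_prop]
  exact ⟨xc W L P, hP, rfl⟩

theorem finite_Zset : (Zset W L).Finite := finite_xc_mem W L (finite_pow_eq L)

theorem zero_mem_Zset : (0 : (W⁄L).Point) ∈ Zset W L := by
  change (0 : L) ^ r = 0
  exact zero_pow hr.out.ne_zero

/-- a point outside `Zset` is affine with `x`-coordinate outside the prime field. -/
theorem exists_of_notMem_Zset {Q : (W⁄L).Point} (hQ : Q ∉ Zset W L) :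
    ∃ (u v : L) (h : (W⁄L).Nonsingular u v), Q = Point.some u v h ∧ u ≠ u ^ r := by
  rcases Q with _ | ⟨u, v, h⟩
  · exact absurd (zero_mem_Zset W L) hQ
  · exact ⟨u, v, h, rfl, fun he => hQ he.symm⟩

/-- **The fibre count.** -/
theorem count_main (hΔ : W.Δ ≠ 0) {U V : L[X]} (hUV : IsCoprime U V)
    (hD : derivative U * V - U * derivative V ≠ 0)
    (hspec : ∀ (u v : L) (h : (W⁄L).Nonsingular u v), u ≠ u ^ r →
      ∃ (ξ η : L) (h' : (W⁄L).Nonsingular ξ η),
        alpha W L (Point.some u v h) = Point.some ξ η h' ∧ ξ * V.eval u = U.eval u) :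
    max U.natDegree V.natDegree = Nat.card W.Point := by
  classical
  set d := max U.natDegree V.natDegree with hd
  have hΔL : (W⁄L).Δ ≠ 0 := baseChange_Δ_ne_zero W L hΔ
  -- `V u = 0` and `U u = 0` cannot both hold
  have hcop : ∀ u : L, V.eval u = 0 → U.eval u ≠ 0 := by
    intro u hV hU
    obtain ⟨a, b, hab⟩ := hUV
    have := congrArg (eval u) hab
    simp only [eval_add, eval_mul, hU, hV, mul_zero, add_zero, eval_one] at this
    exact zero_ne_one this
  -- in the situation of `hspec`, `V u ≠ 0`
  have hVne : ∀ (u v : L) (h : (W⁄L).Nonsingular u v), u ≠ u ^ r → V.eval u ≠ 0 := by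
    intro u v h hne hV
    obtain ⟨ξ, η, h', -, hξ⟩ := hspec u v h hne
    rw [hV, mul_zero] at hξ
    exact hcop u hV hξ.symm
  -- the exceptional values of `c`
  set E₁ : Set L := (fun a => U.eval a / V.eval a) '' {a | a ^ r = a} with hE₁
  set E₂ : Set L := {c | (twoPoly (W⁄L)).eval c = 0} with hE₂
  set E₃ : Set L := (fun s => U.eval s / V.eval s) ''
    {s | (derivative U * V - U * derivative V).eval s = 0} with hE₃
  set E₄ : Set L := {U.coeff d / V.coeff d} with hE₄
  have hE₁fin : E₁.Finite := (finite_pow_eq L).image _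
  have hE₂fin : E₂.Finite := Polynomial.finite_setOfPred_isRoot (twoPoly_ne_zero (W⁄L) hΔL)
  have hE₃fin : E₃.Finite := (Polynomial.finite_setOfPred_isRoot hD).image _
  have hE₄fin : E₄.Finite := Set.finite_singleton _
  set Bad : Set (W⁄L).Point := {0} ∪ alpha W L '' Zset W L ∪
    {P | xc W L P ∈ E₁ ∪ E₂ ∪ E₃ ∪ E₄} with hBad
  have hBadfin : Bad.Finite :=
    ((Set.finite_singleton _).union ((finite_Zset W L).image _)).union
      (finite_xc_mem W L (((hE₁fin.union hE₂fin).union hE₃fin).union hE₄fin))
  obtain ⟨Q₀, hQ₀⟩ := exists_alpha_notMem W L hΔ hBadfin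
  simp only [hBad, Set.mem_union, Set.mem_singleton_iff, Set.mem_image, Set.mem_ofPred_eq, not_or,
    not_exists, not_and] at hQ₀
  obtain ⟨⟨hT0, hTZ⟩, ⟨⟨hc₁, hc₂⟩, hc₃⟩, hc₄⟩ := hQ₀
  -- the target point `T = (c, t)`
  obtain ⟨c, t, hT, hTeq⟩ : ∃ (c t : L) (hT : (W⁄L).Nonsingular c t),
      alpha W L Q₀ = Point.some c t hT := by
    rcases h : alpha W L Q₀ with _ | ⟨c, t, hT⟩
    · exact absurd h hT0
    · exact ⟨c, t, hT, rfl⟩
  rw [hTeq] at hc₁ hc₂ hc₃ hc₄ hTZ
  simp only [xc_some] at hc₁ hc₂ hc₃ hc₄
  set Pc : L[X] := U - C c * V with hPc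
  obtain ⟨hdeg, hPc0⟩ := natDegree_sub_C_mul hUV (c := c) (by
    intro h; exact hc₄ (by rw [hE₄, Set.mem_singleton_iff]; exact h))
  have hPc_eval : ∀ u : L, Pc.eval u = U.eval u - c * V.eval u := by
    intro u; rw [hPc, eval_sub, eval_mul, eval_C]
  -- roots of `Pc` are simple
  have hsimple : ∀ u : L, Pc.eval u = 0 → (derivative Pc).eval u ≠ 0 := by
    intro u hu hu'
    rw [hPc_eval] at hu
    have hder : (derivative Pc).eval u = (derivative U).eval u - c * (derivative V).eval u := by
      rw [hPc, derivative_sub, derivative_C_mul, eval_sub, eval_mul, eval_C]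
    rw [hder] at hu'
    have hVu : V.eval u ≠ 0 := by
      intro hV
      rw [hV, mul_zero, sub_zero] at hu
      exact hcop u hV hu
    apply hc₃
    refine ⟨u, ?_, ?_⟩
    · simp only [Set.mem_ofPred_eq, eval_sub, eval_mul]
      linear_combination (V.eval u) * hu' - (derivative V).eval u * hu
    · change U.eval u / V.eval u = c
      rw [div_eq_iff hVu]
      linear_combination hu
  have hroots : {u : L | Pc.eval u = 0}.ncard = d := by
    rw [ncard_roots_eq hPc0 hsimple, hdeg]
  -- the fibre
  set Fib : Set (W⁄L).Point := {Q | alpha W L Q = alpha W L Q₀} with hFib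
  have hFibcard : Fib.ncard = Nat.card W.Point := ncard_fiber W L Q₀
  -- points of the fibre are outside `Zset`
  have hFibZ : ∀ Q ∈ Fib, Q ∉ Zset W L := by
    intro Q hQ hZ
    exact hTZ Q hZ (by rw [← hTeq]; exact hQ)
  -- roots of `Pc` are outside the prime field
  have hroot_ne : ∀ u : L, Pc.eval u = 0 → u ≠ u ^ r := by
    intro u hu he
    rw [hPc_eval] at hu
    have hVu : V.eval u ≠ 0 := by
      intro hV
      rw [hV, mul_zero, sub_zero] at hu
      exact hcop u hV hu
    apply hc₁
    refine ⟨u, he.symm, ?_⟩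
    change U.eval u / V.eval u = c
    rw [div_eq_iff hVu]
    linear_combination hu
  -- the image of the fibre under `xc` is the set of roots
  have himg : xc W L '' Fib = {u : L | Pc.eval u = 0} := by
    ext u
    simp only [Set.mem_image, Set.mem_ofPred_eq]
    constructor
    · rintro ⟨Q, hQ, rfl⟩
      obtain ⟨u, v, h, rfl, hne⟩ := exists_of_notMem_Zset W L (hFibZ Q hQ)
      obtain ⟨ξ, η, h', hα, hξ⟩ := hspec u v h hne
      have hQ' : alpha W L (Point.some u v h) = Point.some c t hT := by rw [← hTeq]; exact hQ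
      rw [hα] at hQ'
      simp only [Point.some.injEq] at hQ'
      rw [xc_some, hPc_eval, ← hξ, hQ'.1]
      ring
    · intro hu
      have hne := hroot_ne u hu
      obtain ⟨v, h, -⟩ := exists_point_above W L hΔ u
      obtain ⟨ξ, η, h', hα, hξ⟩ := hspec u v h hne
      have hVu := hVne u v h hne
      rw [hPc_eval] at hu
      have hξc : ξ = c := by
        apply mul_right_cancel₀ hVu
        rw [hξ]
        linear_combination hu
      subst hξc
      rcases Y_eq_of_X_eq h'.1 hT.1 rfl with hy | hy
      · refine ⟨Point.some u v h, ?_, rfl⟩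
        change alpha W L (Point.some u v h) = alpha W L Q₀
        rw [hα, hTeq]
        subst hy
        rfl
      · refine ⟨-Point.some u v h, ?_, ?_⟩
        · change alpha W L (-Point.some u v h) = alpha W L Q₀
          rw [map_neg, hα, hTeq, Point.neg_some]
          simp only [Point.some.injEq, true_and]
          rw [hy, negY_negY]
        · rw [Point.neg_some, xc_some]
  -- `xc` is injective on the fibre
  have hinj : Set.InjOn (xc W L) Fib := by
    intro Q hQ Q' hQ' hx
    obtain ⟨u, v, h, rfl, hne⟩ := exists_of_notMem_Zset W L (hFibZ Q hQ)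
    obtain ⟨u', v', h', rfl, hne'⟩ := exists_of_notMem_Zset W L (hFibZ Q' hQ')
    simp only [xc_some] at hx
    subst hx
    rcases Y_eq_of_X_eq h.1 h'.1 rfl with hy | hy
    · subst hy; rfl
    · exfalso
      -- `Q = -Q'`, so `T = -T`
      have hQQ' : Point.some u v h = -Point.some u v' h' := by
        rw [Point.neg_some]
        simp only [Point.some.injEq, true_and]
        exact hy
      have h1 : alpha W L (Point.some u v h) = Point.some c t hT := by rw [← hTeq]; exact hQ
      have h2 : alpha W L (Point.some u v' h') = Point.some c t hT := by rw [← hTeq]; exact hQ'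
      rw [hQQ', map_neg, h2] at h1
      exact hc₂ (twoPoly_eval_of_eq_neg (W⁄L) hT h1.symm)
  rw [← hFibcard, ← Set.InjOn.ncard_image hinj, himg, hroots]

end Count

end Fermat.Agent.ES.Q58.ManinCount16
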