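/-
Programme Q (S58), EC-ES core, brick (I-b) (helper16): **MANIN'S LEMMA** `deg x(P₀ - φ P₀) = #W(𝔽_r)`.

`W` a Weierstrass curve over `ZMod r` with `Δ ≠ 0`, `K = W.FunctionField`, `P₀ = (x, y)` the generic point,
`φ` the `r`-power Frobenius (`ManinPts16.frobPt`), `α = 1 - φ` (`ManinPts16.alpha`).  If
`α P₀ = (x_R, y_R)` and `x_R = U(x) / V(x)` with `U V : (ZMod r)[X]` coprime, then

  `manin : max U.natDegree V.natDegree = Nat.card W.Point`.

Steps:
* `alpha_some_of_ne` : the chord formula for `Q - φ Q` when `x(Q) ∉ 𝔽_r`, over any field;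
* `special` : specialisation `x(Q - φ Q) · V(u) = U(u)` at every point `Q = (u, v)`, `u ∉ 𝔽_r`, of `W` over
  any field `L ⊇ 𝔽_r` (through the coordinate ring and `SubstEmb17.evalHom`);
* `xR_ne_const` : `x_R` is not a constant (else `α` would have finite image on `W(𝔽̄_r)`);
* `wronskian_ne_zero` : `U' V - U V' ≠ 0` (else `U, V` are `r`-th powers (`InsepPoly9`), `R = φ R'`
  (`InsepLeavesB5`), `P₀ = φ (P₀ + R')` and `x` is an `r`-th power, against `InsepLeaves5`);
* `ManinCount16.count_main` : the fibre count.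
-/
import Mathlib
import Fermat.Agent.ES.Q58.SubstEmb17
import Fermat.Agent.ES.Q58.InsepLeaves5
import Fermat.Agent.ES.Q58.InsepLeavesB5
import Fermat.Agent.ES.Q58.InsepPoly9
import Fermat.Agent.ES.Q58.ManinPts16
import Fermat.Agent.ES.Q58.ManinCount16

set_option autoImplicit false

open Polynomial WeierstrassCurve WeierstrassCurve.Affine
open scoped Polynomial.Bivariate

namespace Fermat.Agent.ES.Q58.Manin16

open Fermat.Agent.ES.Q58.IotaDescent23 Fermat.Agent.ES.Q58.SubstEmb17
  Fermat.Agent.ES.Q58.ManinPts16 Fermat.Agent.ES.Q58.ManinCount16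

/-! ### The chord formula for `Q - φ Q` -/

/-- the numerator of `x(Q - φ Q) · (x - x ^ r)²`, `Q = (x, y)`. -/
def subNumG {S : Type*} [CommRing S] (a₁ a₂ a₃ : S) (r : ℕ) (x y : S) : S :=
  (y - (-(y ^ r) - a₁ * x ^ r - a₃)) ^ 2 +
    a₁ * (y - (-(y ^ r) - a₁ * x ^ r - a₃)) * (x - x ^ r) - (a₂ + x + x ^ r) * (x - x ^ r) ^ 2

theorem map_subNumG {S S' : Type*} [CommRing S] [CommRing S'] (f : S →+* S') (a₁ a₂ a₃ : S) (r : ℕ)
    (x y : S) : f (subNumG a₁ a₂ a₃ r x y) = subNumG (f a₁) (f a₂) (f a₃) r (f x) (f y) := by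
  simp only [subNumG, map_sub, map_add, map_mul, map_pow, map_neg]

section Chord

variable {r : ℕ} [hr : Fact r.Prime] (W : Affine (ZMod r))
  (L : Type*) [Field L] [Algebra (ZMod r) L] [DecidableEq L]

/-- **the chord formula**: for `Q = (u, v)` with `u ≠ u ^ r`, `α Q = Q - φ Q` is an affine point whose
`x`-coordinate `ξ` satisfies `ξ (u - u ^ r)² = subNumG …`. -/
theorem alpha_some_of_ne {u v : L} (h : (W⁄L).Nonsingular u v) (hne : u ≠ u ^ r) :
    ∃ (ξ η : L) (h' : (W⁄L).Nonsingular ξ η),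
      alpha W L (Point.some u v h) = Point.some ξ η h' ∧
      ξ * (u - u ^ r) ^ 2 = subNumG (W⁄L).a₁ (W⁄L).a₂ (W⁄L).a₃ r u v := by
  rw [alpha_apply, frobPt_some, sub_eq_add_neg, Point.neg_some, Point.add_of_X_ne hne]
  refine ⟨_, _, _, rfl, ?_⟩
  rw [slope_of_X_ne hne, addX, subNumG, negY]
  have h0 : u - u ^ r ≠ 0 := sub_ne_zero.mpr hne
  field_simp
  ring

end Chord

/-! ### The generic point -/

section Generic

variable {r : ℕ} [hr : Fact r.Prime] (W : Affine (ZMod r))

/-- `x ≠ x ^ r` in the function field. -/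
theorem xK_ne_pow : xK W ≠ xK W ^ r := by
  intro h
  apply transcendental_xK W
  refine ⟨X ^ r - X, ?_, ?_⟩
  · have := FiniteField.X_pow_card_sub_X_ne_zero (ZMod r) (hr.out.one_lt)
    exact this
  · rw [map_sub, map_pow, aeval_X, ← h, sub_self]

/-- the element of the coordinate ring representing `x(P₀ - φ P₀) · (x - x ^ r)²`. -/
noncomputable def numC : W.CoordinateRing :=
  subNumG (algebraMap (ZMod r) W.CoordinateRing W.a₁) (algebraMap (ZMod r) W.CoordinateRing W.a₂)
    (algebraMap (ZMod r) W.CoordinateRing W.a₃) r (CoordinateRing.mk W (C X)) (CoordinateRing.mk W Y)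

theorem algebraMap_mk_C_X :
    algebraMap W.CoordinateRing W.FunctionField (CoordinateRing.mk W (C X)) = xK W := by
  unfold xK
  rw [IsScalarTower.algebraMap_apply (ZMod r)[X] W.CoordinateRing W.FunctionField]
  rfl

theorem algebraMap_numC :
    algebraMap W.CoordinateRing W.FunctionField (numC W) =
      subNumG (W⁄W.FunctionField).a₁ (W⁄W.FunctionField).a₂ (W⁄W.FunctionField).a₃ r
        (xK W) (yK W) := by
  rw [numC, map_subNumG, algebraMap_mk_C_X,
    ← IsScalarTower.algebraMap_apply (ZMod r) W.CoordinateRing W.FunctionField,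
    ← IsScalarTower.algebraMap_apply (ZMod r) W.CoordinateRing W.FunctionField,
    ← IsScalarTower.algebraMap_apply (ZMod r) W.CoordinateRing W.FunctionField]
  rfl

theorem evalHom_numC {L : Type*} [Field L] [Algebra (ZMod r) L] {u v : L}
    (h : (W⁄L).Equation u v) :
    evalHom W h (numC W) = subNumG (W⁄L).a₁ (W⁄L).a₂ (W⁄L).a₃ r u v := by
  have h1 := map_subNumG ((evalHom W h : W.CoordinateRing →ₐ[ZMod r] L) : W.CoordinateRing →+* L)
    (algebraMap (ZMod r) W.CoordinateRing W.a₁) (algebraMap (ZMod r) W.CoordinateRing W.a₂)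
    (algebraMap (ZMod r) W.CoordinateRing W.a₃) r (CoordinateRing.mk W (C X))
    (CoordinateRing.mk W Y)
  simp only [RingHom.coe_coe, AlgHom.commutes, evalHom_x] at h1
  rw [evalHom_y W h] at h1
  exact h1

variable [DecidableEq W.FunctionField]

/-- **Specialisation.**  If `α P₀ = (x_R, y_R)` and `x_R · V(x) = U(x)`, then at every point `Q = (u, v)` of
`W` over a field `L ⊇ 𝔽_r` with `u ≠ u ^ r`, the `x`-coordinate `ξ` of `α Q` satisfies `ξ · V(u) = U(u)`. -/
theorem special (hΔ : W.Δ ≠ 0) {xR yR : W.FunctionField}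
    (hR : (W⁄W.FunctionField).Nonsingular xR yR)
    (hsub : alpha W W.FunctionField (genericPoint W hΔ) = Point.some xR yR hR)
    {U V : (ZMod r)[X]}
    (hx : xR * algebraMap (ZMod r)[X] W.FunctionField V = algebraMap (ZMod r)[X] W.FunctionField U)
    {L : Type*} [Field L] [Algebra (ZMod r) L] [DecidableEq L] {u v : L}
    (h : (W⁄L).Nonsingular u v) (hne : u ≠ u ^ r) :
    ∃ (ξ η : L) (h' : (W⁄L).Nonsingular ξ η),
      alpha W L (Point.some u v h) = Point.some ξ η h' ∧ ξ * aeval u V = aeval u U := by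
  -- the generic chord formula
  obtain ⟨ξ₀, η₀, h₀, hα₀, hξ₀⟩ :=
    alpha_some_of_ne W W.FunctionField (nonsingular_xK_yK W hΔ) (xK_ne_pow W)
  have hgen : genericPoint W hΔ = Point.some (xK W) (yK W) (nonsingular_xK_yK W hΔ) := rfl
  rw [hgen, hα₀] at hsub
  simp only [Point.some.injEq] at hsub
  obtain ⟨rfl, -⟩ := hsub
  rw [← algebraMap_numC] at hξ₀
  -- an identity in the coordinate ring
  have hkey : numC W * algebraMap (ZMod r)[X] W.CoordinateRing V =
      algebraMap (ZMod r)[X] W.CoordinateRing U *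
        (CoordinateRing.mk W (C X) - CoordinateRing.mk W (C X) ^ r) ^ 2 := by
    apply IsFractionRing.injective W.CoordinateRing W.FunctionField
    rw [map_mul, map_mul, map_pow, map_sub, map_pow, algebraMap_mk_C_X,
      ← IsScalarTower.algebraMap_apply (ZMod r)[X] W.CoordinateRing W.FunctionField,
      ← IsScalarTower.algebraMap_apply (ZMod r)[X] W.CoordinateRing W.FunctionField,
      ← hξ₀, ← hx]
    ring
  -- evaluate at `(u, v)`
  have hev := congrArg (evalHom W h.1) hkey
  rw [map_mul, map_mul, map_pow, map_sub, map_pow, evalHom_x, evalHom_numC] at hev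
  have hV : evalHom W h.1 (algebraMap (ZMod r)[X] W.CoordinateRing V) = aeval u V :=
    evalHom_C W h.1 V
  have hU : evalHom W h.1 (algebraMap (ZMod r)[X] W.CoordinateRing U) = aeval u U :=
    evalHom_C W h.1 U
  rw [hV, hU] at hev
  obtain ⟨ξ, η, h', hα, hξ⟩ := alpha_some_of_ne W L h hne
  refine ⟨ξ, η, h', hα, ?_⟩
  have h0 : (u - u ^ r) ^ 2 ≠ 0 := pow_ne_zero 2 (sub_ne_zero.mpr hne)
  apply mul_right_cancel₀ h0
  rw [← hξ] at hev
  linear_combination hev

/-- `x_R` is not constant. -/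
theorem xR_ne_const (hΔ : W.Δ ≠ 0) {xR yR : W.FunctionField}
    (hR : (W⁄W.FunctionField).Nonsingular xR yR)
    (hsub : alpha W W.FunctionField (genericPoint W hΔ) = Point.some xR yR hR)
    {U V : (ZMod r)[X]} (hUV : IsCoprime U V)
    (hx : xR * algebraMap (ZMod r)[X] W.FunctionField V = algebraMap (ZMod r)[X] W.FunctionField U)
    (a : ZMod r) : xR ≠ algebraMap (ZMod r) W.FunctionField a := by
  classical
  intro hxa
  -- `U = a V`
  have hUaV : U = C a * V := by
    apply algebraMap_functionField_injective W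
    rw [map_mul, ← hx, hxa, algebraMap_eq_coordinateRing]
  -- hence `V` never vanishes
  obtain ⟨p, q, hpq⟩ := hUV
  rw [hUaV] at hpq
  have hVne : ∀ {L : Type} [Field L] [Algebra (ZMod r) L] (u : L), aeval u V ≠ 0 := by
    intro L _ _ u hV
    have := congrArg (aeval u) hpq
    simp only [map_add, map_mul, hV, mul_zero, add_zero, map_one] at this
    exact zero_ne_one this
  let L := AlgebraicClosure (ZMod r)
  set Bad : Set (W⁄L).Point := alpha W L '' Zset W L ∪
    {P | xc W L P ∈ ({algebraMap (ZMod r) L a} : Set L)} with hBad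
  have hBadfin : Bad.Finite :=
    ((finite_Zset W L).image _).union (finite_xc_mem W L (Set.finite_singleton _))
  obtain ⟨Q₀, hQ₀⟩ := exists_alpha_notMem W L hΔ hBadfin
  simp only [hBad, Set.mem_union, Set.mem_image, Set.mem_ofPred_eq, Set.mem_singleton_iff, not_or,
    not_exists, not_and] at hQ₀
  obtain ⟨hZ, hxc⟩ := hQ₀
  have hQ₀Z : Q₀ ∉ Zset W L := fun hmem => hZ Q₀ hmem rfl
  obtain ⟨u, v, h, rfl, hne⟩ := exists_of_notMem_Zset W L hQ₀Z
  obtain ⟨ξ, η, h', hα, hξ⟩ := special W hΔ hR hsub hx h hne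
  apply hxc
  rw [hα, xc_some]
  apply mul_right_cancel₀ (hVne u)
  rw [hξ, hUaV, map_mul, aeval_C]

/-- **Separability**: `U' V - U V' ≠ 0`. -/
theorem wronskian_ne_zero (hΔ : W.Δ ≠ 0) {xR yR : W.FunctionField}
    (hR : (W⁄W.FunctionField).Nonsingular xR yR)
    (hsub : alpha W W.FunctionField (genericPoint W hΔ) = Point.some xR yR hR)
    {U V : (ZMod r)[X]} (hUV : IsCoprime U V)
    (hx : xR * algebraMap (ZMod r)[X] W.FunctionField V = algebraMap (ZMod r)[X] W.FunctionField U) :
    derivative U * V - U * derivative V ≠ 0 := by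
  intro hW
  have hW' : derivative U * V = U * derivative V := sub_eq_zero.mp hW
  obtain ⟨U₁, V₁, -, hU, hV⟩ := Fermat.Agent.ES.Q58.InsepPoly9.exists_pow_of_wronskian r hUV hW'
  set c := algebraMap (ZMod r)[X] W.FunctionField with hc
  have hV0 : V ≠ 0 := by
    rintro rfl
    rw [map_zero, mul_zero] at hx
    have hU0 : U = 0 := algebraMap_functionField_injective W (by rw [← hx, map_zero])
    rw [hU0] at hUV
    exact not_isCoprime_zero_zero hUV
  have hV₁0 : V₁ ≠ 0 := by
    rintro rfl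
    rw [zero_pow hr.out.ne_zero] at hV
    exact hV0 hV
  have hcV₁ : c V₁ ≠ 0 := by
    rw [Ne, map_eq_zero_iff _ (algebraMap_functionField_injective W)]
    exact hV₁0
  set w : W.FunctionField := c U₁ / c V₁ with hw
  have hxw : xR = w ^ r := by
    rw [hw, div_pow, eq_div_iff (pow_ne_zero r hcV₁), ← map_pow, ← map_pow, ← hU, ← hV]
    exact hx
  -- the `y`-coordinate is an `r`-th power
  have heq : ((W.map (algebraMap (ZMod r) W.FunctionField)).toAffine).Equation (w ^ r) yR := by
    rw [← hxw]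
    exact hR.1
  have hA : r = 2 → algebraMap (ZMod r) W.FunctionField W.a₁ * w +
      algebraMap (ZMod r) W.FunctionField W.a₃ ≠ 0 := by
    intro hr2
    subst hr2
    refine Fermat.Agent.ES.Q58.InsepLeavesB5.a₁_mul_add_a₃_ne_zero W hΔ ?_
    rintro ⟨a, ha⟩
    refine xR_ne_const W hΔ hR hsub hUV hx (a ^ 2) ?_
    rw [hxw, ← ha, map_pow]
  obtain ⟨y', hy', heq'⟩ :=
    Fermat.Agent.ES.Q58.InsepLeavesB5.exists_frobenius_preimage_y_zmod r W heq hA
  have hΔK : (W⁄W.FunctionField).Δ ≠ 0 := baseChange_Δ_ne_zero W W.FunctionField hΔ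
  have hns' : (W⁄W.FunctionField).Nonsingular w y' :=
    (equation_iff_nonsingular_of_Δ_ne_zero hΔK).mp heq'
  -- `R = φ R'`
  have hRR' : Point.some xR yR hR = frobPt W W.FunctionField (Point.some w y' hns') := by
    rw [frobPt_some]
    simp only [Point.some.injEq]
    exact ⟨hxw, hy'.symm⟩
  -- `P₀ = φ (P₀ + R')`
  have hP₀ : genericPoint W hΔ =
      frobPt W W.FunctionField (genericPoint W hΔ + Point.some w y' hns') := by
    rw [map_add, ← hRR', ← hsub, alpha_apply]
    abel
  rcases hsum : genericPoint W hΔ + Point.some w y' hns' with _ | ⟨x'', y'', h''⟩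
  · rw [hsum] at hP₀
    exact Point.some_ne_zero _ hP₀
  · rw [hsum, frobPt_some] at hP₀
    have hgen : genericPoint W hΔ = Point.some (xK W) (yK W) (nonsingular_xK_yK W hΔ) := rfl
    rw [hgen] at hP₀
    simp only [Point.some.injEq] at hP₀
    exact Fermat.Agent.ES.Q58.InsepLeaves5.x_ne_pow' W r hΔ x'' hP₀.1.symm

/-- **MANIN'S LEMMA.** -/
theorem manin (hΔ : W.Δ ≠ 0) {xR yR : W.FunctionField}
    (hR : (W⁄W.FunctionField).Nonsingular xR yR)
    (hsub : alpha W W.FunctionField (genericPoint W hΔ) = Point.some xR yR hR)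
    {U V : (ZMod r)[X]} (hUV : IsCoprime U V)
    (hx : xR * algebraMap (ZMod r)[X] W.FunctionField V = algebraMap (ZMod r)[X] W.FunctionField U) :
    max U.natDegree V.natDegree = Nat.card W.Point := by
  classical
  let L := AlgebraicClosure (ZMod r)
  have hinj : Function.Injective (algebraMap (ZMod r) L) :=
    FaithfulSMul.algebraMap_injective (ZMod r) L
  have hcop : IsCoprime (U.map (algebraMap (ZMod r) L)) (V.map (algebraMap (ZMod r) L)) :=
    hUV.map (mapRingHom (algebraMap (ZMod r) L))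
  have hD : derivative (U.map (algebraMap (ZMod r) L)) * V.map (algebraMap (ZMod r) L) -
      U.map (algebraMap (ZMod r) L) * derivative (V.map (algebraMap (ZMod r) L)) ≠ 0 := by
    rw [derivative_map, derivative_map, ← Polynomial.map_mul, ← Polynomial.map_mul,
      ← Polynomial.map_sub]
    exact (Polynomial.map_ne_zero_iff hinj).mpr (wronskian_ne_zero W hΔ hR hsub hUV hx)
  have key := count_main W L hΔ hcop hD (by
    intro u v h hne
    obtain ⟨ξ, η, h', hα, hξ⟩ := special W hΔ hR hsub hx h hne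
    exact ⟨ξ, η, h', hα, by rw [eval_map_algebraMap, eval_map_algebraMap]; exact hξ⟩)
  rw [natDegree_map, natDegree_map] at key
  exact key

end Generic

end Fermat.Agent.ES.Q58.Manin16
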