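/-
Programme Q (S58), PART I, Manin's lemma, the LOWER bound (helper82).

`W₀` a Weierstrass curve over `ZMod r` with `Δ ≠ 0`, `K` its function field, `P₀` the generic point,
`φ = FrobQuad53.frobPt`.

* `deg_sub_frob_pos`, `deg_add_frob_pos` : `deg (P₀ ∓ φ P₀) > 0` (the parallelogram law makes `deg` a
  positive semi-definite quadratic form on `ℤ P₀ + ℤ φ P₀`, so `B(P₀, φP₀)² ≤ 4r < (1 + r)²`);
* `card_le_deg` : `#W₀(𝔽_r) ≤ deg (P₀ − φ P₀)` (`Count82.card_point_le_ht`);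
* `maninStmt_of_le` : hence `FrobQuad53.ManinStmt` follows from the upper bound
  `deg (P₀ − φ P₀) ≤ #W₀(𝔽_r)` alone.
-/
import Mathlib
import Fermat.Agent.ES.Q58.Count82
import Fermat.Agent.ES.Q58.FrobQuad53

set_option autoImplicit false

open WeierstrassCurve WeierstrassCurve.Affine Polynomial
open Fermat.Agent.ES.Q58.IotaDescent23 Fermat.Agent.ES.Q58.SubstEmb17
open Fermat.Agent.ES.Q58.PLPoly2 Fermat.Agent.ES.Q58.DegOdd53 Fermat.Agent.ES.Q58.FrobAlg15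
open Fermat.Agent.ES.Q58.FrobQuad53

namespace Fermat.Agent.ES.Q58.ManinLB82

variable {r : ℕ} [Fact r.Prime] {W₀ : Affine (ZMod r)} [DecidableEq W₀.FunctionField]

/-- the polar form of `deg` at `(P₀, φ P₀)` is bounded: `t² ≤ 4 r`, and both `deg (P₀ ∓ φ P₀)` are
`1 + r ∓ t`. -/
theorem exists_polar (hΔ : W₀.Δ ≠ 0) :
    ∃ t : ℤ, t ^ 2 ≤ 4 * r ∧
      (deg W₀ (IotaDescent23.genericPoint W₀ hΔ - frobPt W₀ (IotaDescent23.genericPoint W₀ hΔ)) : ℤ)
        = 1 + r - t ∧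
      (deg W₀ (IotaDescent23.genericPoint W₀ hΔ + frobPt W₀ (IotaDescent23.genericPoint W₀ hΔ)) : ℤ)
        = 1 + r + t := by
  set P0 := IotaDescent23.genericPoint W₀ hΔ with hP0
  have m0 : P0 ∈ oddPoints W₀ := genericPoint_mem_oddPoints W₀ hΔ
  have m1 : frobPt W₀ P0 ∈ oddPoints W₀ := frobPt_mem_oddPoints W₀ m0
  let d : oddPoints W₀ → ℤ := fun R => (deg W₀ (R : (W₀⁄W₀.FunctionField).Point) : ℤ)
  have hPL : ∀ x y : oddPoints W₀, d (x + y) + d (x - y) = 2 * d x + 2 * d y := by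
    intro x y
    have := parallelogram_odd hΔ x.2 y.2
    simp only [d, AddSubgroup.coe_add, AddSubgroup.coe_sub]
    exact_mod_cast this
  let e0 : oddPoints W₀ := ⟨P0, m0⟩
  let e1 : oddPoints W₀ := ⟨frobPt W₀ P0, m1⟩
  have hrep0 : IsRep W₀ P0 X 1 := isRep_genericPoint hΔ
  have h0 : d e0 = 1 := by
    simp only [d, e0]
    rw [deg_genericPoint hΔ]; rfl
  have h1 : d e1 = (r : ℤ) := by
    simp only [d, e1]
    rw [deg_map_frob hrep0, deg_genericPoint hΔ, mul_one]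
  refine ⟨QuadRel18.polar d e0 e1, ?_, ?_, ?_⟩
  · set t := QuadRel18.polar d e0 e1 with ht
    have hnn : 0 ≤ d ((-t) • e0 + (2 : ℤ) • e1) := by
      simp only [d]; positivity
    rw [QuadRel18.d_add (d := d), QuadRel18.d_zsmul hPL, QuadRel18.d_zsmul hPL,
      QuadRel18.polar_zsmul_left hPL, QuadRel18.polar_zsmul_right hPL, h0, h1, ← ht] at hnn
    nlinarith
  · have := QuadRel18.d_sub' hPL e0 e1
    rw [h0, h1] at this
    simp only [d, e0, e1, AddSubgroup.coe_sub] at this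
    exact this
  · have := QuadRel18.d_add (d := d) e0 e1
    rw [h0, h1] at this
    simp only [d, e0, e1, AddSubgroup.coe_add] at this
    exact this

theorem deg_sub_frob_pos (hΔ : W₀.Δ ≠ 0) :
    0 < deg W₀ (IotaDescent23.genericPoint W₀ hΔ - frobPt W₀ (IotaDescent23.genericPoint W₀ hΔ)) := by
  obtain ⟨t, ht, h1, -⟩ := exists_polar hΔ
  have hr : (2 : ℤ) ≤ r := by exact_mod_cast (Fact.out : r.Prime).two_le
  have : (0 : ℤ) < deg W₀ (IotaDescent23.genericPoint W₀ hΔ -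
      frobPt W₀ (IotaDescent23.genericPoint W₀ hΔ)) := by
    rw [h1]
    nlinarith
  exact_mod_cast this

theorem deg_add_frob_pos (hΔ : W₀.Δ ≠ 0) :
    0 < deg W₀ (IotaDescent23.genericPoint W₀ hΔ + frobPt W₀ (IotaDescent23.genericPoint W₀ hΔ)) := by
  obtain ⟨t, ht, -, h1⟩ := exists_polar hΔ
  have hr : (2 : ℤ) ≤ r := by exact_mod_cast (Fact.out : r.Prime).two_le
  have : (0 : ℤ) < deg W₀ (IotaDescent23.genericPoint W₀ hΔ +
      frobPt W₀ (IotaDescent23.genericPoint W₀ hΔ)) := by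
    rw [h1]
    nlinarith
  exact_mod_cast this

/-- `deg (P₀ − φP₀) + deg (P₀ + φP₀) = 2 r + 2`. -/
theorem deg_sub_add_deg_add (hΔ : W₀.Δ ≠ 0) :
    deg W₀ (IotaDescent23.genericPoint W₀ hΔ - frobPt W₀ (IotaDescent23.genericPoint W₀ hΔ)) +
      deg W₀ (IotaDescent23.genericPoint W₀ hΔ + frobPt W₀ (IotaDescent23.genericPoint W₀ hΔ))
      = 2 * r + 2 := by
  obtain ⟨t, -, h1, h2⟩ := exists_polar hΔ
  have : ((deg W₀ (IotaDescent23.genericPoint W₀ hΔ -
      frobPt W₀ (IotaDescent23.genericPoint W₀ hΔ)) +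
      deg W₀ (IotaDescent23.genericPoint W₀ hΔ + frobPt W₀ (IotaDescent23.genericPoint W₀ hΔ)) : ℕ)
      : ℤ) = ((2 * r + 2 : ℕ) : ℤ) := by
    push_cast
    rw [h1, h2]; ring
  exact_mod_cast this

/-- **Manin's lemma, lower bound.** -/
theorem card_le_deg (hΔ : W₀.Δ ≠ 0) :
    Nat.card W₀.Point ≤
      deg W₀ (IotaDescent23.genericPoint W₀ hΔ - frobPt W₀ (IotaDescent23.genericPoint W₀ hΔ)) := by
  set P0 := IotaDescent23.genericPoint W₀ hΔ with hP0
  have m0 : P0 ∈ oddPoints W₀ := genericPoint_mem_oddPoints W₀ hΔ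
  have m1 : frobPt W₀ P0 ∈ oddPoints W₀ := frobPt_mem_oddPoints W₀ m0
  have hpos := deg_sub_frob_pos hΔ
  obtain ⟨U, V, hUV⟩ := exists_isRep_of_mem_oddPoints hΔ (sub_mem m0 m1)
  rcases hS : P0 - frobPt W₀ P0 with _ | ⟨xS, yS, hns⟩
  · rw [← hP0, hS, ← Point.zero_def, deg_zero] at hpos
    exact absurd hpos (lt_irrefl 0)
  · rw [hS] at hUV
    rw [deg_eq hUV]
    have hht : 0 < max U.natDegree V.natDegree := by
      rw [← hP0, hS, deg_eq hUV] at hpos
      exact hpos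
    exact Count82.card_point_le_ht W₀ hΔ hns hS ((isRep_some_iff hns U V).mp hUV).1 hht
      ((isRep_some_iff hns U V).mp hUV).2

/-- **Manin's lemma from the upper bound.** -/
theorem maninStmt_of_le (hΔ : W₀.Δ ≠ 0)
    (hUB : deg W₀ (IotaDescent23.genericPoint W₀ hΔ -
      frobPt W₀ (IotaDescent23.genericPoint W₀ hΔ)) ≤ Nat.card W₀.Point) : ManinStmt W₀ hΔ :=
  le_antisymm hUB (card_le_deg hΔ)

/-- **Manin's lemma from the lower bound for `P₀ + φ P₀`.** -/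
theorem maninStmt_of_add_ge (hΔ : W₀.Δ ≠ 0)
    (hLB : 2 * r + 2 ≤ Nat.card W₀.Point +
      deg W₀ (IotaDescent23.genericPoint W₀ hΔ + frobPt W₀ (IotaDescent23.genericPoint W₀ hΔ))) :
    ManinStmt W₀ hΔ := by
  refine maninStmt_of_le hΔ ?_
  have := deg_sub_add_deg_add hΔ
  omega

end Fermat.Agent.ES.Q58.ManinLB82
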