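/-
Programme Q (S58), PART I (I-b), independent route (helper88): **Manin's lemma**
`deg (P₀ - φ P₀) = #W₀(𝔽_r)` by *upper bounds on both* `P₀ - φ P₀` and `P₀ + φ P₀` plus the exact
parallelogram law of `DegOdd53`.

`k = ZMod r`, `W₀ : Affine k`, `Δ ≠ 0`, `K = W₀.FunctionField`, `P₀ = (x, y)` the generic point,
`φ` the `r`-power Frobenius.  With `d = x - x^r`, `n₋ = y + y^r + a₁ x^r + a₃`, `n₊ = y - y^r` the
`x`-coordinates of `P₀ ∓ φ P₀` are `N∓ / d²`, `N± = n±² + a₁ n± d - (a₂ + x + x^r) d² ∈ k[x]`.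
-/
import Mathlib
import Fermat.Agent.ES.Q58.DegOdd53

set_option autoImplicit false
set_option linter.unusedSectionVars false

open Polynomial
open scoped Polynomial.Bivariate

namespace Fermat.Agent.ES.Q58.ManinUp88

open WeierstrassCurve WeierstrassCurve.Affine
open Fermat.Agent.ES.Q58.IotaDescent23 Fermat.Agent.ES.Q58.PLForms2 Fermat.Agent.ES.Q58.PLPoly2
open Fermat.Agent.ES.Q58.PLCurve2 Fermat.Agent.ES.Q58.DegOdd53

variable {r : ℕ} [hr : Fact r.Prime] (W₀ : Affine (ZMod r))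

/-! ### Frobenius in `ZMod r`-algebras -/

theorem neg_pow_prime {A : Type*} [CommRing A] [Algebra (ZMod r) A] (a : A) :
    (-a) ^ r = -a ^ r := by
  have h := FrobAlg15.add_pow_prime_of_algebra r a (-a)
  rw [add_neg_cancel, zero_pow hr.out.ne_zero] at h
  exact eq_neg_of_add_eq_zero_right h.symm

theorem sub_pow_prime {A : Type*} [CommRing A] [Algebra (ZMod r) A] (a b : A) :
    (a - b) ^ r = a ^ r - b ^ r := by
  rw [sub_eq_add_neg, FrobAlg15.add_pow_prime_of_algebra, neg_pow_prime, ← sub_eq_add_neg]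

theorem algebraMap_pow_prime {A : Type*} [CommRing A] [Algebra (ZMod r) A] (a : ZMod r) :
    (algebraMap (ZMod r) A a) ^ r = algebraMap (ZMod r) A a := by
  rw [← map_pow, ZMod.pow_card]

/-- the polynomial `d = X - X ^ r`. -/
noncomputable def dP : (ZMod r)[X] := X - X ^ r

/-- `(a₁ X + a₃) ^ r = a₁ X ^ r + a₃`. -/
theorem lin_pow (a b : ZMod r) : (C a * X + C b : (ZMod r)[X]) ^ r = C a * X ^ r + C b := by
  rw [FrobAlg15.add_pow_prime_of_algebra, mul_pow, ← C_pow, ← C_pow, ZMod.pow_card, ZMod.pow_card]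

/-! ### the coordinate ring elements -/

/-- the class of `Y` in the coordinate ring. -/
noncomputable abbrev yR : W₀.CoordinateRing := CoordinateRing.mk W₀ Y

/-- `n₋ = y + y^r + a₁ x^r + a₃`. -/
noncomputable def nMinus : W₀.CoordinateRing :=
  yR W₀ + yR W₀ ^ r + algebraMap (ZMod r)[X] W₀.CoordinateRing (C W₀.a₁ * X ^ r + C W₀.a₃)

/-- `n₊ = y - y^r`. -/
noncomputable def nPlus : W₀.CoordinateRing := yR W₀ - yR W₀ ^ r

/-- `N(n) = n² + a₁ n d - (a₂ + x + x^r) d²`. -/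
noncomputable def Ncomb (n : W₀.CoordinateRing) : W₀.CoordinateRing :=
  n ^ 2 + algebraMap (ZMod r)[X] W₀.CoordinateRing (C W₀.a₁) * n *
      algebraMap (ZMod r)[X] W₀.CoordinateRing dP
    - algebraMap (ZMod r)[X] W₀.CoordinateRing (C W₀.a₂ + X + X ^ r) *
      algebraMap (ZMod r)[X] W₀.CoordinateRing dP ^ 2

theorem iotaC_yR : iotaC W₀ (yR W₀) =
    -yR W₀ - algebraMap (ZMod r)[X] W₀.CoordinateRing (C W₀.a₁ * X + C W₀.a₃) := by
  rw [iotaC_apply, iotaHom_mk_Y, mk_negPolynomial]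

theorem iotaC_yR_pow : iotaC W₀ (yR W₀ ^ r) =
    -yR W₀ ^ r - algebraMap (ZMod r)[X] W₀.CoordinateRing (C W₀.a₁ * X ^ r + C W₀.a₃) := by
  rw [map_pow, iotaC_yR, sub_pow_prime, neg_pow_prime,
    ← map_pow (algebraMap (ZMod r)[X] W₀.CoordinateRing) (C W₀.a₁ * X + C W₀.a₃), lin_pow]

theorem iotaC_nMinus : iotaC W₀ (nMinus W₀) =
    -nMinus W₀ - algebraMap (ZMod r)[X] W₀.CoordinateRing (C W₀.a₁) *
      algebraMap (ZMod r)[X] W₀.CoordinateRing dP := by
  unfold nMinus dP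
  rw [map_add, map_add, iotaC_yR, iotaC_yR_pow, AlgEquiv.commutes]
  simp only [map_add, map_sub, map_mul, map_pow]
  ring

theorem iotaC_nPlus : iotaC W₀ (nPlus W₀) =
    -nPlus W₀ - algebraMap (ZMod r)[X] W₀.CoordinateRing (C W₀.a₁) *
      algebraMap (ZMod r)[X] W₀.CoordinateRing dP := by
  unfold nPlus dP
  rw [map_sub, iotaC_yR, iotaC_yR_pow]
  simp only [map_add, map_sub, map_mul, map_pow]
  ring

theorem iotaC_Ncomb {n : W₀.CoordinateRing}
    (hn : iotaC W₀ n = -n - algebraMap (ZMod r)[X] W₀.CoordinateRing (C W₀.a₁) *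
      algebraMap (ZMod r)[X] W₀.CoordinateRing dP) :
    iotaC W₀ (Ncomb W₀ n) = Ncomb W₀ n := by
  unfold Ncomb
  simp only [map_sub, map_add, map_mul, map_pow, AlgEquiv.commutes, hn]
  ring

/-- the polynomial `N₋` (resp. `N₊`) exists. -/
theorem exists_poly_Ncomb (hΔ : W₀.Δ ≠ 0) {n : W₀.CoordinateRing}
    (hn : iotaC W₀ n = -n - algebraMap (ZMod r)[X] W₀.CoordinateRing (C W₀.a₁) *
      algebraMap (ZMod r)[X] W₀.CoordinateRing dP) :
    ∃ N : (ZMod r)[X], algebraMap (ZMod r)[X] W₀.CoordinateRing N = Ncomb W₀ n :=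
  exists_polynomial_of_iotaC_fixed W₀ hΔ _ (iotaC_Ncomb W₀ hn)


/-! ### the points `P₀ ± φ P₀` over the function field -/

section Kside

variable [DecidableEq W₀.FunctionField]

theorem algebraMap_dP :
    algebraMap (ZMod r)[X] W₀.FunctionField dP = xK W₀ - xK W₀ ^ r := by
  unfold dP xK
  rw [map_sub, map_pow]

theorem xK_ne_xK_pow : xK W₀ ≠ xK W₀ ^ r := by
  intro h
  have h1 : algebraMap (ZMod r)[X] W₀.FunctionField X =
      algebraMap (ZMod r)[X] W₀.FunctionField (X ^ r) := by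
    rw [map_pow]; exact h
  have h2 := SubstEmb17.algebraMap_functionField_injective W₀ h1
  have h3 := congrArg Polynomial.natDegree h2
  rw [natDegree_X, natDegree_X_pow] at h3
  exact hr.out.one_lt.ne h3

theorem algebraMap_dP_ne_zero : algebraMap (ZMod r)[X] W₀.FunctionField dP ≠ 0 := by
  rw [algebraMap_dP]
  exact sub_ne_zero.mpr (xK_ne_xK_pow W₀)

/-- the image of `N(n)` in the function field. -/
theorem algebraMap_Ncomb (n : W₀.CoordinateRing) :
    algebraMap W₀.CoordinateRing W₀.FunctionField (Ncomb W₀ n) =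
      (algebraMap W₀.CoordinateRing W₀.FunctionField n) ^ 2 +
        algebraMap (ZMod r) W₀.FunctionField W₀.a₁ *
          algebraMap W₀.CoordinateRing W₀.FunctionField n * (xK W₀ - xK W₀ ^ r) -
        (algebraMap (ZMod r) W₀.FunctionField W₀.a₂ + xK W₀ + xK W₀ ^ r) *
          (xK W₀ - xK W₀ ^ r) ^ 2 := by
  unfold Ncomb
  simp only [map_sub, map_add, map_mul, map_pow,
    ← IsScalarTower.algebraMap_apply (ZMod r)[X] W₀.CoordinateRing W₀.FunctionField,
    algebraMap_dP, ← algebraMap_eq_coordinateRing]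
  rfl

theorem algebraMap_nPlus :
    algebraMap W₀.CoordinateRing W₀.FunctionField (nPlus W₀) = yK W₀ - yK W₀ ^ r := by
  unfold nPlus yK
  rw [map_sub, map_pow]

theorem algebraMap_nMinus :
    algebraMap W₀.CoordinateRing W₀.FunctionField (nMinus W₀) =
      yK W₀ + yK W₀ ^ r + algebraMap (ZMod r) W₀.FunctionField W₀.a₁ * xK W₀ ^ r +
        algebraMap (ZMod r) W₀.FunctionField W₀.a₃ := by
  unfold nMinus yK
  simp only [map_add, map_mul, map_pow,
    ← IsScalarTower.algebraMap_apply (ZMod r)[X] W₀.CoordinateRing W₀.FunctionField,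
    ← algebraMap_eq_coordinateRing]
  unfold xK
  ring

/-- the Frobenius image of the generic point. -/
noncomputable abbrev frobP0 (hΔ : W₀.Δ ≠ 0) : (W₀⁄W₀.FunctionField).Point :=
  Point.map (W' := W₀) (FrobAlg15.frobAlg r W₀.FunctionField) (genericPoint W₀ hΔ)

theorem nonsingular_frob (hΔ : W₀.Δ ≠ 0) :
    (W₀⁄W₀.FunctionField).Nonsingular (xK W₀ ^ r) (yK W₀ ^ r) :=
  (W₀.baseChange_nonsingular (FrobAlg15.frobAlg r W₀.FunctionField).injective ..).mpr
    (nonsingular_xK_yK W₀ hΔ)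

theorem frobP0_eq (hΔ : W₀.Δ ≠ 0) :
    frobP0 W₀ hΔ = Point.some (xK W₀ ^ r) (yK W₀ ^ r) (nonsingular_frob W₀ hΔ) := rfl

/-- the `x`-coordinate of `P₀ + φ P₀`. -/
noncomputable def xPlus : W₀.FunctionField :=
  (W₀⁄W₀.FunctionField).addX (xK W₀) (xK W₀ ^ r)
    ((W₀⁄W₀.FunctionField).slope (xK W₀) (xK W₀ ^ r) (yK W₀) (yK W₀ ^ r))

/-- the `x`-coordinate of `P₀ - φ P₀`. -/
noncomputable def xMinus : W₀.FunctionField :=
  (W₀⁄W₀.FunctionField).addX (xK W₀) (xK W₀ ^ r)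
    ((W₀⁄W₀.FunctionField).slope (xK W₀) (xK W₀ ^ r) (yK W₀)
      ((W₀⁄W₀.FunctionField).negY (xK W₀ ^ r) (yK W₀ ^ r)))

theorem add_frob_eq (hΔ : W₀.Δ ≠ 0) :
    ∃ (y' : W₀.FunctionField) (h' : (W₀⁄W₀.FunctionField).Nonsingular (xPlus W₀) y'),
      IotaDescent23.genericPoint W₀ hΔ + frobP0 W₀ hΔ = Point.some (xPlus W₀) y' h' := by
  have hx := xK_ne_xK_pow W₀
  refine ⟨_, nonsingular_add (nonsingular_xK_yK W₀ hΔ) (nonsingular_frob W₀ hΔ)
    (fun hxy => hx hxy.left), ?_⟩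
  rw [frobP0_eq]
  unfold IotaDescent23.genericPoint
  exact Point.add_of_X_ne hx

theorem sub_frob_eq (hΔ : W₀.Δ ≠ 0) :
    ∃ (y' : W₀.FunctionField) (h' : (W₀⁄W₀.FunctionField).Nonsingular (xMinus W₀) y'),
      IotaDescent23.genericPoint W₀ hΔ - frobP0 W₀ hΔ = Point.some (xMinus W₀) y' h' := by
  have hx := xK_ne_xK_pow W₀
  refine ⟨_, nonsingular_add (nonsingular_xK_yK W₀ hΔ)
    ((nonsingular_neg _ _).mpr (nonsingular_frob W₀ hΔ)) (fun hxy => hx hxy.left), ?_⟩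
  rw [frobP0_eq, sub_eq_add_neg, Point.neg_some]
  unfold IotaDescent23.genericPoint
  exact Point.add_of_X_ne hx

/-- `x(P₀ + φ P₀) d² = N₊`. -/
theorem xPlus_mul {N : (ZMod r)[X]}
    (hN : algebraMap (ZMod r)[X] W₀.CoordinateRing N = Ncomb W₀ (nPlus W₀)) :
    xPlus W₀ * algebraMap (ZMod r)[X] W₀.FunctionField (dP ^ 2) =
      algebraMap (ZMod r)[X] W₀.FunctionField N := by
  have hx := xK_ne_xK_pow W₀
  have hd : xK W₀ - xK W₀ ^ r ≠ 0 := sub_ne_zero.mpr hx
  unfold xPlus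
  rw [IsScalarTower.algebraMap_apply (ZMod r)[X] W₀.CoordinateRing W₀.FunctionField N, hN,
    algebraMap_Ncomb, algebraMap_nPlus, map_pow, algebraMap_dP, slope_of_X_ne hx]
  simp only [addX, baseChange_a₁, baseChange_a₂]
  field_simp
  ring

/-- `x(P₀ - φ P₀) d² = N₋`. -/
theorem xMinus_mul {N : (ZMod r)[X]}
    (hN : algebraMap (ZMod r)[X] W₀.CoordinateRing N = Ncomb W₀ (nMinus W₀)) :
    xMinus W₀ * algebraMap (ZMod r)[X] W₀.FunctionField (dP ^ 2) =
      algebraMap (ZMod r)[X] W₀.FunctionField N := by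
  have hx := xK_ne_xK_pow W₀
  have hd : xK W₀ - xK W₀ ^ r ≠ 0 := sub_ne_zero.mpr hx
  unfold xMinus
  rw [IsScalarTower.algebraMap_apply (ZMod r)[X] W₀.CoordinateRing W₀.FunctionField N, hN,
    algebraMap_Ncomb, algebraMap_nMinus, map_pow, algebraMap_dP, slope_of_X_ne hx]
  simp only [addX, negY, baseChange_a₁, baseChange_a₂, baseChange_a₃]
  field_simp
  ring

/-- `N₊ + N₋ = G₁(x, x^r)` and `N₊ N₋ = d² G₂(x, x^r)`. -/
theorem Nplus_Nminus_rel (hΔ : W₀.Δ ≠ 0) {Np Nm : (ZMod r)[X]}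
    (hNp : algebraMap (ZMod r)[X] W₀.CoordinateRing Np = Ncomb W₀ (nPlus W₀))
    (hNm : algebraMap (ZMod r)[X] W₀.CoordinateRing Nm = Ncomb W₀ (nMinus W₀)) :
    Np + Nm = G1 (Wt W₀) X 1 (X ^ r) 1 ∧ Np * Nm = dP ^ 2 * G2 (Wt W₀) X 1 (X ^ r) 1 := by
  have hinj := SubstEmb17.algebraMap_functionField_injective W₀
  have hx := xK_ne_xK_pow W₀
  obtain ⟨e1, e2⟩ := addsub_of_X_ne (W := (W₀⁄W₀.FunctionField)) (nonsingular_xK_yK W₀ hΔ)
    (nonsingular_frob W₀ hΔ) hx
  have hp := xPlus_mul W₀ hNp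
  have hm := xMinus_mul W₀ hNm
  rw [map_pow, algebraMap_dP] at hp hm
  unfold xPlus at hp
  unfold xMinus at hm
  constructor
  · apply hinj
    rw [map_add, map_G1, map_Wt_eq, map_one, map_pow]
    show _ = G1 _ (xK W₀) 1 (xK W₀ ^ r) 1
    rw [e1, ← hp, ← hm]
    ring
  · apply hinj
    rw [map_mul, map_mul, map_G2, map_Wt_eq, map_one, map_pow, map_pow, algebraMap_dP]
    show _ = _ * G2 _ (xK W₀) 1 (xK W₀ ^ r) 1
    rw [e2, ← hp, ← hm]
    ring

end Kside


/-! ### the fibre algebra `A_c = k[Y] / (q_c)` above `x = c` -/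

section Fibre

variable (c : ZMod r)

/-- the fibre polynomial `q_c = Y² + (a₁ c + a₃) Y - (c³ + a₂ c² + a₄ c + a₆)`. -/
noncomputable def qc : (ZMod r)[X] :=
  X ^ 2 + C (W₀.a₁ * c + W₀.a₃) * X - C (c ^ 3 + W₀.a₂ * c ^ 2 + W₀.a₄ * c + W₀.a₆)

theorem qc_natDegree : (qc W₀ c).natDegree = 2 := by
  unfold qc
  compute_degree!

theorem qc_monic : (qc W₀ c).Monic := by
  unfold qc
  monicity!

theorem qc_ne_zero : qc W₀ c ≠ 0 := (qc_monic W₀ c).ne_zero

theorem isRoot_qc_iff (y : ZMod r) : (qc W₀ c).IsRoot y ↔ W₀.Equation c y := by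
  rw [equation_iff, IsRoot.def]
  unfold qc
  simp only [eval_sub, eval_add, eval_pow, eval_X, eval_mul, eval_C]
  constructor
  · intro h; linear_combination h
  · intro h; linear_combination h

/-- the fibre algebra. -/
abbrev Ac : Type := AdjoinRoot (qc W₀ c)

/-- the class of `Y` in the fibre algebra. -/
noncomputable abbrev eta : Ac W₀ c := AdjoinRoot.root (qc W₀ c)

/-- constants in the fibre algebra. -/
noncomputable abbrev ofc : ZMod r →+* Ac W₀ c := AdjoinRoot.of (qc W₀ c)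

theorem eta_sq : eta W₀ c ^ 2 + ofc W₀ c (W₀.a₁ * c + W₀.a₃) * eta W₀ c -
    ofc W₀ c (c ^ 3 + W₀.a₂ * c ^ 2 + W₀.a₄ * c + W₀.a₆) = 0 := by
  have h : Polynomial.eval₂ (ofc W₀ c) (eta W₀ c)
      (X ^ 2 + C (W₀.a₁ * c + W₀.a₃) * X - C (c ^ 3 + W₀.a₂ * c ^ 2 + W₀.a₄ * c + W₀.a₆)) = 0 :=
    AdjoinRoot.eval₂_root (qc W₀ c)
  simpa only [eval₂_sub, eval₂_add, eval₂_pow, eval₂_X, eval₂_mul, eval₂_C] using h

/-- `1, η` are linearly independent over `k`. -/
theorem ofc_add_mul_eta_eq_zero {a b : ZMod r}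
    (h : ofc W₀ c a + ofc W₀ c b * eta W₀ c = 0) : a = 0 ∧ b = 0 := by
  have h1 : AdjoinRoot.mk (qc W₀ c) (C a + C b * X) = 0 := by
    rw [map_add, map_mul, AdjoinRoot.mk_C, AdjoinRoot.mk_C, AdjoinRoot.mk_X]
    exact h
  rw [AdjoinRoot.mk_eq_zero] at h1
  have hdeg : (C a + C b * X : (ZMod r)[X]).degree < (qc W₀ c).degree := by
    rw [degree_eq_natDegree (qc_ne_zero W₀ c), qc_natDegree]
    refine lt_of_le_of_lt (degree_add_le _ _) (max_lt ?_ ?_)
    · exact lt_of_le_of_lt degree_C_le (by norm_num)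
    · refine lt_of_le_of_lt (degree_C_mul_X_le b) (by norm_num)
  have h0 := eq_zero_of_dvd_of_degree_lt h1 hdeg
  have ha := congrArg (fun p : (ZMod r)[X] => p.coeff 0) h0
  have hb := congrArg (fun p : (ZMod r)[X] => p.coeff 1) h0
  simp at ha hb
  exact ⟨ha, hb⟩

theorem ofc_injective : Function.Injective (ofc W₀ c) := by
  rw [injective_iff_map_eq_zero]
  intro a ha
  have : ofc W₀ c a + ofc W₀ c 0 * eta W₀ c = 0 := by rw [map_zero, zero_mul, add_zero, ha]
  exact (ofc_add_mul_eta_eq_zero W₀ c this).1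

/-- every element of the fibre algebra is `a + b η`. -/
theorem exists_rep (z : Ac W₀ c) : ∃ a b : ZMod r, z = ofc W₀ c a + ofc W₀ c b * eta W₀ c := by
  obtain ⟨g, rfl⟩ := AdjoinRoot.mk_surjective z
  have hm := qc_monic W₀ c
  have h1 : AdjoinRoot.mk (qc W₀ c) g = AdjoinRoot.mk (qc W₀ c) (g %ₘ qc W₀ c) := by
    conv_lhs => rw [← modByMonic_add_div g (qc W₀ c)]
    rw [map_add, map_mul, AdjoinRoot.mk_self, zero_mul, add_zero]
  have hdeg : (g %ₘ qc W₀ c).degree ≤ 1 := by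
    have := degree_modByMonic_lt g hm
    rw [degree_eq_natDegree (qc_ne_zero W₀ c), qc_natDegree] at this
    exact Order.le_of_lt_succ this
  refine ⟨(g %ₘ qc W₀ c).coeff 0, (g %ₘ qc W₀ c).coeff 1, ?_⟩
  rw [h1]
  conv_lhs => rw [eq_X_add_C_of_degree_le_one hdeg]
  rw [map_add, map_mul, AdjoinRoot.mk_C, AdjoinRoot.mk_C, AdjoinRoot.mk_X, add_comm]

/-- the Weierstrass polynomial vanishes at `(c, η)`. -/
theorem eval₂_polynomial_eta :
    W₀.polynomial.eval₂ ((ofc W₀ c).comp (evalRingHom c)) (eta W₀ c) = 0 := by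
  simp only [Affine.polynomial, eval₂_add, eval₂_sub, eval₂_mul, eval₂_pow, eval₂_X, eval₂_C,
    RingHom.comp_apply, coe_evalRingHom, eval_add, eval_mul, eval_pow, eval_X, eval_C]
  exact eta_sq W₀ c

/-- **evaluation of the coordinate ring in the fibre algebra above `x = c`.** -/
noncomputable def evc : W₀.CoordinateRing →+* Ac W₀ c :=
  AdjoinRoot.lift ((ofc W₀ c).comp (evalRingHom c)) (eta W₀ c) (eval₂_polynomial_eta W₀ c)

theorem evc_algebraMap (p : (ZMod r)[X]) :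
    evc W₀ c (algebraMap (ZMod r)[X] W₀.CoordinateRing p) = ofc W₀ c (p.eval c) := by
  unfold evc
  rw [AdjoinRoot.algebraMap_eq, AdjoinRoot.lift_of]
  rfl

theorem evc_yR : evc W₀ c (yR W₀) = eta W₀ c := by
  unfold evc yR
  exact AdjoinRoot.lift_root _

theorem evc_smul_basis (p q : (ZMod r)[X]) :
    evc W₀ c (p • (1 : W₀.CoordinateRing) + q • yR W₀) =
      ofc W₀ c (p.eval c) + ofc W₀ c (q.eval c) * eta W₀ c := by
  rw [Algebra.smul_def, Algebra.smul_def, map_add, map_mul, map_mul, evc_algebraMap,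
    evc_algebraMap, evc_yR, map_one, mul_one]

/-- the kernel of `evc` is generated by `x - c`. -/
theorem exists_mul_of_evc_eq_zero {ρ : W₀.CoordinateRing} (h : evc W₀ c ρ = 0) :
    ∃ ρ' : W₀.CoordinateRing,
      ρ = algebraMap (ZMod r)[X] W₀.CoordinateRing (X - C c) * ρ' := by
  obtain ⟨p, q, rfl⟩ := CoordinateRing.exists_smul_basis_eq ρ
  rw [evc_smul_basis] at h
  obtain ⟨hp, hq⟩ := ofc_add_mul_eta_eq_zero W₀ c h
  obtain ⟨p', rfl⟩ := dvd_iff_isRoot.mpr hp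
  obtain ⟨q', rfl⟩ := dvd_iff_isRoot.mpr hq
  refine ⟨p' • (1 : W₀.CoordinateRing) + q' • yR W₀, ?_⟩
  simp only [Algebra.smul_def, map_mul]
  ring

end Fibre


/-! ### Frobenius on the fibre algebra -/

/-- in a field of characteristic `r`, the fixed points of the `r`-power map are the prime field. -/
theorem exists_algebraMap_eq_of_pow_eq {L : Type*} [Field L] [Algebra (ZMod r) L] {z : L}
    (hz : z ^ r = z) : ∃ a : ZMod r, algebraMap (ZMod r) L a = z := by
  classical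
  by_contra hcon
  push Not at hcon
  have hP0 : (X ^ r - X : L[X]) ≠ 0 := FiniteField.X_pow_card_sub_X_ne_zero L hr.out.one_lt
  have hdeg : (X ^ r - X : L[X]).natDegree = r :=
    FiniteField.X_pow_card_sub_X_natDegree_eq L hr.out.one_lt
  let S : Finset L := insert z (Finset.univ.image (algebraMap (ZMod r) L))
  have hzS : z ∉ Finset.univ.image (algebraMap (ZMod r) L) := by
    intro h
    obtain ⟨a, -, ha⟩ := Finset.mem_image.mp h
    exact hcon a ha
  have hcard : S.card = r + 1 := by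
    rw [Finset.card_insert_of_notMem hzS,
      Finset.card_image_of_injective _ (algebraMap (ZMod r) L).injective, Finset.card_univ,
      ZMod.card]
  have hsub : S ⊆ (X ^ r - X : L[X]).roots.toFinset := by
    intro w hw
    rw [Multiset.mem_toFinset, mem_roots hP0, IsRoot.def, eval_sub, eval_pow, eval_X, sub_eq_zero]
    rcases Finset.mem_insert.mp hw with rfl | hw
    · exact hz
    · obtain ⟨a, -, rfl⟩ := Finset.mem_image.mp hw
      exact algebraMap_pow_prime a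
  have h1 := Finset.card_le_card hsub
  have h2 := Multiset.toFinset_card_le (X ^ r - X : L[X]).roots
  have h3 := card_roots' (X ^ r - X : L[X])
  omega

section FibreFrob

variable (c : ZMod r)

theorem ofc_pow (a : ZMod r) : ofc W₀ c a ^ r = ofc W₀ c a := by
  rw [← map_pow, ZMod.pow_card]

theorem evc_nPlus : evc W₀ c (nPlus W₀) = eta W₀ c - eta W₀ c ^ r := by
  unfold nPlus
  rw [map_sub, map_pow, evc_yR]

theorem evc_nMinus : evc W₀ c (nMinus W₀) =
    eta W₀ c + eta W₀ c ^ r + ofc W₀ c (W₀.a₁ * c + W₀.a₃) := by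
  unfold nMinus
  rw [map_add, map_add, map_pow, evc_yR, evc_algebraMap]
  simp only [eval_add, eval_mul, eval_C, eval_pow, eval_X, ZMod.pow_card]

/-- `η² + β η = γ`. -/
theorem eta_sq' : eta W₀ c ^ 2 + ofc W₀ c (W₀.a₁ * c + W₀.a₃) * eta W₀ c =
    ofc W₀ c (c ^ 3 + W₀.a₂ * c ^ 2 + W₀.a₄ * c + W₀.a₆) :=
  sub_eq_zero.mp (eta_sq W₀ c)

/-- `(η - η^r)(η + η^r + β) = 0`. -/
theorem nPlus_mul_nMinus : evc W₀ c (nPlus W₀) * evc W₀ c (nMinus W₀) = 0 := by
  rw [evc_nPlus, evc_nMinus]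
  have h1 := eta_sq' W₀ c
  have h2 : (eta W₀ c ^ 2 + ofc W₀ c (W₀.a₁ * c + W₀.a₃) * eta W₀ c) ^ r =
      ofc W₀ c (c ^ 3 + W₀.a₂ * c ^ 2 + W₀.a₄ * c + W₀.a₆) ^ r := by rw [h1]
  rw [FrobAlg15.add_pow_prime_of_algebra, mul_pow, ofc_pow, ofc_pow, ← pow_mul] at h2
  have e : eta W₀ c ^ (2 * r) = (eta W₀ c ^ r) ^ 2 := by rw [← pow_mul, mul_comm]
  rw [e] at h2
  linear_combination h1 - h2

/-- **no rational point above `c`**: `n₋` vanishes in the fibre algebra. -/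
theorem evc_nMinus_eq_zero_of_no_root (h : ∀ y : ZMod r, ¬ W₀.Equation c y) :
    evc W₀ c (nMinus W₀) = 0 := by
  have hirr : Irreducible (qc W₀ c) := by
    apply irreducible_of_degree_le_three_of_not_isRoot
    · rw [qc_natDegree]; decide
    · intro y hy
      exact h y ((isRoot_qc_iff W₀ c y).mp hy)
  have : Fact (Irreducible (qc W₀ c)) := ⟨hirr⟩
  rcases mul_eq_zero.mp (nPlus_mul_nMinus W₀ c) with h1 | h1
  · exfalso
    rw [evc_nPlus, sub_eq_zero] at h1
    obtain ⟨a, ha⟩ := exists_algebraMap_eq_of_pow_eq (L := Ac W₀ c) h1.symm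
    have h2 : ofc W₀ c a + ofc W₀ c (-1) * eta W₀ c = 0 := by
      rw [map_neg, map_one, neg_one_mul, ← sub_eq_add_neg, sub_eq_zero]
      exact ha
    have := (ofc_add_mul_eta_eq_zero W₀ c h2).2
    exact one_ne_zero (neg_eq_zero.mp this)
  · exact h1

/-- the conjugate root. -/
theorem eta_sub_mul_eta_sub {y₁ : ZMod r} (h₁ : W₀.Equation c y₁) :
    (eta W₀ c - ofc W₀ c y₁) * (eta W₀ c - ofc W₀ c (-(W₀.a₁ * c + W₀.a₃) - y₁)) = 0 := by
  have h1 := eta_sq' W₀ c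
  rw [equation_iff] at h₁
  have h2 := congrArg (ofc W₀ c) h₁
  simp only [map_add, map_mul, map_pow, map_sub, map_neg] at h1 h2 ⊢
  linear_combination h1 - h2

theorem equation_conj {y₁ : ZMod r} (h₁ : W₀.Equation c y₁) :
    W₀.Equation c (-(W₀.a₁ * c + W₀.a₃) - y₁) := by
  rw [equation_iff] at h₁ ⊢
  linear_combination h₁

/-- **exactly one rational point above `c`**: `n₊² = n₋² = 0` in the fibre algebra. -/
theorem evc_sq_eq_zero_of_unique_root {y₁ : ZMod r} (h₁ : W₀.Equation c y₁)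
    (huniq : ∀ y : ZMod r, W₀.Equation c y → y = y₁) :
    evc W₀ c (nPlus W₀) ^ 2 = 0 ∧ evc W₀ c (nMinus W₀) ^ 2 = 0 := by
  have hy2 : -(W₀.a₁ * c + W₀.a₃) - y₁ = y₁ := huniq _ (equation_conj W₀ c h₁)
  have hsq : (eta W₀ c - ofc W₀ c y₁) ^ 2 = 0 := by
    have := eta_sub_mul_eta_sub W₀ c h₁
    rw [hy2] at this
    rw [pow_two]; exact this
  have hr2 : 2 ≤ r := hr.out.two_le
  have hpow : (eta W₀ c - ofc W₀ c y₁) ^ r = 0 := by
    obtain ⟨m, rfl⟩ := Nat.exists_eq_add_of_le hr2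
    rw [pow_add, hsq, zero_mul]
  have hfrob : eta W₀ c ^ r = ofc W₀ c y₁ := by
    have := sub_pow_prime (r := r) (eta W₀ c) (ofc W₀ c y₁)
    rw [hpow, ofc_pow] at this
    exact (sub_eq_zero.mp this.symm)
  have hβ : ofc W₀ c (W₀.a₁ * c + W₀.a₃) = -ofc W₀ c y₁ - ofc W₀ c y₁ := by
    rw [← map_neg, ← map_sub]
    congr 1
    linear_combination -hy2
  constructor
  · rw [evc_nPlus, hfrob]; exact hsq
  · rw [evc_nMinus, hfrob, hβ]
    have : eta W₀ c + ofc W₀ c y₁ + (-ofc W₀ c y₁ - ofc W₀ c y₁) = eta W₀ c - ofc W₀ c y₁ := by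
      ring
    rw [this]; exact hsq

/-- the character of the fibre algebra attached to a rational point above `c`. -/
noncomputable def chi {y₁ : ZMod r} (h₁ : W₀.Equation c y₁) : Ac W₀ c →+* ZMod r :=
  AdjoinRoot.lift (RingHom.id (ZMod r)) y₁ (by
    have := (isRoot_qc_iff W₀ c y₁).mpr h₁
    rw [IsRoot.def, ← eval₂_id] at this
    exact this)

theorem chi_eta {y₁ : ZMod r} (h₁ : W₀.Equation c y₁) : chi W₀ c h₁ (eta W₀ c) = y₁ :=
  AdjoinRoot.lift_root _

theorem chi_ofc {y₁ : ZMod r} (h₁ : W₀.Equation c y₁) (a : ZMod r) :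
    chi W₀ c h₁ (ofc W₀ c a) = a :=
  AdjoinRoot.lift_of _

/-- **two rational points above `c`**: `n₊` vanishes in the fibre algebra. -/
theorem evc_nPlus_eq_zero_of_two_roots {y₁ y₂ : ZMod r} (h₁ : W₀.Equation c y₁)
    (h₂ : W₀.Equation c y₂) (hne : y₁ ≠ y₂) : evc W₀ c (nPlus W₀) = 0 := by
  obtain ⟨a, b, hab⟩ := exists_rep W₀ c (eta W₀ c ^ r)
  have e1 := congrArg (chi W₀ c h₁) hab
  have e2 := congrArg (chi W₀ c h₂) hab
  simp only [map_pow, map_add, map_mul, chi_eta, chi_ofc, ZMod.pow_card] at e1 e2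
  have hb : b = 1 := by
    have : (b - 1) * (y₁ - y₂) = 0 := by linear_combination e2 - e1
    rcases mul_eq_zero.mp this with h | h
    · exact sub_eq_zero.mp h
    · exact absurd (sub_eq_zero.mp h) hne
  have ha : a = 0 := by
    rw [hb] at e1
    linear_combination -e1
  rw [evc_nPlus, hab, ha, hb, map_zero, map_one, zero_add, one_mul, sub_self]

end FibreFrob


/-! ### divisibility of `N±` by powers of `x - c` -/

section Divis

variable (c : ZMod r)

theorem eval_dP : (dP : (ZMod r)[X]).eval c = 0 := by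
  unfold dP
  rw [eval_sub, eval_pow, eval_X, ZMod.pow_card, sub_self]

theorem X_sub_C_dvd_dP : (X - C c : (ZMod r)[X]) ∣ dP :=
  dvd_iff_isRoot.mpr (eval_dP c)

/-- if `n` vanishes in the fibre algebra above `c` then `(x - c)² ∣ N(n)`. -/
theorem sq_dvd_of_evc_eq_zero {n : W₀.CoordinateRing} (hn : evc W₀ c n = 0) {N : (ZMod r)[X]}
    (hN : algebraMap (ZMod r)[X] W₀.CoordinateRing N = Ncomb W₀ n) :
    (X - C c : (ZMod r)[X]) ^ 2 ∣ N := by
  obtain ⟨m, rfl⟩ := exists_mul_of_evc_eq_zero W₀ c hn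
  obtain ⟨d1, hd1⟩ := X_sub_C_dvd_dP (r := r) c
  set cR := algebraMap (ZMod r)[X] W₀.CoordinateRing with hcR
  obtain ⟨p, q, hpq⟩ := CoordinateRing.exists_smul_basis_eq
    (m ^ 2 + cR (C W₀.a₁) * m * cR d1 - cR (C W₀.a₂ + X + X ^ r) * cR d1 ^ 2)
  have key : cR N = cR ((X - C c) ^ 2) *
      (p • (1 : W₀.CoordinateRing) + q • yR W₀) := by
    rw [hpq, hN]
    unfold Ncomb
    rw [hd1]
    simp only [map_mul, map_pow]
    ring
  have h0 : (N - (X - C c) ^ 2 * p) • (1 : W₀.CoordinateRing) +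
      (-((X - C c) ^ 2 * q)) • yR W₀ = 0 := by
    simp only [Algebra.smul_def, map_sub, map_mul, map_neg, mul_one] at key ⊢
    rw [key]
    ring
  obtain ⟨h1, -⟩ := CoordinateRing.smul_basis_eq_zero h0
  exact ⟨p, sub_eq_zero.mp h1⟩

/-- if `n²` vanishes in the fibre algebra above `c` then `(x - c) ∣ N(n)`. -/
theorem dvd_of_evc_sq_eq_zero {n : W₀.CoordinateRing} (hn : evc W₀ c n ^ 2 = 0)
    {N : (ZMod r)[X]} (hN : algebraMap (ZMod r)[X] W₀.CoordinateRing N = Ncomb W₀ n) :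
    (X - C c : (ZMod r)[X]) ∣ N := by
  rw [dvd_iff_isRoot, IsRoot.def]
  apply ofc_injective W₀ c
  rw [← evc_algebraMap, hN, map_zero]
  unfold Ncomb
  simp only [map_sub, map_add, map_mul, map_pow, evc_algebraMap, eval_dP, hn, map_zero]
  ring

/-- the number of rational points above `c`. -/
noncomputable def nc : ℕ := (qc W₀ c).roots.toFinset.card

theorem mem_roots_qc (y : ZMod r) : y ∈ (qc W₀ c).roots.toFinset ↔ W₀.Equation c y := by
  rw [Multiset.mem_toFinset, mem_roots (qc_ne_zero W₀ c), isRoot_qc_iff]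

theorem nc_le_two : nc W₀ c ≤ 2 := by
  unfold nc
  calc (qc W₀ c).roots.toFinset.card ≤ Multiset.card (qc W₀ c).roots :=
        Multiset.toFinset_card_le _
    _ ≤ (qc W₀ c).natDegree := card_roots' _
    _ = 2 := qc_natDegree W₀ c

/-- **the divisibilities**: `(x - c)^(2 - n_c) ∣ N₋` and `(x - c)^(n_c) ∣ N₊`. -/
theorem pow_dvd_N {Np Nm : (ZMod r)[X]}
    (hNp : algebraMap (ZMod r)[X] W₀.CoordinateRing Np = Ncomb W₀ (nPlus W₀))
    (hNm : algebraMap (ZMod r)[X] W₀.CoordinateRing Nm = Ncomb W₀ (nMinus W₀)) :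
    (X - C c : (ZMod r)[X]) ^ (2 - nc W₀ c) ∣ Nm ∧ (X - C c : (ZMod r)[X]) ^ nc W₀ c ∣ Np := by
  have hle := nc_le_two W₀ c
  have hcases : nc W₀ c = 0 ∨ nc W₀ c = 1 ∨ nc W₀ c = 2 := by omega
  rcases hcases with h0 | h1 | h2
  · -- no rational point above `c`
    rw [h0]
    refine ⟨?_, by simp⟩
    have hempty : (qc W₀ c).roots.toFinset = ∅ := Finset.card_eq_zero.mp h0
    have hno : ∀ y : ZMod r, ¬ W₀.Equation c y := by
      intro y hy
      have := (mem_roots_qc W₀ c y).mpr hy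
      rw [hempty] at this
      exact absurd this (Finset.notMem_empty y)
    exact sq_dvd_of_evc_eq_zero W₀ c (evc_nMinus_eq_zero_of_no_root W₀ c hno) hNm
  · -- exactly one
    rw [h1]
    obtain ⟨y₁, hy₁⟩ := Finset.card_eq_one.mp h1
    have he : W₀.Equation c y₁ := by
      rw [← mem_roots_qc, hy₁]; exact Finset.mem_singleton_self y₁
    have huniq : ∀ y : ZMod r, W₀.Equation c y → y = y₁ := by
      intro y hy
      have := (mem_roots_qc W₀ c y).mpr hy
      rw [hy₁] at this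
      exact Finset.mem_singleton.mp this
    obtain ⟨hp, hm⟩ := evc_sq_eq_zero_of_unique_root W₀ c he huniq
    refine ⟨?_, ?_⟩
    · simpa using dvd_of_evc_sq_eq_zero W₀ c hm hNm
    · simpa using dvd_of_evc_sq_eq_zero W₀ c hp hNp
  · -- two
    rw [h2]
    obtain ⟨y₁, y₂, hne, hy⟩ := Finset.card_eq_two.mp h2
    have he₁ : W₀.Equation c y₁ := by
      rw [← mem_roots_qc, hy]; simp
    have he₂ : W₀.Equation c y₂ := by
      rw [← mem_roots_qc, hy]; simp
    refine ⟨by simp, ?_⟩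
    exact sq_dvd_of_evc_eq_zero W₀ c (evc_nPlus_eq_zero_of_two_roots W₀ c he₁ he₂ hne) hNp

end Divis


/-! ### counting the rational points -/

section Count

/-- `#W₀(𝔽_r) = 1 + ∑_c n_c`. -/
theorem card_point_eq (hΔ : W₀.Δ ≠ 0) : Nat.card W₀.Point = 1 + ∑ c : ZMod r, nc W₀ c := by
  classical
  let T := Σ c : ZMod r, {y : ZMod r // y ∈ (qc W₀ c).roots.toFinset}
  let f : W₀.Point → Option T := fun P =>
    match P with
    | .zero => none
    | .some (x := x) (y := y) h => some ⟨x, ⟨y, (mem_roots_qc W₀ x y).mpr h.1⟩⟩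
  let g : Option T → W₀.Point := fun t =>
    match t with
    | none => .zero
    | some ⟨x, ⟨y, hy⟩⟩ => .some x y
        ((equation_iff_nonsingular_of_Δ_ne_zero hΔ).mp ((mem_roots_qc W₀ x y).mp hy))
  have hfg : Function.LeftInverse g f := by
    rintro (_ | ⟨h⟩)
    · rfl
    · rfl
  have hgf : Function.RightInverse g f := by
    rintro (_ | ⟨x, ⟨y, hy⟩⟩)
    · rfl
    · rfl
  let e : W₀.Point ≃ Option T := ⟨f, g, hfg, hgf⟩
  rw [Nat.card_congr e, Nat.card_eq_fintype_card, Fintype.card_option, Fintype.card_sigma,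
    add_comm]
  congr 1
  refine Finset.sum_congr rfl fun c _ => ?_
  rw [Fintype.card_coe]
  rfl

end Count

/-! ### degrees -/

section Degrees

theorem dP_eq : (dP : (ZMod r)[X]) = -(X ^ r - X) := by unfold dP; ring

theorem dP_ne_zero : (dP : (ZMod r)[X]) ≠ 0 := by
  rw [dP_eq, neg_ne_zero]
  exact FiniteField.X_pow_card_sub_X_ne_zero (ZMod r) hr.out.one_lt

theorem natDegree_dP : (dP : (ZMod r)[X]).natDegree = r := by
  rw [dP_eq, natDegree_neg]
  exact FiniteField.X_pow_card_sub_X_natDegree_eq (ZMod r) hr.out.one_lt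

theorem natDegree_dP_sq : ((dP : (ZMod r)[X]) ^ 2).natDegree = 2 * r := by
  rw [natDegree_pow, natDegree_dP]

theorem natDegree_G1_le : (G1 (Wt W₀) X 1 (X ^ r) 1).natDegree ≤ 2 * r + 1 := by
  have h1 : 1 ≤ r := hr.out.one_le
  simp only [G1, Wt, map_b₂, map_b₄, map_b₆, mul_one, one_pow]
  compute_degree
  all_goals omega

theorem G2_eq : G2 (Wt W₀) X 1 (X ^ r) 1 = X ^ (2 * r + 2) -
    (C W₀.b₄ * X ^ (r + 1) + C W₀.b₆ * (X + X ^ r) + C W₀.b₈) := by
  simp only [G2, Wt, map_b₄, map_b₆, map_b₈, mul_one, one_pow]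
  ring

theorem natDegree_G2 : (G2 (Wt W₀) X 1 (X ^ r) 1).natDegree = 2 * r + 2 := by
  have h1 : 1 ≤ r := hr.out.one_le
  rw [G2_eq]
  have hlt : (C W₀.b₄ * X ^ (r + 1) + C W₀.b₆ * (X + X ^ r) + C W₀.b₈ :
      (ZMod r)[X]).natDegree < (X ^ (2 * r + 2) : (ZMod r)[X]).natDegree := by
    rw [natDegree_X_pow]
    have : (C W₀.b₄ * X ^ (r + 1) + C W₀.b₆ * (X + X ^ r) + C W₀.b₈ :
        (ZMod r)[X]).natDegree ≤ r + 1 := by
      compute_degree
    omega
  rw [natDegree_sub_eq_left_of_natDegree_lt hlt, natDegree_X_pow]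

theorem G2_ne_zero : G2 (Wt W₀) X 1 (X ^ r) 1 ≠ 0 := by
  intro h
  have := natDegree_G2 W₀
  rw [h, natDegree_zero] at this
  omega

/-- `deg N± ≤ 2r + 1`. -/
theorem natDegree_N_le {Np Nm : (ZMod r)[X]}
    (hsum : Np + Nm = G1 (Wt W₀) X 1 (X ^ r) 1)
    (hprod : Np * Nm = dP ^ 2 * G2 (Wt W₀) X 1 (X ^ r) 1) :
    Np.natDegree ≤ 2 * r + 1 ∧ Nm.natDegree ≤ 2 * r + 1 := by
  have hne : Np * Nm ≠ 0 := by
    rw [hprod]
    exact mul_ne_zero (pow_ne_zero _ dP_ne_zero) (G2_ne_zero W₀)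
  have hNp : Np ≠ 0 := left_ne_zero_of_mul hne
  have hNm : Nm ≠ 0 := right_ne_zero_of_mul hne
  have hdeg : Np.natDegree + Nm.natDegree = 2 * r + (2 * r + 2) := by
    rw [← natDegree_mul hNp hNm, hprod,
      natDegree_mul (pow_ne_zero _ dP_ne_zero) (G2_ne_zero W₀), natDegree_dP_sq, natDegree_G2]
  have hsumdeg : (Np + Nm).natDegree ≤ 2 * r + 1 := by
    rw [hsum]; exact natDegree_G1_le W₀
  constructor
  · by_contra hcon
    push Not at hcon
    have hlt : Nm.natDegree < Np.natDegree := by omega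
    rw [natDegree_add_eq_left_of_natDegree_lt hlt] at hsumdeg
    omega
  · by_contra hcon
    push Not at hcon
    have hlt : Np.natDegree < Nm.natDegree := by omega
    rw [natDegree_add_eq_right_of_natDegree_lt hlt] at hsumdeg
    omega

/-- the bookkeeping lemma: a common factor `H` of `N` and `D` bounds the height of the reduced
fraction `N / D`. -/
theorem ht_add_le {U V N D H : (ZMod r)[X]} (hUV : IsCoprime U V) (hrel : U * D = N * V)
    (hD : D ≠ 0) (hHN : H ∣ N) (hHD : H ∣ D) (hN : N.natDegree ≤ D.natDegree + 1) :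
    ht U V + H.natDegree ≤ D.natDegree + 1 := by
  have hVD : V ∣ D := by
    apply hUV.symm.dvd_of_dvd_mul_left
    exact ⟨N, by linear_combination hrel⟩
  obtain ⟨g, hg⟩ := hVD
  have hV0 : V ≠ 0 := by
    rintro rfl
    rw [zero_mul] at hg
    exact hD hg
  have hg0 : g ≠ 0 := by
    rintro rfl
    rw [mul_zero] at hg
    exact hD hg
  have hUg : U * g = N := by
    apply mul_left_cancel₀ hV0
    rw [hg] at hrel
    linear_combination hrel
  have hHg : H ∣ g := by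
    obtain ⟨a, b, hab⟩ := hUV
    have : g = a * N + b * D := by
      rw [← hUg, hg]
      linear_combination -g * hab
    rw [this]
    exact dvd_add (dvd_mul_of_dvd_right hHN _) (dvd_mul_of_dvd_right hHD _)
  have hHle : H.natDegree ≤ g.natDegree := natDegree_le_of_dvd hHg hg0
  have hDdeg : D.natDegree = V.natDegree + g.natDegree := by
    rw [hg, natDegree_mul hV0 hg0]
  have hUdeg : U.natDegree + g.natDegree ≤ D.natDegree + 1 ∨ U = 0 := by
    by_cases hU : U = 0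
    · right; exact hU
    · left
      rw [← natDegree_mul hU hg0, hUg]
      exact hN
  unfold ht
  rcases hUdeg with h | h
  · rcases le_total U.natDegree V.natDegree with h' | h'
    · rw [max_eq_right h']; omega
    · rw [max_eq_left h']; omega
  · rw [h, natDegree_zero, max_eq_right (Nat.zero_le _)]
    omega

end Degrees


/-! ### products of powers of the linear factors -/

section Products

/-- `∏_c (X - c)^(e c)`. -/
noncomputable def linProd (e : ZMod r → ℕ) : (ZMod r)[X] := ∏ c : ZMod r, (X - C c) ^ e c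

theorem natDegree_linProd (e : ZMod r → ℕ) : (linProd e).natDegree = ∑ c : ZMod r, e c := by
  unfold linProd
  rw [natDegree_prod_of_monic _ _ (fun c _ => (monic_X_sub_C c).pow (e c))]
  refine Finset.sum_congr rfl fun c _ => ?_
  rw [natDegree_pow, natDegree_X_sub_C, mul_one]

theorem linProd_dvd {e : ZMod r → ℕ} {z : (ZMod r)[X]}
    (h : ∀ c : ZMod r, (X - C c : (ZMod r)[X]) ^ e c ∣ z) : linProd e ∣ z := by
  unfold linProd
  apply Finset.prod_dvd_of_coprime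
  · intro a _ b _ hab
    exact (isCoprime_X_sub_C_of_isUnit_sub (sub_ne_zero.mpr hab).isUnit).pow
  · intro c _
    exact h c

theorem linProd_dvd_dP_sq {e : ZMod r → ℕ} (he : ∀ c, e c ≤ 2) :
    linProd e ∣ (dP : (ZMod r)[X]) ^ 2 :=
  linProd_dvd fun c => (pow_dvd_pow _ (he c)).trans (pow_dvd_pow_of_dvd (X_sub_C_dvd_dP c) 2)

end Products

/-! ### Manin's lemma -/

section Main

variable [DecidableEq W₀.FunctionField]

theorem frobAlg_iota (z : W₀.FunctionField) :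
    FrobAlg15.frobAlg r W₀.FunctionField (iota W₀ z) =
      iota W₀ (FrobAlg15.frobAlg r W₀.FunctionField z) := by
  rw [FrobAlg15.frobAlg_apply, FrobAlg15.frobAlg_apply, map_pow]

theorem frobP0_mem_oddPoints (hΔ : W₀.Δ ≠ 0) : frobP0 W₀ hΔ ∈ oddPoints W₀ :=
  map_mem_oddPoints W₀ _ (frobAlg_iota W₀) (genericPoint_mem_oddPoints W₀ hΔ)

/-- the relation `U d² = N V` for a representation of a point with `x`-coordinate `N / d²`. -/
theorem rep_rel {x' y' : W₀.FunctionField} {h' : (W₀⁄W₀.FunctionField).Nonsingular x' y'}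
    {U V N : (ZMod r)[X]} (hrep : IsRep W₀ (Point.some x' y' h') U V)
    (hx : x' * algebraMap (ZMod r)[X] W₀.FunctionField (dP ^ 2) =
      algebraMap (ZMod r)[X] W₀.FunctionField N) : U * dP ^ 2 = N * V := by
  obtain ⟨-, he⟩ := (isRep_some_iff h' U V).mp hrep
  apply SubstEmb17.algebraMap_functionField_injective W₀
  rw [map_mul, map_mul, ← he, ← hx]
  ring

/-- **Manin's lemma** (both signs): `deg (P₀ - φ P₀) = #W₀(𝔽_r)` and
`deg (P₀ + φ P₀) = 2 r + 2 - #W₀(𝔽_r)`. -/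
theorem deg_sub_add_frob (hΔ : W₀.Δ ≠ 0) :
    deg W₀ (IotaDescent23.genericPoint W₀ hΔ - frobP0 W₀ hΔ) = Nat.card W₀.Point ∧
    deg W₀ (IotaDescent23.genericPoint W₀ hΔ + frobP0 W₀ hΔ) + Nat.card W₀.Point = 2 * r + 2 := by
  obtain ⟨Np, hNp⟩ := exists_poly_Ncomb W₀ hΔ (iotaC_nPlus W₀)
  obtain ⟨Nm, hNm⟩ := exists_poly_Ncomb W₀ hΔ (iotaC_nMinus W₀)
  obtain ⟨hsum, hprod⟩ := Nplus_Nminus_rel W₀ hΔ hNp hNm
  obtain ⟨hdp, hdm⟩ := natDegree_N_le W₀ hsum hprod
  have hP0 := genericPoint_mem_oddPoints W₀ hΔ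
  have hF := frobP0_mem_oddPoints W₀ hΔ
  obtain ⟨Up, Vp, hrp⟩ := exists_isRep_of_mem_oddPoints hΔ (add_mem hP0 hF)
  obtain ⟨Um, Vm, hrm⟩ := exists_isRep_of_mem_oddPoints hΔ (sub_mem hP0 hF)
  have hPL := parallelogram_odd hΔ hP0 hF
  rw [deg_genericPoint hΔ] at hPL
  have hdegF : deg W₀ (frobP0 W₀ hΔ) = r := by
    have := deg_map_frob (isRep_genericPoint (W := W₀) hΔ)
    rw [deg_genericPoint hΔ, mul_one] at this
    exact this
  rw [hdegF, deg_eq hrp, deg_eq hrm] at hPL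
  rw [deg_eq hrp, deg_eq hrm]
  -- the relations `U d² = N V`
  obtain ⟨yp, hp', ep⟩ := add_frob_eq W₀ hΔ
  obtain ⟨ym, hm', em⟩ := sub_frob_eq W₀ hΔ
  rw [ep] at hrp
  rw [em] at hrm
  have relp := rep_rel W₀ hrp (xPlus_mul W₀ hNp)
  have relm := rep_rel W₀ hrm (xMinus_mul W₀ hNm)
  -- the common factors
  have hle : ∀ c : ZMod r, nc W₀ c ≤ 2 := nc_le_two W₀
  have hHp : linProd (fun c => nc W₀ c) ∣ Np := linProd_dvd fun c => (pow_dvd_N W₀ c hNp hNm).2
  have hHm : linProd (fun c => 2 - nc W₀ c) ∣ Nm :=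
    linProd_dvd fun c => (pow_dvd_N W₀ c hNp hNm).1
  have hHpd : linProd (fun c => nc W₀ c) ∣ (dP : (ZMod r)[X]) ^ 2 := linProd_dvd_dP_sq hle
  have hHmd : linProd (fun c => 2 - nc W₀ c) ∣ (dP : (ZMod r)[X]) ^ 2 :=
    linProd_dvd_dP_sq fun c => Nat.sub_le _ _
  have hd2 : ((dP : (ZMod r)[X]) ^ 2) ≠ 0 := pow_ne_zero _ dP_ne_zero
  have bp := ht_add_le hrp.1 relp hd2 hHp hHpd (by rw [natDegree_dP_sq]; exact hdp)
  have bm := ht_add_le hrm.1 relm hd2 hHm hHmd (by rw [natDegree_dP_sq]; exact hdm)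
  rw [natDegree_linProd, natDegree_dP_sq] at bp bm
  have hsumc : ∑ c : ZMod r, nc W₀ c + ∑ c : ZMod r, (2 - nc W₀ c) = 2 * r := by
    rw [← Finset.sum_add_distrib]
    have : ∀ c ∈ (Finset.univ : Finset (ZMod r)), nc W₀ c + (2 - nc W₀ c) = 2 := by
      intro c _
      have := hle c
      omega
    rw [Finset.sum_congr rfl this, Finset.sum_const, Finset.card_univ, ZMod.card, smul_eq_mul,
      mul_comm]
  rw [card_point_eq W₀ hΔ]
  constructor <;> omega

/-- **Manin's lemma**: `deg (P₀ - φ P₀) = #W₀(𝔽_r)`. -/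
theorem deg_sub_frob (hΔ : W₀.Δ ≠ 0) :
    deg W₀ (IotaDescent23.genericPoint W₀ hΔ -
      Point.map (W' := W₀) (FrobAlg15.frobAlg r W₀.FunctionField)
        (IotaDescent23.genericPoint W₀ hΔ)) = Nat.card W₀.Point :=
  (deg_sub_add_frob W₀ hΔ).1

/-- **Manin's lemma**, representation form. -/
theorem ht_eq_card_of_isRep (hΔ : W₀.Δ ≠ 0) {U V : (ZMod r)[X]}
    (h : IsRep W₀ (IotaDescent23.genericPoint W₀ hΔ -
      Point.map (W' := W₀) (FrobAlg15.frobAlg r W₀.FunctionField)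
        (IotaDescent23.genericPoint W₀ hΔ)) U V) :
    ht U V = Nat.card W₀.Point := by
  rw [← deg_eq h]
  exact deg_sub_frob W₀ hΔ

/-- `deg (P₀ + φ P₀) = 2 r + 2 - #W₀(𝔽_r)`. -/
theorem deg_add_frob (hΔ : W₀.Δ ≠ 0) :
    deg W₀ (IotaDescent23.genericPoint W₀ hΔ +
      Point.map (W' := W₀) (FrobAlg15.frobAlg r W₀.FunctionField)
        (IotaDescent23.genericPoint W₀ hΔ)) + Nat.card W₀.Point = 2 * r + 2 :=
  (deg_sub_add_frob W₀ hΔ).2

end Main

end Fermat.Agent.ES.Q58.ManinUp88
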