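/-
Programme Q (S58), PART I, **Manin's lemma** (helper82): `deg (P₀ − φ P₀) = #W₀(𝔽_r)`.

The lower bound `#W₀(𝔽_r) ≤ deg (P₀ − φP₀)` is `ManinLB82.card_le_deg`.  Here we prove the lower bound
`2r + 2 − #W₀(𝔽_r) ≤ deg (P₀ + φP₀)` by the same counting argument over the algebraic closure
`k'` of `𝔽_r`: the points `T ∈ W₀(k')` with `T + Frob T = 0` are at least `2r + 2 − #W₀(𝔽_r)` in number
(`FibreCount82.exists_antiFixed`), and they all are in the kernel of `1 + Φ'` on `W₀(k'(W₀))`, so
`Count82.card_le_ht_of_kernel` bounds their number by the height of `x(P₀' + Φ' P₀')`, which is the base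
change of `x(P₀ + φ P₀)`.  Since the two degrees add up to `2r + 2` (parallelogram law), both bounds
are equalities.
-/
import Mathlib
import Fermat.Agent.ES.Q58.Count82
import Fermat.Agent.ES.Q58.ManinLB82
import Fermat.Agent.ES.Q58.FibreCount82

set_option autoImplicit false

open WeierstrassCurve WeierstrassCurve.Affine Polynomial
open Fermat.Agent.ES.Q58.IotaDescent23 Fermat.Agent.ES.Q58.SubstEmb17
open Fermat.Agent.ES.Q58.PLPoly2 Fermat.Agent.ES.Q58.DegOdd53 Fermat.Agent.ES.Q58.FrobAlg15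
open Fermat.Agent.ES.Q58.FrobQuad53

namespace Fermat.Agent.ES.Q58.ManinX82

section BaseChange

variable {F : Type*} [Field F] (W : Affine F) (k : Type*) [Field k] [Algebra F k]

theorem transcendental_xK_base : Transcendental F (xK (W⁄k)) := fun h =>
  transcendental_xK (W⁄k) (h.extendScalars (algebraMap F k).injective)

theorem equation_base : (W⁄(W⁄k).FunctionField).Equation (xK (W⁄k)) (yK (W⁄k)) :=
  equation_xK_yK (W⁄k)

/-- the base-change embedding `F(W) → k(W)` of function fields. -/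
noncomputable def bcHom : W.FunctionField →ₐ[F] (W⁄k).FunctionField :=
  substHom W (equation_base W k) (transcendental_xK_base W k)

theorem bcHom_xK : bcHom W k (xK W) = xK (W⁄k) := substHom_xK W _ _

theorem bcHom_yK : bcHom W k (yK W) = yK (W⁄k) := substHom_yK W _ _

theorem bcHom_algebraMap (p : F[X]) :
    bcHom W k (algebraMap F[X] W.FunctionField p) =
      algebraMap k[X] (W⁄k).FunctionField (p.map (algebraMap F k)) := by
  rw [bcHom, substHom_algebraMap_polynomial, ← aeval_xK (W⁄k), aeval_map_algebraMap]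

end BaseChange

section Main

variable {r : ℕ} [Fact r.Prime] {W₀ : Affine (ZMod r)} [DecidableEq W₀.FunctionField]

set_option backward.isDefEq.respectTransparency.types true in
/-- counting over an extension `κ` of the prime field: a finite set of points of `W₀(κ)` killed by
`1 + Frob` has at most `ht x(P₀ + φ P₀)` elements. -/
theorem card_le_of_antiFixed {κ : Type*} [Field κ] [Algebra (ZMod r) κ] [DecidableEq κ]
    [DecidableEq (W₀⁄κ).FunctionField] (hΔ : W₀.Δ ≠ 0) {xS yS : W₀.FunctionField}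
    (hns : (W₀⁄W₀.FunctionField).Nonsingular xS yS)
    (hS : IotaDescent23.genericPoint W₀ hΔ +
      Point.map (W' := W₀) (frobAlg r W₀.FunctionField) (IotaDescent23.genericPoint W₀ hΔ)
        = Point.some xS yS hns)
    {U V : (ZMod r)[X]} (hcop : IsCoprime U V) (hht : 0 < max U.natDegree V.natDegree)
    (hz : xS * algebraMap (ZMod r)[X] W₀.FunctionField V = algebraMap (ZMod r)[X] W₀.FunctionField U)
    (G : Finset (W₀⁄κ).Point)
    (hG : ∀ T ∈ G, T + Point.map (W' := W₀) (frobAlg r κ) T = 0) :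
    G.card ≤ max U.natDegree V.natDegree := by
  have hΔ' : (W₀⁄κ).Δ ≠ 0 := by
    rw [Affine.baseChange, WeierstrassCurve.baseChange, WeierstrassCurve.map_Δ]
    exact (map_ne_zero_iff _ (algebraMap (ZMod r) κ).injective).mpr hΔ
  have hgen : (W₀⁄(W₀⁄κ).FunctionField).Nonsingular (xK (W₀⁄κ)) (yK (W₀⁄κ)) :=
    nonsingular_xK_yK (W₀⁄κ) hΔ'
  -- the image of `P₀`
  have hjP0 : Point.map (W' := W₀) (bcHom W₀ κ) (IotaDescent23.genericPoint W₀ hΔ) =
      Point.some (xK (W₀⁄κ)) (yK (W₀⁄κ)) hgen :=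
    map_substHom_genericPoint W₀ hΔ hgen (transcendental_xK_base W₀ κ)
  have hns' : (W₀⁄(W₀⁄κ).FunctionField).Nonsingular (bcHom W₀ κ xS) (bcHom W₀ κ yS) :=
    (W₀.baseChange_nonsingular (bcHom W₀ κ).injective ..).mpr hns
  have hS' : Point.some (xK (W₀⁄κ)) (yK (W₀⁄κ)) hgen +
      (1 : ℤ) • Point.map (W' := W₀) (frobAlg r (W₀⁄κ).FunctionField)
        (Point.some (xK (W₀⁄κ)) (yK (W₀⁄κ)) hgen) =
        Point.some (bcHom W₀ κ xS) (bcHom W₀ κ yS) hns' := by
    have h1 := congrArg (Point.map (W' := W₀) (bcHom W₀ κ)) hS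
    rw [map_add, Point.map_some, Point.map_map, comp_frobAlg, ← Point.map_map, hjP0] at h1
    rw [one_zsmul]
    exact h1
  have hz' : bcHom W₀ κ xS * algebraMap κ[X] (W₀⁄κ).FunctionField (V.map (algebraMap (ZMod r) κ)) =
      algebraMap κ[X] (W₀⁄κ).FunctionField (U.map (algebraMap (ZMod r) κ)) := by
    rw [← bcHom_algebraMap, ← bcHom_algebraMap, ← map_mul, hz]
  have hcop' : IsCoprime (U.map (algebraMap (ZMod r) κ)) (V.map (algebraMap (ZMod r) κ)) :=
    hcop.map (mapRingHom (algebraMap (ZMod r) κ))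
  have hht' : 0 < max (U.map (algebraMap (ZMod r) κ)).natDegree
      (V.map (algebraMap (ZMod r) κ)).natDegree := by
    rw [natDegree_map, natDegree_map]
    exact hht
  have key := Count82.card_le_ht_of_kernel (F := ZMod r) (k := κ) W₀ (W₀⁄κ) rfl hΔ'
    (frobAlg r (W₀⁄κ).FunctionField) (fun σ z => by rw [frobAlg_apply, frobAlg_apply, map_pow]) 1
    hgen hns' hS' hcop' hht' hz'
    (G.image (Point.map (W' := W₀) (IsScalarTower.toAlgHom (ZMod r) κ (W₀⁄κ).FunctionField))) ?_ ?_
  · rw [Finset.card_image_of_injective _ (Point.map_injective (W' := W₀) _), natDegree_map,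
      natDegree_map] at key
    exact key
  · intro P hP
    obtain ⟨T, -, rfl⟩ := Finset.mem_image.mp hP
    rcases T with _ | ⟨x, y, h⟩
    · exact isAlgebraic_zero
    · exact isAlgebraic_algebraMap x
  · intro P hP
    obtain ⟨T, hT, rfl⟩ := Finset.mem_image.mp hP
    rw [one_zsmul, Point.map_map, ← comp_frobAlg, ← Point.map_map, ← map_add, hG T hT, map_zero]

set_option backward.isDefEq.respectTransparency.types true in
/-- **the lower bound for `deg (P₀ + φ P₀)`.** -/
theorem add_ge (hΔ : W₀.Δ ≠ 0) :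
    2 * r + 2 ≤ Nat.card W₀.Point +
      deg W₀ (IotaDescent23.genericPoint W₀ hΔ + frobPt W₀ (IotaDescent23.genericPoint W₀ hΔ)) := by
  set P0 := IotaDescent23.genericPoint W₀ hΔ with hP0
  have m0 : P0 ∈ oddPoints W₀ := genericPoint_mem_oddPoints W₀ hΔ
  have m1 : frobPt W₀ P0 ∈ oddPoints W₀ := frobPt_mem_oddPoints W₀ m0
  have hpos := ManinLB82.deg_add_frob_pos hΔ
  obtain ⟨U, V, hUV⟩ := exists_isRep_of_mem_oddPoints hΔ (add_mem m0 m1)
  rcases hS : P0 + frobPt W₀ P0 with _ | ⟨xS, yS, hns⟩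
  · rw [← hP0, hS, ← Point.zero_def, deg_zero] at hpos
    exact absurd hpos (lt_irrefl 0)
  rw [hS] at hUV
  rw [deg_eq hUV]
  have hht : 0 < max U.natDegree V.natDegree := by
    rw [← hP0, hS, deg_eq hUV] at hpos
    exact hpos
  obtain ⟨hcop, hz⟩ := (isRep_some_iff hns U V).mp hUV
  -- base change to the algebraic closure
  let dk : DecidableEq (AlgebraicClosure (ZMod r)) := Classical.decEq _
  let dK : DecidableEq (W₀⁄(AlgebraicClosure (ZMod r))).FunctionField := Classical.decEq _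
  obtain ⟨G, hG, hcard⟩ := FibreCount82.exists_antiFixed (κ := AlgebraicClosure (ZMod r)) W₀ hΔ
  have hkey : G.card ≤ max U.natDegree V.natDegree :=
    card_le_of_antiFixed (κ := AlgebraicClosure (ZMod r)) hΔ hns hS hcop hht hz G hG
  show 2 * r + 2 ≤ Nat.card W₀.Point + max U.natDegree V.natDegree
  omega

/-- **Manin's lemma**: `deg (P₀ − φ P₀) = #W₀(𝔽_r)`. -/
theorem maninStmt (hΔ : W₀.Δ ≠ 0) : ManinStmt W₀ hΔ :=
  ManinLB82.maninStmt_of_add_ge hΔ (add_ge hΔ)

end Main

end Fermat.Agent.ES.Q58.ManinX82
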