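/-
Programme Q (S58), PART II, first half (helper39): **reduction of torsion points** of a Weierstrass
model over a valuation ring.

`A` a valuation subring of a field `K`, `WA` a Weierstrass curve over `A`, `genFib = WA_K`,
`spFib = WA_k` (`k` the residue field).  The reduction is handled as a relation
`Red P R` ("`R` is the reduction of `P`"): `P = O, R = O` or `P = (a, b)`, `R = (ā, b̄)` with
`a b : A`.

Main results (good reduction is only needed for `exists_red_of_nsmul_eq_zero`):

* `Red.unique`, `Red.eq_zero_iff`, `Red.neg`;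
* `Red.nsmul_eq_zero`: the reduction of a point killed by an odd `m` is killed by `m`
  (division polynomials commute with ring maps, `DivPoly.A1Final`);
* `Red.eq_of_red_eq`: two points killed by an odd `m` with `v m = 1` with the same reduction are
  equal (`EC.CongE1_20`, `S05.Kernel`);
* `Red.add`: additivity of the reduction on the points killed by such an `m`;
* `Red.nsmul`, `Red.zsmul`, `Red.sub`.
-/
import Mathlib
import Fermat.Agent.S05.Kernel
import Fermat.Agent.ES.EC.CongE1_20
import Fermat.Agent.DivPoly.A1Final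

set_option autoImplicit false
set_option linter.unusedSectionVars false

open WeierstrassCurve WeierstrassCurve.Affine Polynomial

namespace Fermat.Agent.ES.Q58.Red39

open Fermat.Agent.S05.Kernel Fermat.Agent.ES.EC.CongE1_20 Fermat.Agent.DivPoly

section Setup

variable {K : Type*} [Field K] [DecidableEq K] (A : ValuationSubring K)
  [DecidableEq (IsLocalRing.ResidueField A)] (WA : WeierstrassCurve A)

/-- the generic fibre of a Weierstrass curve over a valuation subring. -/
abbrev genFib : Affine K := (WA.map A.subtype).toAffine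

/-- the special fibre of a Weierstrass curve over a valuation subring. -/
abbrev spFib : Affine (IsLocalRing.ResidueField A) := (WA.map (IsLocalRing.residue A)).toAffine

/-- `R` is the reduction of `P` (`V`, `Vk` any curves over `K`, `k`; in practice the generic and
the special fibre of a model over `A`). -/
def Red (V : Affine K) (Vk : Affine (IsLocalRing.ResidueField A)) (P : V.Point) (R : Vk.Point) :
    Prop :=
  (P = 0 ∧ R = 0) ∨ ∃ (a b : A) (h : V.Nonsingular (a : K) (b : K))
    (h' : Vk.Nonsingular (IsLocalRing.residue A a) (IsLocalRing.residue A b)),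
    P = Point.some _ _ h ∧ R = Point.some _ _ h'

/-- `V`, `Vk` are the generic and the special fibre of the model `WA`. -/
structure IsModel (V : Affine K) (Vk : Affine (IsLocalRing.ResidueField A)) : Prop where
  gen : V = genFib A WA
  sp : Vk = spFib A WA

theorem isModel_fib : IsModel A WA (genFib A WA) (spFib A WA) := ⟨rfl, rfl⟩

variable {A WA}

section Generic

variable {V : Affine K} {Vk : Affine (IsLocalRing.ResidueField A)}

theorem red_zero : Red A V Vk 0 0 := Or.inl ⟨rfl, rfl⟩

theorem red_some {a b : A} (h : V.Nonsingular (a : K) (b : K))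
    (h' : Vk.Nonsingular (IsLocalRing.residue A a) (IsLocalRing.residue A b)) :
    Red A V Vk (Point.some _ _ h) (Point.some _ _ h') :=
  Or.inr ⟨a, b, h, h', rfl, rfl⟩

theorem Red.eq_zero_iff {P : V.Point} {R : Vk.Point} (h : Red A V Vk P R) :
    P = 0 ↔ R = 0 := by
  rcases h with ⟨hP, hR⟩ | ⟨a, b, h, h', hP, hR⟩
  · exact ⟨fun _ => hR, fun _ => hP⟩
  · subst hP; subst hR
    exact ⟨fun h0 => absurd h0 (Point.some_ne_zero h), fun h0 => absurd h0 (Point.some_ne_zero h')⟩

/-- the shape of a reduction of an affine point. -/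
theorem Red.of_some {x y : K} {hxy : V.Nonsingular x y} {R : Vk.Point}
    (h : Red A V Vk (Point.some x y hxy) R) :
    ∃ (a b : A) (h' : Vk.Nonsingular (IsLocalRing.residue A a) (IsLocalRing.residue A b)),
      x = (a : K) ∧ y = (b : K) ∧ R = Point.some _ _ h' := by
  rcases h with ⟨hP, -⟩ | ⟨a, b, h, h', hP, hR⟩
  · exact absurd hP (Point.some_ne_zero hxy)
  · rw [Point.some.injEq] at hP
    exact ⟨a, b, h', hP.1, hP.2, hR⟩

theorem Red.unique {P : V.Point} {R R' : Vk.Point} (h : Red A V Vk P R)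
    (h' : Red A V Vk P R') : R = R' := by
  rcases P with _ | ⟨x, y, hxy⟩
  · have e1 := (h.eq_zero_iff).mp rfl
    have e2 := (h'.eq_zero_iff).mp rfl
    rw [e1, e2]
  · obtain ⟨a, b, h1, hx, hy, rfl⟩ := h.of_some
    obtain ⟨a', b', h1', hx', hy', rfl⟩ := h'.of_some
    have ea : a = a' := Subtype.ext (hx.symm.trans hx')
    have eb : b = b' := Subtype.ext (hy.symm.trans hy')
    subst ea; subst eb
    rfl

end Generic

/-- the coefficients of the generic fibre are integral. -/
theorem integralCoeffs_genFib : IntegralCoeffs A.valuation (genFib A WA) := by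
  refine ⟨?_, ?_, ?_, ?_, ?_⟩
  · rw [WeierstrassCurve.map_a₁]; exact A.valuation_le_one _
  · rw [WeierstrassCurve.map_a₂]; exact A.valuation_le_one _
  · rw [WeierstrassCurve.map_a₃]; exact A.valuation_le_one _
  · rw [WeierstrassCurve.map_a₄]; exact A.valuation_le_one _
  · rw [WeierstrassCurve.map_a₆]; exact A.valuation_le_one _

theorem Red.neg {P : (genFib A WA).Point} {R : (spFib A WA).Point} (h : Red A (genFib A WA) (spFib A WA) P R) :
    Red A (genFib A WA) (spFib A WA) (-P) (-R) := by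
  rcases h with ⟨hP, hR⟩ | ⟨a, b, h, h', hP, hR⟩
  · subst hP; subst hR
    exact red_zero
  · subst hP; subst hR
    rw [Point.neg_some, Point.neg_some]
    have e1 : (genFib A WA).negY (a : K) (b : K) = ((WA.toAffine.negY a b : A) : K) :=
      Affine.map_negY (W' := WA.toAffine) A.subtype a b
    have e2 : (spFib A WA).negY (IsLocalRing.residue A a) (IsLocalRing.residue A b)
        = IsLocalRing.residue A (WA.toAffine.negY a b) :=
      Affine.map_negY (W' := WA.toAffine) (IsLocalRing.residue A) a b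
    have hn := (nonsingular_neg (W' := genFib A WA) (a : K) (b : K)).mpr h
    have hn' := (nonsingular_neg (W' := spFib A WA) (IsLocalRing.residue A a)
      (IsLocalRing.residue A b)).mpr h'
    refine Or.inr ⟨a, WA.toAffine.negY a b, by rw [← e1]; exact hn, by rw [← e2]; exact hn', ?_, ?_⟩
    · congr 1
    · congr 1

/-! ### Torsion -/

/-- coercion of a residue-unit. -/
theorem valuation_eq_one_of_residue_ne_zero {u : A} (hu : IsLocalRing.residue A u ≠ 0) :
    A.valuation (u : K) = 1 :=
  (A.valuation_eq_one_iff u).mp ((IsLocalRing.residue_ne_zero_iff_isUnit u).mp hu)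

/-- equal residues: congruent modulo the maximal ideal. -/
theorem valuation_sub_lt_one_of_residue_eq {u w : A}
    (h : IsLocalRing.residue A u = IsLocalRing.residue A w) : A.valuation ((u : K) - (w : K)) < 1 := by
  have h1 : IsLocalRing.residue A (u - w) = 0 := by rw [map_sub, h, sub_self]
  rw [IsLocalRing.residue_eq_zero_iff, A.valuation_lt_one_iff] at h1
  simpa using h1

/-- The reduction of a point killed by an odd `m` is killed by `m`. -/
theorem Red.nsmul_eq_zero {P : (genFib A WA).Point} {R : (spFib A WA).Point} (h : Red A (genFib A WA) (spFib A WA) P R)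
    {m : ℕ} (hm : Odd m) (hP : m • P = 0) : m • R = 0 := by
  rcases h with ⟨-, hR⟩ | ⟨a, b, h, h', hP', hR⟩
  · rw [hR, nsmul_zero]
  · subst hP'; subst hR
    have h1 : ((genFib A WA).preΨ' m).eval (a : K) = 0 :=
      (A1Final.nsmul_eq_zero_iff_preΨ' h hm).mp hP
    have e1 : (genFib A WA).preΨ' m = (WA.preΨ' m).map A.subtype :=
      WeierstrassCurve.map_preΨ' WA A.subtype m
    have e2 : (spFib A WA).preΨ' m = (WA.preΨ' m).map (IsLocalRing.residue A) :=
      WeierstrassCurve.map_preΨ' WA (IsLocalRing.residue A) m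
    have h2 : (WA.preΨ' m).eval a = 0 := by
      have := Polynomial.eval_map_apply (p := WA.preΨ' m) A.subtype a
      rw [← e1] at this
      have h3 : A.subtype ((WA.preΨ' m).eval a) = 0 := by rw [← this]; exact h1
      exact Subtype.ext h3
    refine (A1Final.nsmul_eq_zero_iff_preΨ' h' hm).mpr ?_
    rw [e2, Polynomial.eval_map_apply, h2, map_zero]

/-- a point of odd order of the special fibre is not a `2`-torsion point. -/
theorem residue_polyY_ne_zero {a b : A}
    {h' : (spFib A WA).Nonsingular (IsLocalRing.residue A a) (IsLocalRing.residue A b)}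
    {m : ℕ} (hm : Odd m) (hR : m • (Point.some _ _ h' : (spFib A WA).Point) = 0) :
    IsLocalRing.residue A (2 * b + WA.a₁ * a + WA.a₃) ≠ 0 := by
  intro h0
  have hneg : IsLocalRing.residue A b
      = (spFib A WA).negY (IsLocalRing.residue A a) (IsLocalRing.residue A b) := by
    simp only [Affine.negY, WeierstrassCurve.map_a₁, WeierstrassCurve.map_a₃]
    simp only [map_add, map_mul, map_ofNat] at h0
    linear_combination h0
  have h2 : (2 : ℕ) • (Point.some _ _ h' : (spFib A WA).Point) = 0 := by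
    rw [two_nsmul]
    exact Point.add_of_Y_eq rfl hneg
  obtain ⟨j, hj⟩ := hm
  have e1 : m • (Point.some _ _ h' : (spFib A WA).Point)
      = j • ((2 : ℕ) • (Point.some _ _ h' : (spFib A WA).Point)) + Point.some _ _ h' := by
    rw [hj, add_smul, mul_comm, mul_smul, one_smul]
  rw [hR, h2, nsmul_zero, zero_add] at e1
  exact Point.some_ne_zero h' e1.symm

/-- **Injectivity of the reduction on odd torsion prime to the residue characteristic.** -/
theorem Red.eq_of_red_eq {P P' : (genFib A WA).Point} {R : (spFib A WA).Point}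
    (h : Red A (genFib A WA) (spFib A WA) P R) (h' : Red A (genFib A WA) (spFib A WA) P' R) {m : ℕ} (hm : Odd m)
    (hv : A.valuation ((m : ℕ) : K) = 1) (hP : m • P = 0) (hP' : m • P' = 0) : P = P' := by
  rcases h with ⟨hP0, hR0⟩ | ⟨a, b, h1, h1', hPe, hRe⟩
  · rw [hP0, (h'.eq_zero_iff).mpr hR0]
  · subst hPe
    rcases h' with ⟨-, hR0⟩ | ⟨a', b', h2, h2', hPe', hRe'⟩
    · rw [hR0] at hRe
      exact absurd hRe.symm (Point.some_ne_zero h1')
    · subst hPe'
      rw [hRe, Point.some.injEq] at hRe'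
      obtain ⟨hra, hrb⟩ := hRe'
      have hR2 : m • (Point.some _ _ h2' : (spFib A WA).Point) = 0 :=
        (red_some h2 h2').nsmul_eq_zero hm hP'
      have hu0 := residue_polyY_ne_zero hm hR2
      have hu : A.valuation (2 * (b' : K) + (genFib A WA).a₁ * (a' : K) + (genFib A WA).a₃) = 1 := by
        have := valuation_eq_one_of_residue_ne_zero hu0
        have e : ((2 * b' + WA.a₁ * a' + WA.a₃ : A) : K)
            = 2 * (b' : K) + A.subtype WA.a₁ * (a' : K) + A.subtype WA.a₃ := by
          show A.subtype (2 * b' + WA.a₁ * a' + WA.a₃) = _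
          simp only [map_add, map_mul, map_ofNat]
          rfl
        rw [WeierstrassCurve.map_a₁, WeierstrassCurve.map_a₃, ← e]
        exact this
      exact eq_of_congruent_of_nsmul_eq_zero integralCoeffs_genFib h1 h2
        (valuation_sub_lt_one_of_residue_eq hra) (valuation_sub_lt_one_of_residue_eq hrb) hu hv hP hP'

/-! ### Additivity -/

/-- division by a residue-unit inside `A`. -/
theorem exists_div_lift (n u : A) (hu : IsLocalRing.residue A u ≠ 0) :
    ∃ L : A, (n : K) / (u : K) = (L : K) ∧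
      IsLocalRing.residue A n / IsLocalRing.residue A u = IsLocalRing.residue A L := by
  obtain ⟨w, hw⟩ := ((IsLocalRing.residue_ne_zero_iff_isUnit u).mp hu).exists_right_inv
  have hLu : n * w * u = n := by rw [mul_assoc, mul_comm w u, hw, mul_one]
  refine ⟨n * w, ?_, ?_⟩
  · have hu0 : (u : K) ≠ 0 := by
      intro h0
      apply hu
      have : u = 0 := Subtype.ext h0
      rw [this, map_zero]
    rw [div_eq_iff hu0]
    have := congrArg (fun t : A => (t : K)) hLu
    simpa using this.symm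
  · rw [div_eq_iff hu]
    have := congrArg (IsLocalRing.residue A) hLu
    simpa using this.symm

/-- The slope of the chord (distinct reduced abscissae) lifts. -/
theorem exists_slope_lift_of_X_ne {s₁ t₁ s₂ t₂ : A}
    (hx : IsLocalRing.residue A s₁ ≠ IsLocalRing.residue A s₂) :
    ∃ L : A, (genFib A WA).slope (s₁ : K) (s₂ : K) (t₁ : K) (t₂ : K) = (L : K) ∧
      (spFib A WA).slope (IsLocalRing.residue A s₁) (IsLocalRing.residue A s₂)
        (IsLocalRing.residue A t₁) (IsLocalRing.residue A t₂) = IsLocalRing.residue A L := by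
  have hxK : (s₁ : K) ≠ (s₂ : K) := fun h => hx (by rw [Subtype.ext h])
  have hu : IsLocalRing.residue A (s₁ - s₂) ≠ 0 := by
    rw [map_sub]; exact sub_ne_zero.mpr hx
  obtain ⟨L, hL1, hL2⟩ := exists_div_lift (t₁ - t₂) (s₁ - s₂) hu
  refine ⟨L, ?_, ?_⟩
  · rw [slope_of_X_ne hxK, ← hL1]
    simp
  · rw [slope_of_X_ne hx, ← hL2, map_sub, map_sub]

/-- The slope of the tangent at a point whose reduction is not `2`-torsion lifts. -/
theorem exists_slope_lift_of_Y_ne {s t : A}
    (hy : IsLocalRing.residue A t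
      ≠ (spFib A WA).negY (IsLocalRing.residue A s) (IsLocalRing.residue A t)) :
    ∃ L : A, (genFib A WA).slope (s : K) (s : K) (t : K) (t : K) = (L : K) ∧
      (spFib A WA).slope (IsLocalRing.residue A s) (IsLocalRing.residue A s)
        (IsLocalRing.residue A t) (IsLocalRing.residue A t) = IsLocalRing.residue A L := by
  have e2 : (spFib A WA).negY (IsLocalRing.residue A s) (IsLocalRing.residue A t)
      = IsLocalRing.residue A (WA.toAffine.negY s t) :=
    Affine.map_negY (W' := WA.toAffine) (IsLocalRing.residue A) s t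
  have e1 : (genFib A WA).negY (s : K) (t : K) = ((WA.toAffine.negY s t : A) : K) :=
    Affine.map_negY (W' := WA.toAffine) A.subtype s t
  have hu : IsLocalRing.residue A (t - WA.toAffine.negY s t) ≠ 0 := by
    rw [map_sub, ← e2]; exact sub_ne_zero.mpr hy
  have hyK : (t : K) ≠ (genFib A WA).negY (s : K) (t : K) := by
    intro h
    apply hy
    rw [e1] at h
    have ht : t = WA.toAffine.negY s t := Subtype.ext h
    rw [e2]
    exact congrArg _ ht
  obtain ⟨L, hL1, hL2⟩ :=
    exists_div_lift (3 * s ^ 2 + 2 * WA.a₂ * s + WA.a₄ - WA.a₁ * t) (t - WA.toAffine.negY s t) hu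
  refine ⟨L, ?_, ?_⟩
  · rw [slope_of_Y_ne rfl hyK, ← hL1, e1, WeierstrassCurve.map_a₁, WeierstrassCurve.map_a₂,
      WeierstrassCurve.map_a₄]
    congr 1
  · rw [slope_of_Y_ne rfl hy, ← hL2, e2, WeierstrassCurve.map_a₁, WeierstrassCurve.map_a₂,
      WeierstrassCurve.map_a₄]
    simp only [map_add, map_sub, map_mul, map_pow, map_ofNat]

/-- the sum of two affine points with a lifted slope. -/
theorem red_add_of_slope_lift {s₁ t₁ s₂ t₂ : A}
    {h₁ : (genFib A WA).Nonsingular (s₁ : K) (t₁ : K)}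
    {h₂ : (genFib A WA).Nonsingular (s₂ : K) (t₂ : K)}
    {h₁' : (spFib A WA).Nonsingular (IsLocalRing.residue A s₁) (IsLocalRing.residue A t₁)}
    {h₂' : (spFib A WA).Nonsingular (IsLocalRing.residue A s₂) (IsLocalRing.residue A t₂)}
    (hxy : ¬((s₁ : K) = (s₂ : K) ∧ (t₁ : K) = (genFib A WA).negY (s₂ : K) (t₂ : K)))
    (hxy' : ¬(IsLocalRing.residue A s₁ = IsLocalRing.residue A s₂ ∧ IsLocalRing.residue A t₁
      = (spFib A WA).negY (IsLocalRing.residue A s₂) (IsLocalRing.residue A t₂)))
    (L : A) (hL : (genFib A WA).slope (s₁ : K) (s₂ : K) (t₁ : K) (t₂ : K) = (L : K))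
    (hL' : (spFib A WA).slope (IsLocalRing.residue A s₁) (IsLocalRing.residue A s₂)
        (IsLocalRing.residue A t₁) (IsLocalRing.residue A t₂) = IsLocalRing.residue A L) :
    Red A (genFib A WA) (spFib A WA) (Point.some _ _ h₁ + Point.some _ _ h₂) (Point.some _ _ h₁' + Point.some _ _ h₂') := by
  rw [Point.add_some hxy, Point.add_some hxy']
  have eX : (genFib A WA).addX (s₁ : K) (s₂ : K) ((genFib A WA).slope (s₁ : K) (s₂ : K) (t₁ : K) (t₂ : K))
      = ((WA.toAffine.addX s₁ s₂ L : A) : K) := by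
    rw [hL]; exact Affine.map_addX (W' := WA.toAffine) A.subtype s₁ s₂ L
  have eY : (genFib A WA).addY (s₁ : K) (s₂ : K) (t₁ : K)
      ((genFib A WA).slope (s₁ : K) (s₂ : K) (t₁ : K) (t₂ : K))
      = ((WA.toAffine.addY s₁ s₂ t₁ L : A) : K) := by
    rw [hL]; exact Affine.map_addY (W' := WA.toAffine) A.subtype s₁ t₁ s₂ L
  have eX' : (spFib A WA).addX (IsLocalRing.residue A s₁) (IsLocalRing.residue A s₂)
      ((spFib A WA).slope (IsLocalRing.residue A s₁) (IsLocalRing.residue A s₂)
        (IsLocalRing.residue A t₁) (IsLocalRing.residue A t₂))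
      = IsLocalRing.residue A (WA.toAffine.addX s₁ s₂ L) := by
    rw [hL']; exact Affine.map_addX (W' := WA.toAffine) (IsLocalRing.residue A) s₁ s₂ L
  have eY' : (spFib A WA).addY (IsLocalRing.residue A s₁) (IsLocalRing.residue A s₂)
      (IsLocalRing.residue A t₁)
      ((spFib A WA).slope (IsLocalRing.residue A s₁) (IsLocalRing.residue A s₂)
        (IsLocalRing.residue A t₁) (IsLocalRing.residue A t₂))
      = IsLocalRing.residue A (WA.toAffine.addY s₁ s₂ t₁ L) := by
    rw [hL']; exact Affine.map_addY (W' := WA.toAffine) (IsLocalRing.residue A) s₁ t₁ s₂ L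
  have hn := nonsingular_add h₁ h₂ hxy
  have hn' := nonsingular_add h₁' h₂' hxy'
  refine Or.inr ⟨WA.toAffine.addX s₁ s₂ L, WA.toAffine.addY s₁ s₂ t₁ L,
    by rw [← eX, ← eY]; exact hn, by rw [← eX', ← eY']; exact hn', ?_, ?_⟩
  · rw [Point.some.injEq]; exact ⟨eX, eY⟩
  · rw [Point.some.injEq]; exact ⟨eX', eY'⟩

/-- **Additivity of the reduction** on the points killed by an odd `m` with `v m = 1`. -/
theorem Red.add {P₁ P₂ : (genFib A WA).Point} {R₁ R₂ : (spFib A WA).Point}
    (h₁ : Red A (genFib A WA) (spFib A WA) P₁ R₁) (h₂ : Red A (genFib A WA) (spFib A WA) P₂ R₂) {m : ℕ} (hm : Odd m)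
    (hv : A.valuation ((m : ℕ) : K) = 1) (hP₁ : m • P₁ = 0) (hP₂ : m • P₂ = 0) :
    Red A (genFib A WA) (spFib A WA) (P₁ + P₂) (R₁ + R₂) := by
  rcases h₁ with ⟨hP0, hR0⟩ | ⟨s₁, t₁, g₁, g₁', hPe₁, hRe₁⟩
  · rw [hP0, hR0, zero_add, zero_add]; exact h₂
  rcases h₂ with ⟨hP0, hR0⟩ | ⟨s₂, t₂, g₂, g₂', hPe₂, hRe₂⟩
  · rw [hP0, hR0, add_zero, add_zero]; exact Or.inr ⟨s₁, t₁, g₁, g₁', hPe₁, hRe₁⟩
  subst hPe₁; subst hPe₂; subst hRe₁; subst hRe₂
  have e1 : (genFib A WA).negY (s₂ : K) (t₂ : K) = ((WA.toAffine.negY s₂ t₂ : A) : K) :=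
    Affine.map_negY (W' := WA.toAffine) A.subtype s₂ t₂
  have e2 : (spFib A WA).negY (IsLocalRing.residue A s₂) (IsLocalRing.residue A t₂)
      = IsLocalRing.residue A (WA.toAffine.negY s₂ t₂) :=
    Affine.map_negY (W' := WA.toAffine) (IsLocalRing.residue A) s₂ t₂
  by_cases hxy : (s₁ : K) = (s₂ : K) ∧ (t₁ : K) = (genFib A WA).negY (s₂ : K) (t₂ : K)
  · -- opposite points
    have hs : s₁ = s₂ := Subtype.ext hxy.1
    have ht : t₁ = WA.toAffine.negY s₂ t₂ := Subtype.ext (hxy.2.trans e1)
    rw [Point.add_of_Y_eq hxy.1 hxy.2, Point.add_of_Y_eq (by rw [hs]) (by rw [e2, ht])]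
    exact red_zero
  by_cases hxy' : IsLocalRing.residue A s₁ = IsLocalRing.residue A s₂ ∧ IsLocalRing.residue A t₁
      = (spFib A WA).negY (IsLocalRing.residue A s₂) (IsLocalRing.residue A t₂)
  · -- opposite reductions: impossible
    exfalso
    have hneg := (red_some g₂ g₂').neg
    have hR : (Point.some _ _ g₁' : (spFib A WA).Point) = -Point.some _ _ g₂' := by
      rw [Point.neg_some, Point.some.injEq]; exact hxy'
    rw [← hR] at hneg
    have hP₂' : m • (-(Point.some _ _ g₂ : (genFib A WA).Point)) = 0 := by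
      rw [smul_neg, hP₂, neg_zero]
    have := (red_some g₁ g₁').eq_of_red_eq hneg hm hv hP₁ hP₂'
    rw [Point.neg_some, Point.some.injEq] at this
    exact hxy this
  by_cases hx : IsLocalRing.residue A s₁ = IsLocalRing.residue A s₂
  · -- equal reductions: the points are equal, tangent case
    have hy : IsLocalRing.residue A t₁
        ≠ (spFib A WA).negY (IsLocalRing.residue A s₂) (IsLocalRing.residue A t₂) :=
      fun h => hxy' ⟨hx, h⟩
    have hyy : IsLocalRing.residue A t₁ = IsLocalRing.residue A t₂ :=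
      Y_eq_of_Y_ne g₁'.1 g₂'.1 hx hy
    have hR : (Point.some _ _ g₁' : (spFib A WA).Point) = Point.some _ _ g₂' := by
      rw [Point.some.injEq]; exact ⟨hx, hyy⟩
    have hred2 := red_some g₂ g₂'
    rw [← hR] at hred2
    have hPP := (red_some g₁ g₁').eq_of_red_eq hred2 hm hv hP₁ hP₂
    rw [Point.some.injEq] at hPP
    have hs : s₁ = s₂ := Subtype.ext hPP.1
    have ht : t₁ = t₂ := Subtype.ext hPP.2
    subst hs; subst ht
    obtain ⟨L, hL, hL'⟩ := exists_slope_lift_of_Y_ne (WA := WA) hy
    exact red_add_of_slope_lift hxy hxy' L hL hL'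
  · obtain ⟨L, hL, hL'⟩ := exists_slope_lift_of_X_ne (WA := WA) (t₁ := t₁) (t₂ := t₂) hx
    exact red_add_of_slope_lift hxy hxy' L hL hL'

theorem Red.nsmul {P : (genFib A WA).Point} {R : (spFib A WA).Point} (h : Red A (genFib A WA) (spFib A WA) P R)
    {m : ℕ} (hm : Odd m) (hv : A.valuation ((m : ℕ) : K) = 1) (hP : m • P = 0) (n : ℕ) :
    Red A (genFib A WA) (spFib A WA) (n • P) (n • R) := by
  induction n with
  | zero => rw [zero_nsmul, zero_nsmul]; exact red_zero
  | succ n ih =>
    rw [succ_nsmul, succ_nsmul]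
    refine ih.add h hm hv ?_ hP
    rw [smul_comm, hP, nsmul_zero]

theorem Red.zsmul {P : (genFib A WA).Point} {R : (spFib A WA).Point} (h : Red A (genFib A WA) (spFib A WA) P R)
    {m : ℕ} (hm : Odd m) (hv : A.valuation ((m : ℕ) : K) = 1) (hP : m • P = 0) (z : ℤ) :
    Red A (genFib A WA) (spFib A WA) (z • P) (z • R) := by
  rcases z with n | n
  · rw [Int.ofNat_eq_natCast, natCast_zsmul, natCast_zsmul]
    exact h.nsmul hm hv hP n
  · rw [negSucc_zsmul, negSucc_zsmul]
    exact (h.nsmul hm hv hP (n + 1)).neg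

theorem Red.sub {P₁ P₂ : (genFib A WA).Point} {R₁ R₂ : (spFib A WA).Point}
    (h₁ : Red A (genFib A WA) (spFib A WA) P₁ R₁) (h₂ : Red A (genFib A WA) (spFib A WA) P₂ R₂) {m : ℕ} (hm : Odd m)
    (hv : A.valuation ((m : ℕ) : K) = 1) (hP₁ : m • P₁ = 0) (hP₂ : m • P₂ = 0) :
    Red A (genFib A WA) (spFib A WA) (P₁ - P₂) (R₁ - R₂) := by
  rw [sub_eq_add_neg, sub_eq_add_neg]
  refine h₁.add h₂.neg hm hv hP₁ ?_
  rw [smul_neg, hP₂, neg_zero]

/-- **Existence of the reduction** of a point killed by `n`, `v n = 1`, for a model with good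
reduction. -/
theorem exists_red_of_nsmul_eq_zero (hΔ : IsUnit WA.Δ) {n : ℕ}
    (hn : A.valuation ((n : ℕ) : K) = 1) {P : (genFib A WA).Point} (hP : n • P = 0) :
    ∃ R : (spFib A WA).Point, Red A (genFib A WA) (spFib A WA) P R := by
  rcases P with _ | ⟨x, y, h⟩
  · exact ⟨0, red_zero⟩
  · have hW := integralCoeffs_genFib (A := A) (WA := WA)
    have hx : A.valuation x ≤ 1 := x_integral_of_nsmul_eq_zero hW h hn hP
    have hy : A.valuation y ≤ 1 := by
      by_contra hy
      exact absurd (vx_of_vy hW h.1 (not_le.mp hy)) (not_lt.mpr hx)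
    set a : A := ⟨x, (A.valuation_le_one_iff x).mp hx⟩ with ha
    set b : A := ⟨y, (A.valuation_le_one_iff y).mp hy⟩ with hb
    have hinj : Function.Injective A.subtype := Subtype.val_injective
    have heqA : WA.toAffine.Equation a b :=
      (Affine.map_equation (W := WA.toAffine) hinj a b).mp h.1
    have heqk : (spFib A WA).Equation (IsLocalRing.residue A a) (IsLocalRing.residue A b) :=
      Affine.Equation.map (IsLocalRing.residue A) heqA
    have hΔk : (spFib A WA).Δ ≠ 0 := by
      rw [WeierstrassCurve.map_Δ]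
      exact (IsLocalRing.residue_ne_zero_iff_isUnit _).mpr hΔ
    have hnsk := ((spFib A WA).equation_iff_nonsingular_of_Δ_ne_zero hΔk).mp heqk
    exact ⟨Point.some _ _ hnsk, Or.inr ⟨a, b, h, hnsk, rfl, rfl⟩⟩

/-! ### The same statements for any presentation `V`, `Vk` of the two fibres -/

section Model

variable {V : Affine K} {Vk : Affine (IsLocalRing.ResidueField A)}

theorem IsModel.red_neg (hM : IsModel A WA V Vk) {P : V.Point} {R : Vk.Point}
    (h : Red A V Vk P R) : Red A V Vk (-P) (-R) := by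
  obtain ⟨rfl, rfl⟩ := hM
  exact h.neg

theorem IsModel.nsmul_eq_zero (hM : IsModel A WA V Vk) {P : V.Point} {R : Vk.Point}
    (h : Red A V Vk P R) {m : ℕ} (hm : Odd m) (hP : m • P = 0) : m • R = 0 := by
  obtain ⟨rfl, rfl⟩ := hM
  exact h.nsmul_eq_zero hm hP

theorem IsModel.eq_of_red_eq (hM : IsModel A WA V Vk) {P P' : V.Point} {R : Vk.Point}
    (h : Red A V Vk P R) (h' : Red A V Vk P' R) {m : ℕ} (hm : Odd m)
    (hv : A.valuation ((m : ℕ) : K) = 1) (hP : m • P = 0) (hP' : m • P' = 0) : P = P' := by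
  obtain ⟨rfl, rfl⟩ := hM
  exact h.eq_of_red_eq h' hm hv hP hP'

theorem IsModel.red_add (hM : IsModel A WA V Vk) {P₁ P₂ : V.Point} {R₁ R₂ : Vk.Point}
    (h₁ : Red A V Vk P₁ R₁) (h₂ : Red A V Vk P₂ R₂) {m : ℕ} (hm : Odd m)
    (hv : A.valuation ((m : ℕ) : K) = 1) (hP₁ : m • P₁ = 0) (hP₂ : m • P₂ = 0) :
    Red A V Vk (P₁ + P₂) (R₁ + R₂) := by
  obtain ⟨rfl, rfl⟩ := hM
  exact h₁.add h₂ hm hv hP₁ hP₂

theorem IsModel.red_sub (hM : IsModel A WA V Vk) {P₁ P₂ : V.Point} {R₁ R₂ : Vk.Point}
    (h₁ : Red A V Vk P₁ R₁) (h₂ : Red A V Vk P₂ R₂) {m : ℕ} (hm : Odd m)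
    (hv : A.valuation ((m : ℕ) : K) = 1) (hP₁ : m • P₁ = 0) (hP₂ : m • P₂ = 0) :
    Red A V Vk (P₁ - P₂) (R₁ - R₂) := by
  obtain ⟨rfl, rfl⟩ := hM
  exact h₁.sub h₂ hm hv hP₁ hP₂

theorem IsModel.red_nsmul (hM : IsModel A WA V Vk) {P : V.Point} {R : Vk.Point}
    (h : Red A V Vk P R) {m : ℕ} (hm : Odd m) (hv : A.valuation ((m : ℕ) : K) = 1)
    (hP : m • P = 0) (n : ℕ) : Red A V Vk (n • P) (n • R) := by
  obtain ⟨rfl, rfl⟩ := hM
  exact h.nsmul hm hv hP n

theorem IsModel.red_zsmul (hM : IsModel A WA V Vk) {P : V.Point} {R : Vk.Point}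
    (h : Red A V Vk P R) {m : ℕ} (hm : Odd m) (hv : A.valuation ((m : ℕ) : K) = 1)
    (hP : m • P = 0) (z : ℤ) : Red A V Vk (z • P) (z • R) := by
  obtain ⟨rfl, rfl⟩ := hM
  exact h.zsmul hm hv hP z

theorem IsModel.exists_red (hM : IsModel A WA V Vk) (hΔ : IsUnit WA.Δ) {n : ℕ}
    (hn : A.valuation ((n : ℕ) : K) = 1) {P : V.Point} (hP : n • P = 0) :
    ∃ R : Vk.Point, Red A V Vk P R := by
  obtain ⟨rfl, rfl⟩ := hM
  exact exists_red_of_nsmul_eq_zero hΔ hn hP

end Model

end Setup

end Fermat.Agent.ES.Q58.Red39
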