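/-
Programme Q (S58), PART II, second half (helper39): **the Eichler–Shimura relation on the generic
fibre from the relation in characteristic `r`**.

`W` an integral Weierstrass model, `r` a good prime, `P` a valuation subring of `ℚ̄` over `r`, `σ` a
Frobenius element at `P`, `κ` the residue field of `P` (a `ZMod r`-algebra).  The reduction relation
`Red` of `Red39a` between `W(ℚ̄)` and `W̃(κ)` intertwines `σ` with the `r`-power Frobenius of `κ`
(`red_frob`); together with additivity and injectivity on the odd prime-to-`r` torsion this turns the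
relation `φ² - a_r φ + r = 0` on `W̃(κ)` (PART I, here the hypothesis `RelChar`) into
`TraceCong20.RelQbar W`.
-/
import Mathlib
import Fermat.Agent.ES.Q58.Red39a
import Fermat.Agent.ES.Q58.TraceCong20
import Fermat.Agent.ES.Q58.FrobAlg15
import Fermat.Agent.ES.EC.LiftTorsion29
import Fermat.Agent.ES.GAL.ChebQbar23
import Fermat.Agent.S05.Inertia

set_option autoImplicit false
set_option linter.unusedSectionVars false

open WeierstrassCurve WeierstrassCurve.Affine WeierstrassCurve.Affine.Point

namespace Fermat.Agent.ES.Q58.Red39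

open Fermat.Agent.ES.Q58.FrobAlg15 Fermat.Agent.ES.EC.LiftTorsion29

local notation "Qb" => AlgebraicClosure ℚ
local notation "GQ" => (AlgebraicClosure ℚ ≃ₐ[ℚ] AlgebraicClosure ℚ)

/-- **PART I in the shape consumed here**: the relation `φ² - a φ + r = 0` on the points of a
Weierstrass curve over `ZMod r` with values in any field `κ` over `ZMod r`, `φ` the `r`-power
Frobenius (any algebra endomorphism with `φ x = x ^ r`, so that the statement does not depend on a
particular packaging of the Frobenius). -/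
def RelChar (r : ℕ) [Fact r.Prime] (W₀ : WeierstrassCurve (ZMod r)) : Prop :=
  ∀ (κ : Type) [Field κ] [DecidableEq κ] [Algebra (ZMod r) κ] (φ : κ →ₐ[ZMod r] κ),
    (∀ x : κ, φ x = x ^ r) → ∀ Q : (W₀.toAffine⁄κ).Point,
      Point.map (W' := W₀.toAffine) φ (Point.map (W' := W₀.toAffine) φ Q)
        - W₀.traceOfFrobenius • Point.map (W' := W₀.toAffine) φ Q + (r : ℤ) • Q = 0

section Aux

theorem nsmul_zsmul_eq_zero {G : Type*} [AddCommGroup G] {m : ℕ} {x : G} (h : m • x = 0) (z : ℤ) :
    m • (z • x) = 0 := by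
  rw [smul_comm, h, smul_zero]

theorem nsmul_nsmul_eq_zero {G : Type*} [AddCommGroup G] {m : ℕ} {x : G} (h : m • x = 0) (z : ℕ) :
    m • (z • x) = 0 := by
  rw [smul_comm, h, smul_zero]

theorem nsmul_sub_eq_zero {G : Type*} [AddCommGroup G] {m : ℕ} {x y : G} (h : m • x = 0)
    (h' : m • y = 0) : m • (x - y) = 0 := by
  rw [smul_sub, h, h', sub_zero]

end Aux

section Frob

variable {r : ℕ} [hr : Fact r.Prime] {P : ValuationSubring Qb}

/-- the two fibres of the integral model over `P`. -/
theorem isModel_of_int (W : WeierstrassCurve ℤ) [DecidableEq (IsLocalRing.ResidueField P)]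
    [Algebra (ZMod r) (IsLocalRing.ResidueField P)] :
    IsModel P (W.map (Int.castRingHom P)) ((W.map (Int.castRingHom ℚ))⁄Qb)
      ((W.reductionMod r).toAffine⁄(IsLocalRing.ResidueField P)) := by
  constructor
  · change (W.map (Int.castRingHom ℚ)).map (algebraMap ℚ Qb)
      = (W.map (Int.castRingHom P)).map P.subtype
    rw [WeierstrassCurve.map_map, WeierstrassCurve.map_map]
    congr 1
  · change (W.map (Int.castRingHom (ZMod r))).map (algebraMap (ZMod r) (IsLocalRing.ResidueField P))
      = (W.map (Int.castRingHom P)).map (IsLocalRing.residue P)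
    rw [WeierstrassCurve.map_map, WeierstrassCurve.map_map]
    congr 1
    exact RingHom.ext_int _ _

/-- **Frobenius equivariance of the reduction.** -/
theorem red_frob {E : Affine ℚ} {W₀ : Affine (ZMod r)}
    [DecidableEq (IsLocalRing.ResidueField P)] [Algebra (ZMod r) (IsLocalRing.ResidueField P)]
    {σ : GQ} (hσ : P.IsFrobeniusAt σ r)
    (φ : IsLocalRing.ResidueField P →ₐ[ZMod r] IsLocalRing.ResidueField P)
    (hφ : ∀ x, φ x = x ^ r) {Q : (E⁄Qb).Point} {R : (W₀⁄(IsLocalRing.ResidueField P)).Point}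
    (h : Red P (E⁄Qb) (W₀⁄(IsLocalRing.ResidueField P)) Q R) :
    Red P (E⁄Qb) (W₀⁄(IsLocalRing.ResidueField P)) (σ • Q) (Point.map (W' := W₀) φ R) := by
  rcases h with ⟨hQ, hR⟩ | ⟨a, b, h1, h1', hQ, hR⟩
  · subst hQ; subst hR
    exact red_zero
  · subst hQ; subst hR
    have hmem := hσ.mem_decompositionSubgroup
    have key : ∀ t : P, ∃ t' : P, (t' : Qb) = σ (t : Qb) ∧
        IsLocalRing.residue P t' = φ (IsLocalRing.residue P t) := by
      intro t
      have ht' : σ (t : Qb) ∈ P :=
        (Fermat.Agent.S05.Inertia.apply_mem_iff_of_mem_decomposition hmem (t : Qb)).mpr t.2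
      refine ⟨⟨σ (t : Qb), ht'⟩, rfl, ?_⟩
      have h2 := Fermat.Agent.ES.GAL.ChebQbar23.sub_pow_mem_nonunits hσ t.2
      have h3 : ((⟨σ (t : Qb), ht'⟩ : P) - t ^ r : P) ∈ IsLocalRing.maximalIdeal P := by
        rw [← ValuationSubring.coe_mem_nonunits_iff]
        simpa using h2
      rw [← IsLocalRing.residue_eq_zero_iff, map_sub, map_pow, sub_eq_zero] at h3
      rw [h3, hφ]
    obtain ⟨a', ha', hra⟩ := key a
    obtain ⟨b', hb', hrb⟩ := key b
    have hns : (E⁄Qb).Nonsingular (σ.toAlgHom (a : Qb)) (σ.toAlgHom (b : Qb)) :=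
      (E.baseChange_nonsingular σ.toAlgHom.injective ..).mpr h1
    have hnsk : (W₀⁄(IsLocalRing.ResidueField P)).Nonsingular (φ (IsLocalRing.residue P a))
        (φ (IsLocalRing.residue P b)) :=
      (W₀.baseChange_nonsingular φ.injective ..).mpr h1'
    have e1 : σ • (Point.some _ _ h1 : (E⁄Qb).Point) = Point.some _ _ hns := rfl
    have e2 : Point.map (W' := W₀) φ (Point.some _ _ h1') = Point.some _ _ hnsk := rfl
    rw [e1, e2]
    have hns' : (E⁄Qb).Nonsingular (a' : Qb) (b' : Qb) := by rw [ha', hb']; exact hns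
    have hnsk' : (W₀⁄(IsLocalRing.ResidueField P)).Nonsingular (IsLocalRing.residue P a')
        (IsLocalRing.residue P b') := by rw [hra, hrb]; exact hnsk
    refine Or.inr ⟨a', b', hns', hnsk', ?_, ?_⟩
    · rw [Point.some.injEq]; exact ⟨ha'.symm, hb'.symm⟩
    · rw [Point.some.injEq]; exact ⟨hra.symm, hrb.symm⟩

end Frob

/-- **PART II**: the Eichler–Shimura relation on the odd prime-to-`r` torsion of `W(ℚ̄)` from the
relation in characteristic `r`. -/
theorem relQbar_of_relChar (W : WeierstrassCurve ℤ)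
    (hI : ∀ (r : ℕ) [Fact r.Prime], W.IsGoodPrimeFor r → RelChar r (W.reductionMod r)) :
    TraceCong20.RelQbar W := by
  classical
  intro r hr hgood m hm hrm P σ hP hσ Q hQ
  haveI : Fact r.Prime := ⟨hr⟩
  letI : Algebra (ZMod r) (IsLocalRing.ResidueField P) := (primeEmb P hr hP).toAlgebra
  set κ := IsLocalRing.ResidueField P with hκ
  set φ : κ →ₐ[ZMod r] κ := frobAlg r κ with hφdef
  have hφ : ∀ x : κ, φ x = x ^ r := fun x => rfl
  have hM := isModel_of_int (r := r) (P := P) W
  have hv : P.valuation ((m : ℕ) : Qb) = 1 :=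
    Fermat.Agent.S05.Inertia.valuation_natCast_eq_one hr hP hrm
  have hΔ : IsUnit (W.map (Int.castRingHom P)).Δ := by
    rw [WeierstrassCurve.map_Δ, eq_intCast]
    exact isUnit_intCast_of_not_dvd P hr hP hgood
  obtain ⟨R, hR⟩ := hM.exists_red hΔ hv hQ
  -- torsion
  have hsmul : ∀ (τ : GQ) (Q' : ((W.map (Int.castRingHom ℚ))⁄Qb).Point), m • Q' = 0 →
      m • (τ • Q') = 0 := by
    intro τ Q' hQ'
    rw [algEquiv_smul_def, ← map_nsmul, hQ', _root_.map_zero]
  have hσQ : m • (σ • Q) = 0 := hsmul σ Q hQ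
  have hσσQ : m • (σ • σ • Q) = 0 := hsmul σ _ hσQ
  have hR1 := red_frob hσ φ hφ hR
  have hR2 := red_frob hσ φ hφ hR1
  have h3 := hM.red_zsmul hR1 hm hv hσQ (W.apOfModel r)
  have h4 := hM.red_nsmul hR hm hv hQ r
  have h3t : m • (W.apOfModel r • (σ • Q)) = 0 := nsmul_zsmul_eq_zero hσQ _
  have h5 := hM.red_sub hR2 h3 hm hv hσσQ h3t
  have h5t : m • (σ • σ • Q - W.apOfModel r • (σ • Q)) = 0 := nsmul_sub_eq_zero hσσQ h3t
  have h4t : m • (r • Q) = 0 := nsmul_nsmul_eq_zero hQ _
  have h6 := hM.red_add h5 h4 hm hv h5t h4t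
  have hrel := hI r hgood κ φ hφ R
  rw [natCast_zsmul] at hrel
  exact (h6.eq_zero_iff).mpr hrel

end Fermat.Agent.ES.Q58.Red39
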