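/-
Programme Q (S58), FINAL GLUE for the Eichler–Shimura relation (helper88).

Inputs, all landed and sorry-free:
* `ManinUp88.deg_sub_frob`  (MANIN'S LEMMA, I-b): `deg (P₀ - φ P₀) = #W₀(𝔽_r)`;
* `FrobQuad53.ManinStmt` / `FrobRel53.frob_relation_of_manin` (PART I: the relation
  `φ² - a_r φ + r = 0` on `W₀(κ)` for every field `κ` over `ZMod r`, from Manin's lemma);
* `Red39.relQbar_of_relChar` (PART II: the relation on the odd prime-to-`r` torsion of `W(ℚ̄)`
  from the relation in characteristic `r`).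

Output: `relQbar : ∀ W : WeierstrassCurve ℤ, TraceCong20.RelQbar W`, UNCONDITIONALLY.
The glue follows helper84's integration check (report #349).
-/
import Mathlib
import Fermat.Agent.ES.Q58.ManinUp88
import Fermat.Agent.ES.Q58.FrobRel53
import Fermat.Agent.ES.Q58.Red39b

set_option autoImplicit false
set_option linter.unusedSectionVars false

open WeierstrassCurve WeierstrassCurve.Affine

namespace Fermat.Agent.ES.Q58.RelQbarFinal88

/-- **Manin's lemma, in the packaging of `FrobQuad53`.** -/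
theorem maninStmt {r : ℕ} [Fact r.Prime] (W₀ : Affine (ZMod r)) [DecidableEq W₀.FunctionField]
    (hΔ : W₀.Δ ≠ 0) : FrobQuad53.ManinStmt W₀ hΔ :=
  ManinUp88.deg_sub_frob W₀ hΔ

/-- **PART I, unconditional**: the relation `φ² - a_r φ + r = 0` on the points of an elliptic curve
over `ZMod r` with values in any field over `ZMod r`. -/
theorem frob_relation {r : ℕ} [Fact r.Prime] {W₀ : Affine (ZMod r)} (hΔ : W₀.Δ ≠ 0)
    {κ : Type*} [Field κ] [DecidableEq κ] [Algebra (ZMod r) κ] (Q : (W₀⁄κ).Point) :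
    Point.map (W' := W₀) (FrobAlg15.frobAlg r κ) (Point.map (W' := W₀) (FrobAlg15.frobAlg r κ) Q)
      - W₀.traceOfFrobenius • Point.map (W' := W₀) (FrobAlg15.frobAlg r κ) Q + (r : ℤ) • Q = 0 := by
  classical
  exact FrobRel53.frob_relation_of_manin (W₀ := W₀) hΔ (maninStmt W₀ hΔ) Q

/-- **PART I in the shape consumed by PART II.** -/
theorem relChar (r : ℕ) [Fact r.Prime] (W₀ : WeierstrassCurve (ZMod r)) (hΔ : W₀.Δ ≠ 0) :
    Red39.RelChar r W₀ := by
  classical
  intro κ _ _ _ φ hφ Q
  have hφ' : φ = FrobAlg15.frobAlg r κ := by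
    ext x; rw [hφ, FrobAlg15.frobAlg_apply]
  subst hφ'
  exact frob_relation (W₀ := W₀.toAffine) hΔ Q

/-- **THE EICHLER–SHIMURA RELATION on the generic fibre, unconditional.** -/
theorem relQbar (W : WeierstrassCurve ℤ) : TraceCong20.RelQbar W := by
  refine Red39.relQbar_of_relChar W (fun r _ hgood => relChar r _ ?_)
  rw [WeierstrassCurve.reductionMod, WeierstrassCurve.map_Δ, eq_intCast]
  intro h0
  exact hgood ((ZMod.intCast_zmod_eq_zero_iff_dvd _ _).mp h0)

end Fermat.Agent.ES.Q58.RelQbarFinal88
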